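import Fermat.Agent.PicFlat.Kum
import Fermat.Agent.FlatHopf.S32Core

/-!
# Flatness of the torsion of `J₀(N)`
-/

set_option autoImplicit false
set_option linter.unusedSectionVars false
set_option linter.style.haveILetI false
set_option synthInstance.maxHeartbeats 400000

noncomputable section

namespace Fermat.Agent.PicFlat

open AlgebraicCurve Fermat.Agent.Curves ModularCurve
open Fermat.Agent.FlatLoc Fermat.Agent.AnJac Fermat.Agent.ModFun Fermat.Agent.FlatHopf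

local notation "Qbar" => AlgebraicClosure ℚ
local notation "GQ" => (AlgebraicClosure ℚ ≃ₐ[ℚ] AlgebraicClosure ℚ)

/-- the Galois action on the lattice modulo `n` -/
def latRep (N : ℕ) [NeZero N] {n : ℕ} (hn : n ≠ 0) :
    GQ →* AddMonoid.End (Fin (Module.finrank ℤ (Lat N)) → ZMod n) where
  toFun σ := ((KQ N).M (bL N) hn σ).mulVecLin.toAddMonoidHom
  map_one' := by
    ext v : 1
    change ((KQ N).M (bL N) hn 1).mulVec v = v
    rw [KSys.M_one, Matrix.one_mulVec]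
  map_mul' σ τ := by
    ext v : 1
    change ((KQ N).M (bL N) hn (σ * τ)).mulVec v =
      ((KQ N).M (bL N) hn σ).mulVec (((KQ N).M (bL N) hn τ).mulVec v)
    rw [KSys.M_mul, Matrix.mulVec_mulVec]

theorem latRep_apply (N : ℕ) [NeZero N] {n : ℕ} (hn : n ≠ 0) (σ : GQ)
    (v : Fin (Module.finrank ℤ (Lat N)) → ZMod n) :
    latRep N hn σ v = ((KQ N).M (bL N) hn σ).mulVec v := rfl

section lat

variable (N : ℕ) [NeZero N] {n : ℕ} (hn : n ≠ 0)

/-- a lift to the lattice -/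
def lφ (v : Fin (Module.finrank ℤ (Lat N)) → ZMod n) : Lat N := (red_surjective (bL N) v).choose

theorem red_lφ (v : Fin (Module.finrank ℤ (Lat N)) → ZMod n) : KSys.red (bL N) n (lφ N v) = v :=
  (red_surjective (bL N) v).choose_spec

include hn in
theorem exists_u (v : Fin (Module.finrank ℤ (Lat N)) → ZMod n) :
    ∃ u : modularFunctionFieldFullC Qbar N, ClX N ιQ n (lφ N v) u := (KQ N).ex hn (lφ N v)

/-- the function attached to a class -/
def lu (v : Fin (Module.finrank ℤ (Lat N)) → ZMod n) : modularFunctionFieldFullC Qbar N :=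
  (exists_u N hn v).choose

theorem cl_lu (v : Fin (Module.finrank ℤ (Lat N)) → ZMod n) : ClX N ιQ n (lφ N v) (lu N hn v) :=
  (exists_u N hn v).choose_spec

theorem lu_ne (v : Fin (Module.finrank ℤ (Lat N)) → ZMod n) : lu N hn v ≠ 0 :=
  ClX.ne_zero ιQ (cl_lu N hn v)

include hn in
theorem exists_mul_pow {φ ψ : Lat N} {u v : modularFunctionFieldFullC Qbar N}
    (h : ClX N ιQ n φ u) (h' : ClX N ιQ n ψ v) (e : KSys.red (bL N) n φ = KSys.red (bL N) n ψ) :
    ∃ g : modularFunctionFieldFullC Qbar N, g ≠ 0 ∧ u = v * g ^ n := by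
  obtain ⟨χ, hχ⟩ := (KSys.red_eq_iff (bL N)).mp e
  exact (KQ N).eq_mul_pow hn h h' hχ

theorem lu_add (v w : Fin (Module.finrank ℤ (Lat N)) → ZMod n) :
    ∃ g : modularFunctionFieldFullC Qbar N, g ≠ 0 ∧
      lu N hn (v + w) = (lu N hn v * lu N hn w) * g ^ n := by
  refine exists_mul_pow N hn (cl_lu N hn (v + w))
    ((KQ N).mul (cl_lu N hn v) (cl_lu N hn w)) ?_
  rw [map_add, red_lφ, red_lφ, red_lφ]

theorem lu_inj {v w : Fin (Module.finrank ℤ (Lat N)) → ZMod n}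
    {z : modularFunctionFieldFullC Qbar N} (hz : z ≠ 0) (h : lu N hn v = lu N hn w * z ^ n) :
    v = w := by
  have h1 := (KQ N).mul (cl_lu N hn w) ((KQ N).pow hn hz 0)
  rw [← h, smul_zero, add_zero] at h1
  have h3 := (KSys.red_eq_iff (bL N)).mpr ((KQ N).uniq hn (cl_lu N hn v) h1)
  rwa [red_lφ, red_lφ] at h3

theorem lu_act (σ : GQ) (v : Fin (Module.finrank ℤ (Lat N)) → ZMod n) :
    ∃ g : modularFunctionFieldFullC Qbar N, g ≠ 0 ∧
      lu N hn (latRep N hn σ v) = actG N fQ σ (lu N hn v) * g ^ n := by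
  obtain ⟨ψ, hψ⟩ := (KQ N).gal hn σ (cl_lu N hn v)
  have h1 := (KQ N).M_mulVec (bL N) hn σ (cl_lu N hn v) hψ
  rw [red_lφ] at h1
  refine exists_mul_pow N hn (cl_lu N hn _) hψ ?_
  rw [red_lφ, latRep_apply, h1]

/-- the Kummer group of the lattice modulo `n` -/
def latKum : KumGrp N n (latRep N hn) where
  u v := lu N hn v
  mem v := (lu N hn v).2
  ne v h := lu_ne N hn v (Subtype.ext h)
  dvd v w := ClX.dvd_ord ιQ (cl_lu N hn v) w
  add v w := by
    obtain ⟨g, hg0, hg⟩ := lu_add N hn v w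
    exact ⟨g, g.2, fun h0 => hg0 (Subtype.ext h0), congrArg Subtype.val hg⟩
  inj v w := by
    rintro ⟨z, hz, hz0, h⟩
    exact lu_inj N hn (z := ⟨z, hz⟩) (fun h0 => hz0 (congrArg Subtype.val h0)) (Subtype.ext h)
  act σ v := by
    obtain ⟨g, hg0, hg⟩ := lu_act N hn σ v
    exact ⟨g, g.2, fun h0 => hg0 (Subtype.ext h0), congrArg Subtype.val hg⟩

end lat

/-- **flatness of the lattice modulo `n` at primes not dividing the level** -/
theorem isFlatMod_lat (N : ℕ) [NeZero N] {n : ℕ} (hn : n ≠ 0) {ℓ : ℕ} (hℓ : ℓ.Prime)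
    (hN : ¬ ℓ ∣ N) : IsFlatMod (Zloc ℓ) (latRep N hn) :=
  (latKum N hn).isFlatMod hn hℓ hN

/-- **flatness of the torsion of `J₀(N)` at primes not dividing the level** -/
theorem isFlatMod_tor (N : ℕ) [NeZero N] {n : ℕ} (hn : n ≠ 0) {ℓ : ℕ} (hℓ : ℓ.Prime)
    (hN : ¬ ℓ ∣ N) : Finite (Submodule.torsionBy ℤ (JZero N) (n : ℤ)) ∧
      IsFlatMod (Zloc ℓ) (torRep N (n : ℤ)) := by
  haveI : NeZero n := ⟨hn⟩
  obtain ⟨e, he⟩ := exists_equiv_E N (modularFunctionFieldBar N)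
    (Fermat.Agent.Curves.laurentBaseChange_eq _ N) (arithmeticGalois (modularFunctionFieldFull N))
    (fun σ x => coe_arithmeticGalois_smul _ σ x) hn
  refine ⟨Finite.of_equiv _ e.symm.toEquiv, ?_⟩
  exact (isFlatMod_lat N hn hℓ hN).sub (e : Submodule.torsionBy ℤ (JZero N) (n : ℤ) →+ _)
    e.injective fun σ x => he σ x (torRep N (n : ℤ) σ x) rfl

/-- **S19** -/
theorem s19Hyp (N : ℕ) [NeZero N] {ℓ : ℕ} (hℓ : ℓ.Prime) (hN : ¬ ℓ ∣ N) : S19Hyp N ℓ := by
  intro k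
  have hn : ℓ ^ k ≠ 0 := pow_ne_zero k hℓ.ne_zero
  obtain ⟨hfin, h⟩ := isFlatMod_tor N hn hℓ hN
  have hc : ((ℓ ^ k : ℕ) : ℤ) = (ℓ : ℤ) ^ k := by push_cast; rfl
  rw [hc] at hfin h
  haveI := hfin
  obtain ⟨H, i1, i2, h1, h2, h3, e, h4, h5⟩ := hopfFlat_of_isFlatMod hℓ h
  exact ⟨H, i1, i2, h1, h2, h3, e, h4, fun σ f g hfg => congrArg Subtype.val (h5 σ f g hfg)⟩

end Fermat.Agent.PicFlat
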