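import Fermat.Agent.PicFlat.Comul

/-!
# Existence of `TorData`
-/

set_option autoImplicit false
set_option linter.unusedSectionVars false
set_option linter.unusedDecidableInType false
set_option linter.style.haveILetI false

noncomputable section

namespace Fermat.Agent.PicFlat

open Polynomial AlgebraicCurve Fermat.Agent.Curves Module IntermediateField WithZero
open Fermat.Agent.GoodRed
open scoped Pointwise

variable {K κ : Type*} [Field K] [Field κ] [IsAlgClosed K] [IsAlgClosed κ] {A : ValuationSubring K}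
  {π : A →+* κ} [IsLocalHom π]
  {F Fb : Type*} [Field F] [Field Fb] [Algebra K F] [Algebra κ Fb]
  [IsFunctionField K F] [IsFunctionField κ Fb]
  {G : GaussRed A π F Fb}

/-- a group of divisor classes with a group action -/
structure ClsData {Γ : Type*} [Group Γ] (M : GalAct G Γ) (X : Type*) [AddCommGroup X]
    [MulAction Γ X] where
  rep : X → Divisor K F
  deg : ∀ x, Divisor.degree (rep x) = 0
  add : ∀ x y, Lin (rep (x + y)) (rep x + rep y)
  inj : ∀ x y, Lin (rep x) (rep y) → x = y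
  act : ∀ γ x, Lin (rep (γ • x)) (M.ρ γ • rep x)

theorem exists_torData {t : F} {tb : Fb} (h1 : GoodChart G t tb) (h2 : GoodChart G t⁻¹ tb⁻¹)
    (hr : RankOne π) {Γ : Type*} [Group Γ] (M : GalAct G Γ) (ht : ∀ γ, M.ρ γ • t = t)
    (hres : ∀ c : κ, ∃ a : A, M.Fix (a : K) ∧ π a = c)
    {X : Type*} [AddCommGroup X] [MulAction Γ X] [Finite X] (c : ClsData M X) :
    ∃ gen cc : ℤ, Nonempty (TorData (ofCharts h1 h2) M gen cc X) := by
  obtain ⟨gen, cc, hK, hκ⟩ := exists_RR_both h1 h2 hr
  have hT := M.exists_fixPl h1 h2 ht hres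
  refine ⟨gen, cc, ?_⟩
  set C := ofCharts h1 h2 with hC
  obtain ⟨P, hP, -⟩ := hT ∅ Set.finite_empty
  have hfix : ∀ γ, M.ρ γ • (Finsupp.single P 1 : Divisor K F) = Finsupp.single P 1 := fun γ => by
    rw [SemilinearAut.smul_single, hP γ]
  obtain ⟨e, he1, he2, he3⟩ := M.exists_nonspecial (C := C) hκ hT (m₀ := Finsupp.single P 1) hfix
    (by rw [degree_single_one]; exact one_pos) (Set.range fun x => C.red (c.rep x))
    (Set.finite_range _) (by
      rintro _ ⟨x, rfl⟩
      rw [C.degree_red, c.deg])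
  exact ⟨{
    rep := c.rep
    deg := c.deg
    add := c.add
    inj := c.inj
    act := c.act
    hK := hK
    hκ := hκ
    hT := hT
    e := e
    e_fix := he1
    e_deg := he2
    e_ell := fun x => he3 _ ⟨x, rfl⟩
    m := (max (cc + 1 + gen) 1).toNat • Finsupp.single P 1
    m_fix := fun γ => by
      have := map_nsmul (DistribSMul.toAddMonoidHom (Divisor K F) (M.ρ γ))
        (max (cc + 1 + gen) 1).toNat (Finsupp.single P 1)
      change M.ρ γ • ((max (cc + 1 + gen) 1).toNat • (Finsupp.single P 1 : Divisor K F)) =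
        (max (cc + 1 + gen) 1).toNat • (M.ρ γ • (Finsupp.single P 1 : Divisor K F)) at this
      rw [this, hfix]
    m_deg := by
      rw [map_nsmul, degree_single_one, nsmul_eq_mul, mul_one]
      exact Int.self_le_toNat _ }⟩

/-- **the local order**, abstract form -/
theorem exists_order {t : F} {tb : Fb} (h1 : GoodChart G t tb) (h2 : GoodChart G t⁻¹ tb⁻¹)
    (hr : RankOne π) {Γ : Type*} [Group Γ] (M : GalAct G Γ) (ht : ∀ γ, M.ρ γ • t = t)
    (hres : ∀ c : κ, ∃ a : A, M.Fix (a : K) ∧ π a = c)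
    {X : Type*} [AddCommGroup X] [MulAction Γ X] [Finite X] (c : ClsData M X) :
    ∃ H : Subring (X → K), (∀ f ∈ H, ∀ x, f x ∈ A) ∧
      (∀ f ∈ H, ∀ γ x, f (γ • x) = SemilinearAut.baseAut (M.ρ γ) (f x)) ∧
      (∀ x y, (∀ h ∈ H, h x = h y) → x = y) ∧
      (∀ f ∈ H, (fun q : X × X => f (q.1 + q.2)) ∈ sq H) := by
  obtain ⟨gen, cc, ⟨τ⟩⟩ := exists_torData h1 h2 hr M ht hres c
  exact ⟨τ.H, fun f hf x => τ.val_mem hf x, fun f hf γ x => τ.equiv hf γ x,
    fun x y h => τ.sep h, fun f hf => τ.comul hf⟩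

end Fermat.Agent.PicFlat
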