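import Fermat.Agent.PicFlat.Descent
import Fermat.Agent.PicFlat.TorOf
import Fermat.Agent.GoodRed.S37Core
import Fermat.Agent.Carayol.JChart
import Fermat.Agent.Carayol.Inertia2

/-!
# The local order of a finite group of divisor classes on a modular curve
-/

set_option autoImplicit false
set_option linter.unusedSectionVars false
set_option linter.style.haveILetI false
set_option synthInstance.maxHeartbeats 400000

noncomputable section

namespace Fermat.Agent.PicFlat

open AlgebraicCurve Fermat.Agent.Curves Module IntermediateField ModularCurve IsLocalRing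
open Fermat.Agent.GoodRed Fermat.Agent.FlatLoc
open Fermat.Agent.GenusX0 (je transcendental_je)
open scoped Pointwise

local notation "Qbar" => AlgebraicClosure ℚ
local notation "GQ" => (AlgebraicClosure ℚ ≃ₐ[ℚ] AlgebraicClosure ℚ)

/-- a group of divisor classes with Galois action -/
structure ClassGrp {E : Type*} [Field E] [Algebra Qbar E] [IsFunctionField Qbar E]
    (g : GQ →* SemilinearAut Qbar E) {X : Type*} [AddCommGroup X]
    (ρ : GQ →* AddMonoid.End X) where
  rep : X → Divisor Qbar E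
  deg : ∀ x, Divisor.degree (rep x) = 0
  add : ∀ x y, Lin (rep (x + y)) (rep x + rep y)
  inj : ∀ x y, Lin (rep x) (rep y) → x = y
  act : ∀ σ x, Lin (rep (ρ σ x)) (g σ • rep x)

/-- the action is coefficientwise -/
structure CoeffAct {E : IntermediateField Qbar (LaurentSeries Qbar)}
    (g : GQ →* SemilinearAut Qbar E) : Prop where
  base : ∀ σ a, SemilinearAut.baseAut (g σ) a = σ a
  coe : ∀ σ (f : E), ((g σ • f : E) : LaurentSeries Qbar) =
    coeffMap (σ : Qbar →+* Qbar) (f : LaurentSeries Qbar)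

variable {A : ValuationSubring Qbar} {ℓ : ℕ}

theorem exists_jGood (hℓ : ℓ.Prime) (hA : A.LiesOverPrime ℓ) (M : ℕ)
    (h2 : ℓ = 2 → 3 ∣ M) (h3 : ℓ = 3 → 2 ∣ M)
    (hNK : (M : Qbar) ≠ 0) (hNκ : (M : ResidueField A) ≠ 0) :
    haveI := isFunctionField_fullC Qbar M hNK
    haveI := isFunctionField_fullC (ResidueField A) M hNκ
    GoodChart (modGauss (residue A) M residue_surjective hNK hNκ) (je Qbar M)
        (je (ResidueField A) M) ∧
      GoodChart (modGauss (residue A) M residue_surjective hNK hNκ) (je Qbar M)⁻¹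
        (je (ResidueField A) M)⁻¹ := by
  obtain ⟨ι⟩ := exists_emb_Qbar
  haveI := FrobDens.charP_residueField A hℓ hA
  by_cases hℓ2 : ℓ = 2
  · subst hℓ2
    exact Carayol.jGood_two (residue A) M ι residue_surjective hNK hNκ (h2 rfl)
  by_cases hℓ3 : ℓ = 3
  · subst hℓ3
    exact Carayol.jGood_three (residue A) M ι residue_surjective hNK hNκ (h3 rfl)
  · refine modGoodChart (residue A) M ι ?_ residue_surjective hNK hNκ
    intro h
    have h' : ((6 : ℕ) : ResidueField A) = 0 := by exact_mod_cast h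
    rw [CharP.cast_eq_zero_iff (ResidueField A) ℓ] at h'
    have h6 : ℓ ∣ 2 * 3 := h'
    rcases (Nat.Prime.dvd_mul hℓ).1 h6 with h | h
    · exact hℓ2 ((Nat.prime_dvd_prime_iff_eq hℓ Nat.prime_two).1 h)
    · exact hℓ3 ((Nat.prime_dvd_prime_iff_eq hℓ Nat.prime_three).1 h)

/-- inertia acts on the Gauss reduction -/
def galAct (M : ℕ)
    (hNK : (M : Qbar) ≠ 0) (hNκ : (M : ResidueField A) ≠ 0)
    (g : GQ →* SemilinearAut Qbar (modularFunctionFieldFullC Qbar M)) (hg : CoeffAct g) :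
    GalAct (modGauss (residue A) M residue_surjective hNK hNκ) ↥(A.inertiaSubgroupIn ℚ) where
  ρ := g.comp (A.inertiaSubgroupIn ℚ).subtype
  base := by
    rintro ⟨σ, hσ⟩ a
    refine ⟨⟨σ a, ?_⟩, ?_, ?_⟩
    · exact LocData.mem_of_decomp (TWGal.inertia_le_decomp hσ) a.2
    · exact (hg.base σ a).symm
    · rw [← sub_eq_zero, ← map_sub, residue_eq_zero_iff]
      refine (A.valuation_lt_one_iff _).2 ?_
      exact val_inertia hσ a.2
  fn := by
    rintro ⟨σ, hσ⟩ f fb h
    rw [modGauss_R] at h ⊢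
    obtain ⟨hdec, hact⟩ := HeckeQ.actK_inertia hσ
    have h2 : HeckeQ.Rd A (coeffMap (σ : Qbar →+* Qbar) (f : LaurentSeries Qbar))
        (coeffMap (HeckeQ.actK σ hdec : _ →+* ResidueField A)
          (fb : LaurentSeries (ResidueField A))) := HeckeQ.Rd.gal h σ hdec
    have e1 : coeffMap (HeckeQ.actK σ hdec : _ →+* ResidueField A)
        (fb : LaurentSeries (ResidueField A)) = fb := by
      ext n
      simp only [coeffMap_coeff]
      exact hact _
    rw [e1] at h2
    change LR (residue A) ((g σ • f : modularFunctionFieldFullC Qbar M) : LaurentSeries Qbar) _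
    rw [hg.coe]
    exact h2

theorem exists_fix (hℓ : ℓ.Prime) (hA : A.LiesOverPrime ℓ) (c : ResidueField A) :
    ∃ a : A, (∀ σ ∈ A.inertiaSubgroupIn ℚ, σ (a : Qbar) = a) ∧ residue A a = c := by
  obtain ⟨a, ha⟩ := Carayol.π0_surjective hℓ hA c
  exact ⟨Carayol.inclA A a, (Carayol.mem_K0 A).1 a.1.2, ha⟩

theorem smul_je (M : ℕ)
    (g : GQ →* SemilinearAut Qbar (modularFunctionFieldFullC Qbar M)) (hg : CoeffAct g) (σ : GQ) :
    g σ • je Qbar M = je Qbar M := by
  apply Subtype.ext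
  rw [hg.coe]
  exact coeffMap_jqModC _

theorem exists_locData_aux (hℓ : ℓ.Prime) (hA : A.LiesOverPrime ℓ) (M : ℕ) (hMℓ : ¬ ℓ ∣ M)
    (h2 : ℓ = 2 → 3 ∣ M) (h3 : ℓ = 3 → 2 ∣ M)
    [hff : IsFunctionField Qbar (modularFunctionFieldFullC Qbar M)]
    (g : GQ →* SemilinearAut Qbar (modularFunctionFieldFullC Qbar M)) (hg : CoeffAct g)
    {X : Type*} [AddCommGroup X] [Finite X]
    {ρ : GQ →* AddMonoid.End X} (c : ClassGrp g ρ) : ∃ H : Subring (X → Qbar), LocData A ρ H := by
  have hM0 : M ≠ 0 := fun h => hMℓ (h ▸ dvd_zero _)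
  have hNK : (M : Qbar) ≠ 0 := by exact_mod_cast hM0
  have hNκ : (M : ResidueField A) ≠ 0 := residue_ne_zero hℓ hA hMℓ
  haveI := isFunctionField_fullC (ResidueField A) M hNκ
  letI act : MulAction ↥(A.inertiaSubgroupIn ℚ) X :=
    { smul := fun γ x => ρ γ x
      one_smul := fun x => rho_one ρ x
      mul_smul := fun γ δ x => rho_mul ρ γ δ x }
  obtain ⟨hc1, hc2⟩ := exists_jGood hℓ hA M h2 h3 hNK hNκ
  obtain ⟨H, hv, he, hs, hc⟩ := exists_order hc1 hc2 (rankOne_Qbar hℓ hA)
    (galAct M hNK hNκ g hg) (fun γ => smul_je M g hg γ) (fun c => by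
      obtain ⟨a, ha, hac⟩ := exists_fix hℓ hA c
      exact ⟨a, ⟨a.2, fun σ => (hg.base σ a).trans (ha σ σ.2)⟩, hac⟩)
    (X := X) ⟨c.rep, c.deg, c.add, c.inj, fun γ x => c.act γ x⟩
  exact ⟨H, hv, fun f hf σ hσ x => (he f hf ⟨σ, hσ⟩ x).trans (hg.base σ (f x)), hs, hc⟩

/-- **the local order** -/
theorem exists_locData (hℓ : ℓ.Prime) (hA : A.LiesOverPrime ℓ) (M : ℕ) (hMℓ : ¬ ℓ ∣ M)
    (h2 : ℓ = 2 → 3 ∣ M) (h3 : ℓ = 3 → 2 ∣ M)
    {E : IntermediateField Qbar (LaurentSeries Qbar)} (hE : E = modularFunctionFieldFullC Qbar M)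
    [IsFunctionField Qbar E] (g : GQ →* SemilinearAut Qbar E) (hg : CoeffAct g)
    {X : Type*} [AddCommGroup X] [Finite X]
    {ρ : GQ →* AddMonoid.End X} (c : ClassGrp g ρ) : ∃ H : Subring (X → Qbar), LocData A ρ H := by
  subst hE
  exact exists_locData_aux hℓ hA M hMℓ h2 h3 g hg c

end Fermat.Agent.PicFlat
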