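import Fermat.Agent.GoodRed.Rigid

/-!
# Dimensions of Riemann-Roch spaces in large degree
-/

set_option autoImplicit false

noncomputable section

namespace Fermat.Agent.PicFlat

open AlgebraicCurve IntermediateField WithZero Fermat.Agent.Curves Fermat.Agent.GoodRed

variable {k F : Type*} [Field k] [Field F] [Algebra k F] [IsFunctionField k F] [IsAlgClosed k]

/-- `l(D)` -/
def ell (D : Divisor k F) : ℕ := Module.finrank k (riemannRochSpace D)

omit [IsFunctionField k F] [IsAlgClosed k] in
theorem mem_iff_of_ne {D : Divisor k F} {f : F} (hf : f ≠ 0) :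
    f ∈ riemannRochSpace D ↔ ∀ v : Place k F, 0 ≤ v.ord f + D v := by
  rw [mem_riemannRochSpace_iff]
  refine forall_congr' fun v => ?_
  constructor
  · intro h
    have := h.resolve_left hf
    omega
  · intro h
    right
    omega

theorem mem_iff_div {D : Divisor k F} {f : F} (hf : f ≠ 0) :
    f ∈ riemannRochSpace D ↔ 0 ≤ divisorOf f + D := by
  rw [mem_iff_of_ne hf]
  rfl

theorem ell_mono {D D' : Divisor k F} (h : D ≤ D') : ell D ≤ ell D' :=
  Submodule.finrank_mono (riemannRochSpace_mono h)

theorem ell_add_le (D E : Divisor k F) (hE : 0 ≤ E) :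
    (ell (D + E) : ℤ) ≤ ell D + Divisor.degree E := finrank_add_le D E hE

theorem ell_eq_zero {D : Divisor k F} (h : Divisor.degree D < 0) : ell D = 0 := by
  by_contra hne
  obtain ⟨f, hf0, hf⟩ := exists_mem_of_finrank_pos (Nat.pos_of_ne_zero hne)
  have := pos_of_nonneg_degree _ hf
  rw [map_add, degree_divisorOf] at this
  omega

/-- multiplication by `z` -/
theorem mul_mem_iff {D : Divisor k F} {z f : F} (hz : z ≠ 0) :
    z * f ∈ riemannRochSpace (D - divisorOf z) ↔ f ∈ riemannRochSpace D := by
  rcases eq_or_ne f 0 with rfl | hf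
  · rw [mul_zero]
    exact ⟨fun _ => Submodule.zero_mem _, fun _ => Submodule.zero_mem _⟩
  rw [mem_iff_of_ne (mul_ne_zero hz hf), mem_iff_of_ne hf]
  refine forall_congr' fun v => ?_
  rw [v.ord_mul hz hf, Finsupp.sub_apply, divisorOf_apply]
  constructor <;> intro h <;> omega

theorem ell_sub_divisorOf (D : Divisor k F) {z : F} (hz : z ≠ 0) :
    ell (D - divisorOf z) = ell D := by
  have e : riemannRochSpace D ≃ₗ[k] riemannRochSpace (D - divisorOf z) :=
    { toFun := fun f => ⟨z * f, (mul_mem_iff hz).2 f.2⟩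
      invFun := fun f => ⟨z⁻¹ * f, (mul_mem_iff (D := D) hz).1 (by
        rw [mul_inv_cancel_left₀ hz]; exact f.2)⟩
      left_inv := fun f => Subtype.ext (inv_mul_cancel_left₀ hz _)
      right_inv := fun f => Subtype.ext (mul_inv_cancel_left₀ hz _)
      map_add' := fun f g => Subtype.ext (mul_add _ _ _)
      map_smul' := fun c f => Subtype.ext (mul_smul_comm _ _ _) }
  exact e.finrank_eq.symm

theorem ell_add_divisorOf (D : Divisor k F) {z : F} (hz : z ≠ 0) :
    ell (D + divisorOf z) = ell D := by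
  have := ell_sub_divisorOf (D + divisorOf z) hz
  rw [add_sub_cancel_right] at this
  exact this.symm

/-- **Riemann's theorem** -/
theorem riemann : ∃ g c : ℤ, (∀ D : Divisor k F, Divisor.degree D + 1 - g ≤ ell D) ∧
    ∀ D : Divisor k F, c ≤ Divisor.degree D → (ell D : ℤ) = Divisor.degree D + 1 - g := by
  classical
  obtain ⟨C, hC⟩ := riemann_inequality (k := k) (F := F)
  obtain ⟨n, B, C', hn, hB0, hC0, hBn, hmany⟩ := exists_many_sections (k := k) (F := F)
  let δ : Divisor k F → ℤ := fun D => Divisor.degree D + 1 - ell D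
  have hδmono : ∀ {D D' : Divisor k F}, D ≤ D' → δ D ≤ δ D' := by
    intro D D' h
    have h1 := ell_add_le D (D' - D) (sub_nonneg.2 h)
    rw [add_sub_cancel, map_sub] at h1
    simp only [δ]
    omega
  have hδdiv : ∀ (D : Divisor k F) {z : F}, z ≠ 0 → δ (D + divisorOf z) = δ D := by
    intro D z hz
    simp only [δ, map_add, degree_divisorOf, add_zero]
    rw [ell_add_divisorOf D hz]
  have hbd : ∀ D : Divisor k F, δ D ≤ 1 + Divisor.degree C' := by
    intro D
    obtain ⟨l, hl⟩ : ∃ l : ℕ, (C : ℤ) ≤ Divisor.degree (l • B + C' - D) := by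
      refine ⟨(C + Divisor.degree D - Divisor.degree C').toNat, ?_⟩
      rw [map_sub, map_add, map_nsmul, hBn, nsmul_eq_mul]
      have h1 := Int.self_le_toNat (C + Divisor.degree D - Divisor.degree C')
      have h2 : (1 : ℤ) ≤ n := by exact_mod_cast hn
      nlinarith [Int.natCast_nonneg (C + Divisor.degree D - Divisor.degree C').toNat]
    obtain ⟨f, hf0, hf⟩ := hC _ hl
    have h1 : D ≤ (l • B + C') + divisorOf f := by
      have : 0 ≤ ((l • B + C') + divisorOf f) - D := by
        rw [show ((l • B + C') + divisorOf f) - D = divisorOf f + (l • B + C' - D) by abel]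
        exact hf
      exact sub_nonneg.1 this
    refine (hδmono h1).trans ?_
    rw [hδdiv _ hf0]
    simp only [δ]
    rw [map_add, map_nsmul, hBn, nsmul_eq_mul]
    have h2 := hmany l
    have h3 : ((l + 1) * n : ℤ) ≤ ell (l • B + C') := by exact_mod_cast h2
    have h4 : (0 : ℤ) ≤ n := Int.natCast_nonneg _
    nlinarith
  obtain ⟨D₀, hD₀⟩ : ∃ D₀, ∀ D, δ D ≤ δ D₀ := by
    obtain ⟨m, ⟨D₀, hm⟩, hmax⟩ := Int.exists_greatest_of_bdd (P := fun m => ∃ D, δ D = m)
      ⟨1 + Divisor.degree C', by rintro z ⟨D, rfl⟩; exact hbd D⟩ ⟨δ 0, 0, rfl⟩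
    exact ⟨D₀, fun D => by rw [hm]; exact hmax _ ⟨D, rfl⟩⟩
  refine ⟨δ D₀, C + Divisor.degree D₀, fun D => ?_, fun D hD => ?_⟩
  · have := hD₀ D
    simp only [δ] at this ⊢
    omega
  · obtain ⟨f, hf0, hf⟩ := hC (D - D₀) (by rw [map_sub]; omega)
    have h1 : D₀ ≤ D + divisorOf f := by
      have : 0 ≤ (D + divisorOf f) - D₀ := by
        rw [show (D + divisorOf f) - D₀ = divisorOf f + (D - D₀) by abel]
        exact hf
      exact sub_nonneg.1 this
    have h2 := hδmono h1
    rw [hδdiv _ hf0] at h2
    have h3 := hD₀ D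
    have h4 : δ D = δ D₀ := le_antisymm h3 h2
    simp only [δ] at h4 ⊢
    omega

/-- `RR g c`: Riemann-Roch in degrees `≥ c` with genus `g`. -/
structure RR (k F : Type*) [Field k] [Field F] [Algebra k F] [IsFunctionField k F]
    (g c : ℤ) : Prop where
  le : ∀ D : Divisor k F, Divisor.degree D + 1 - g ≤ ell D
  eq : ∀ D : Divisor k F, c ≤ Divisor.degree D → (ell D : ℤ) = Divisor.degree D + 1 - g

theorem exists_RR : ∃ g c : ℤ, RR k F g c := by
  obtain ⟨g, c, h1, h2⟩ := riemann (k := k) (F := F)
  exact ⟨g, c, h1, h2⟩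

omit [IsAlgClosed k] in
theorem RR.mono {g c c' : ℤ} (h : RR k F g c) (hc : c ≤ c') : RR k F g c' :=
  ⟨h.le, fun D hD => h.eq D (hc.trans hD)⟩

theorem degree_single_one (P : Place k F) (n : ℤ) :
    Divisor.degree (Finsupp.single P n : Divisor k F) = n := by
  rw [Divisor.degree_single, deg_eq_one]
  simp

/-- base point freeness -/
theorem RR.bpf {g c : ℤ} (h : RR k F g c) {D : Divisor k F} (hD : c + 1 ≤ Divisor.degree D)
    (P : Place k F) : ∃ f ∈ riemannRochSpace D, f ≠ 0 ∧ P.ord f = -D P := by
  classical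
  have h1 := h.eq D (by omega)
  have h2 := h.eq (D - Finsupp.single P 1) (by rw [map_sub, degree_single_one]; omega)
  rw [map_sub, degree_single_one] at h2
  by_contra hcon
  push Not at hcon
  have hle : riemannRochSpace D ≤ riemannRochSpace (D - Finsupp.single P 1) := by
    intro f hf
    rcases eq_or_ne f 0 with rfl | hf0
    · exact Submodule.zero_mem _
    rw [mem_iff_of_ne hf0]
    intro v
    have h3 := (mem_iff_of_ne hf0).1 hf v
    rw [Finsupp.sub_apply]
    by_cases hv : v = P
    · subst hv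
      have h4 := hcon f hf hf0
      rw [Finsupp.single_eq_same]
      omega
    · rw [Finsupp.single_eq_of_ne hv]
      omega
  have h3 := Submodule.finrank_mono hle
  change ell D ≤ ell (D - Finsupp.single P 1) at h3
  omega

/-- colon of Riemann-Roch spaces -/
theorem RR.colon {g c : ℤ} (h : RR k F g c) {D E : Divisor k F} (hD : c + 1 ≤ Divisor.degree D)
    (v : F) : v ∈ riemannRochSpace (E - D) ↔
      ∀ u ∈ riemannRochSpace D, v * u ∈ riemannRochSpace E := by
  rcases eq_or_ne v 0 with rfl | hv
  · simp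
  constructor
  · intro hvm u hu
    rcases eq_or_ne u 0 with rfl | hu0
    · rw [mul_zero]; exact Submodule.zero_mem _
    rw [mem_iff_of_ne (mul_ne_zero hv hu0)]
    intro P
    have h1 := (mem_iff_of_ne hv).1 hvm P
    have h2 := (mem_iff_of_ne hu0).1 hu P
    rw [Finsupp.sub_apply] at h1
    rw [P.ord_mul hv hu0]
    omega
  · intro hall
    rw [mem_iff_of_ne hv]
    intro P
    obtain ⟨u, hu, hu0, hP⟩ := h.bpf hD P
    have h1 := (mem_iff_of_ne (mul_ne_zero hv hu0)).1 (hall u hu) P
    rw [P.ord_mul hv hu0, hP] at h1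
    rw [Finsupp.sub_apply]
    omega

/-- dropping a point which is not a base point -/
theorem ell_sub_single {D : Divisor k F} {P : Place k F} {f : F} (hf0 : f ≠ 0)
    (hf : f ∈ riemannRochSpace D) (hP : P.ord f = -D P) :
    (ell D : ℤ) = ell (D - Finsupp.single P 1) + 1 := by
  classical
  have h1 := ell_add_le (D - Finsupp.single P 1) (Finsupp.single P 1) (by
    rw [Finsupp.single_nonneg]; norm_num)
  rw [sub_add_cancel, degree_single_one] at h1
  have hlt : riemannRochSpace (D - Finsupp.single P 1) < riemannRochSpace D := by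
    refine lt_of_le_of_ne (riemannRochSpace_mono ?_) fun heq => ?_
    · intro v
      rw [Finsupp.sub_apply]
      have : (0 : ℤ) ≤ (Finsupp.single P (1 : ℤ) : Place k F →₀ ℤ) v := by
        by_cases hv : v = P
        · subst hv; rw [Finsupp.single_eq_same]; norm_num
        · rw [Finsupp.single_eq_of_ne hv]
      omega
    · rw [← heq] at hf
      have h2 := (mem_iff_of_ne hf0).1 hf P
      rw [Finsupp.sub_apply, Finsupp.single_eq_same] at h2
      omega
  have h2 := Submodule.finrank_lt_finrank_of_lt hlt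
  change ell (D - Finsupp.single P 1) < ell D at h2
  omega

end Fermat.Agent.PicFlat
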