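import Fermat.Agent.AnJac.Lat
import Fermat.Agent.AnJac.HeckeF

/-!
# Kummer classes under raising the level by a prime
-/

set_option autoImplicit false
set_option linter.unusedSectionVars false

noncomputable section

namespace Fermat.Agent.PicFlat

open UpperHalfPlane ModularForm MatrixGroups Matrix.SpecialLinearGroup Filter Function
open Fermat.Agent.AnJac Fermat.Agent.DimS2 Fermat.Agent.ModFun CongruenceSubgroup ModularCurve
open AlgebraicCurve

/-- lower unipotent -/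
def LL (m : ℤ) : SL(2,ℤ) := ⟨!![1, 0; m, 1], by simp [Matrix.det_fin_two]⟩

theorem LL_mem {M : ℕ} (k : ℤ) : LL (M * k) ∈ Gamma0 M := by
  rw [Gamma0_mem]
  simp [LL]

theorem isA_level {N m : ℕ} {f : ℍ → ℂ} (hf : IsA N f) : IsA (N * m) f := by
  refine ⟨hf.mdiff, fun δ τ => ?_, hf.mg⟩
  induction m generalizing τ with
  | zero => rw [mul_zero, pow_zero, one_smul]
  | succ m ih =>
    have h1 : ModularGroup.T ^ (N * (m + 1)) • τ =
        ModularGroup.T ^ (N * m) • (ModularGroup.T ^ N • τ) := by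
      rw [← mul_smul, ← pow_add]
      rfl
    rw [h1, ih, hf.per]

theorem level_le {N m : ℕ} {γ : SL(2,ℤ)} (h : γ ∈ Gamma0 (N * m)) : γ ∈ Gamma0 N := by
  rw [Gamma0_mem] at h ⊢
  rw [ZMod.intCast_zmod_eq_zero_iff_dvd] at h ⊢
  exact (Int.natCast_dvd_natCast.mpr (Dvd.intro m rfl)).trans h

/-- inclusion of the groups -/
def inclG (N m : ℕ) : Gamma0 (N * m) →* Gamma0 N := Subgroup.inclusion fun _ h => level_le h

theorem isChar_level {N m n : ℕ} {u : LaurentSeries ℂ} {χ : Gamma0 N →* ℂˣ}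
    (h : IsChar N n u χ) : IsChar (N * m) n u (χ.comp (inclG N m)) := by
  obtain ⟨hn, hp, G, b, hG, hb, hG0, hb0, he⟩ := h
  refine ⟨fun γ hγ => hn _ hγ, ?_, G, b, ⟨isA_level hG.isA, fun γ τ => hG.inv (inclG N m γ) τ⟩,
    ⟨isA_level hb.isA, fun γ τ => hb.inv (inclG N m γ) τ⟩, hG0, hb0, he⟩
  ext γ
  have := DFunLike.congr_fun hp (inclG N m γ)
  rw [MonoidHom.pow_apply] at this ⊢
  rw [MonoidHom.comp_apply, this]
  rfl

/-- characters killing the non-hyperbolic elements and trivial at a higher prime level are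
trivial -/
theorem char_eq_one {M q : ℕ} (hq : q.Prime) {χ : Gamma0 M →* ℂˣ} (h : IsNH χ)
    (h1 : χ.comp (inclG M q) = 1) : χ = 1 := by
  have key : ∀ γ : Gamma0 M, ¬ (q : ℤ) ∣ (γ : SL(2,ℤ)) 1 1 → χ γ = 1 := by
    intro γ hd
    obtain ⟨c, hc⟩ : (M : ℤ) ∣ (γ : SL(2,ℤ)) 1 0 := by
      have := γ.2
      rwa [Gamma0_mem, ZMod.intCast_zmod_eq_zero_iff_dvd] at this
    have hcop : IsCoprime (q : ℤ) ((γ : SL(2,ℤ)) 1 1) :=
      (Prime.coprime_iff_not_dvd (Nat.prime_iff_prime_int.mp hq)).mpr hd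
    obtain ⟨a, b, hab⟩ := hcop
    -- `c + d k ≡ 0`
    have hk : (q : ℤ) ∣ c + (γ : SL(2,ℤ)) 1 1 * (-(b * c)) := by
      refine ⟨a * c, ?_⟩
      linear_combination c * hab.symm
    have hmem : (γ : SL(2,ℤ)) * LL (M * (-(b * c))) ∈ Gamma0 (M * q) := by
      rw [Gamma0_mem, ZMod.intCast_zmod_eq_zero_iff_dvd]
      obtain ⟨e, he⟩ := hk
      refine ⟨e, ?_⟩
      have h2 : ((γ : SL(2,ℤ)) * LL (M * (-(b * c)))) 1 0 =
          (γ : SL(2,ℤ)) 1 0 + (γ : SL(2,ℤ)) 1 1 * (M * (-(b * c))) := by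
        change ((γ : SL(2,ℤ)).1 * (LL (M * (-(b * c)))).1) 1 0 = _
        rw [Matrix.mul_apply, Fin.sum_univ_two]
        simp [LL]
      rw [h2, hc]
      push_cast
      linear_combination (M : ℤ) * he
    have h3 := DFunLike.congr_fun h1 ⟨_, hmem⟩
    have h4 : inclG M q ⟨_, hmem⟩ = γ * ⟨LL (M * (-(b * c))), LL_mem _⟩ := rfl
    rw [MonoidHom.comp_apply, h4, map_mul, MonoidHom.one_apply, h ⟨LL (M * (-(b * c))), LL_mem _⟩,
      mul_one] at h3
    · exact h3
    · simp [LL]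
  refine MonoidHom.ext fun γ => ?_
  rw [MonoidHom.one_apply]
  by_cases hd : (q : ℤ) ∣ (γ : SL(2,ℤ)) 1 1
  · have h2 : ¬ (q : ℤ) ∣ ((γ * TT M : Gamma0 M) : SL(2,ℤ)) 1 1 := by
      have h3 : ((γ * TT M : Gamma0 M) : SL(2,ℤ)) 1 1 =
          (γ : SL(2,ℤ)) 1 0 + (γ : SL(2,ℤ)) 1 1 := by
        change ((γ : SL(2,ℤ)).1 * (ModularGroup.T).1) 1 1 = _
        rw [Matrix.mul_apply, Fin.sum_univ_two]
        simp [ModularGroup.T]
      rw [h3]
      intro h4
      have h5 : (q : ℤ) ∣ (γ : SL(2,ℤ)) 1 0 := (Int.dvd_add_left hd).mp h4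
      have hdet := (γ : SL(2,ℤ)).det_coe
      rw [Matrix.det_fin_two] at hdet
      have h6 : (q : ℤ) ∣ 1 := by
        rw [← hdet]
        exact dvd_sub (Dvd.dvd.mul_left hd _) (Dvd.dvd.mul_left h5 _)
      exact (Nat.prime_iff_prime_int.mp hq).not_isUnit (isUnit_of_dvd_one h6)
    have h3 := key _ h2
    rwa [map_mul, h.T, mul_one] at h3
  · exact key γ hd

variable {k : Type*} [Field k] [IsAlgClosed k] [CharZero k] (ι : k →+* ℂ)

include ι in
/-- **Kummer classes are not killed by raising the level by a prime** -/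
theorem exists_root_level {M q n : ℕ} [NeZero M] [NeZero (M * q)] (hq : q.Prime)
    (hn : n ≠ 0) {u : modularFunctionFieldFullC k M} (hu : u ≠ 0)
    (hord : ∀ v : Place k (modularFunctionFieldFullC k M), (n : ℤ) ∣ v.ord u)
    {w : LaurentSeries k} (hw : w ∈ modularFunctionFieldFullC k (M * q))
    (hwn : w ^ n = (u : LaurentSeries k)) :
    ∃ g : modularFunctionFieldFullC k M, g ≠ 0 ∧ g ^ n = u := by
  obtain ⟨χ, hχ⟩ := exists_char ι hn hu hord
  have hw0 : w ≠ 0 := by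
    rintro rfl
    rw [zero_pow hn] at hwn
    exact hu (Subtype.ext hwn.symm)
  have h1 := isChar_level (m := q) hχ
  have h2 : IsChar (M * q) n (coeffMap ι (u : LaurentSeries k)) 1 := by
    rw [← hwn, map_pow]
    refine IsChar.of_pow (coeffMap_mem_FF ι hw) ?_
    rw [Ne, map_eq_zero_iff _ (coeffMap_injective ι)]
    exact hw0
  have h3 := IsChar.unique hn h1 h2
  have h4 := char_eq_one hq hχ.nh h3
  rw [h4] at hχ
  exact exists_root_descent ι hn hχ

end Fermat.Agent.PicFlat
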