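import Fermat.Agent.PicFlat.InstMod
import Fermat.Agent.PicFlat.LevelChar
import Fermat.Agent.AnJac.HD

/-!
# Flatness of finite groups of Kummer classes on modular curves
-/

set_option autoImplicit false
set_option linter.unusedSectionVars false
set_option linter.style.haveILetI false
set_option synthInstance.maxHeartbeats 400000

noncomputable section

namespace Fermat.Agent.PicFlat

open AlgebraicCurve Fermat.Agent.Curves Module IntermediateField ModularCurve IsLocalRing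
open Fermat.Agent.GoodRed Fermat.Agent.FlatLoc Fermat.Agent.AnJac Fermat.Agent.ModFun
open scoped Pointwise

local notation "Qbar" => AlgebraicClosure ℚ
local notation "GQ" => (AlgebraicClosure ℚ ≃ₐ[ℚ] AlgebraicClosure ℚ)

/-- A finite group of Kummer classes (functions of level `M` with divisor divisible by `n`,
modulo `n`-th powers) with Galois action -/
structure KumGrp (M n : ℕ) {X : Type*} [AddCommGroup X] (ρ : GQ →* AddMonoid.End X) where
  u : X → LaurentSeries Qbar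
  mem : ∀ x, u x ∈ modularFunctionFieldFullC Qbar M
  ne : ∀ x, u x ≠ 0
  dvd : ∀ x (v : Place Qbar (modularFunctionFieldFullC Qbar M)), (n : ℤ) ∣ v.ord ⟨u x, mem x⟩
  add : ∀ x y, ∃ z ∈ modularFunctionFieldFullC Qbar M, z ≠ 0 ∧ u (x + y) = u x * u y * z ^ n
  inj : ∀ x y, (∃ z ∈ modularFunctionFieldFullC Qbar M, z ≠ 0 ∧ u x = u y * z ^ n) → x = y
  act : ∀ (σ : GQ) x, ∃ z ∈ modularFunctionFieldFullC Qbar M, z ≠ 0 ∧
    u (ρ σ x) = coeffMap (σ : Qbar →+* Qbar) (u x) * z ^ n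

/-- the Galois action on the function field -/
def gFull (M : ℕ) : GQ →* SemilinearAut Qbar (modularFunctionFieldFullC Qbar M) where
  toFun σ := ⟨(actG M fQ σ, fQ σ), fun a => by
    apply Subtype.ext
    exact coeffMap_algebraMap (σ : Qbar →+* Qbar) a⟩
  map_one' := Subtype.ext (Prod.ext (map_one _) (map_one _))
  map_mul' σ τ := Subtype.ext (Prod.ext (map_mul _ _ _) (map_mul _ _ _))

theorem coeffAct_gFull (M : ℕ) : CoeffAct (gFull M) where
  base _ _ := rfl
  coe _ _ := rfl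

section kdiv

variable {k F : Type*} [Field k] [Field F] [Algebra k F] [IsFunctionField k F] [IsAlgClosed k]

/-- the divisor divided by `n` -/
def kdiv (n : ℕ) (f : F) : Divisor k F := (divisorOf f).mapRange (fun z => z / (n : ℤ)) (by simp)

theorem nsmul_kdiv {n : ℕ} {f : F} (h : ∀ v : Place k F, (n : ℤ) ∣ v.ord f) :
    n • kdiv n f = divisorOf (k := k) f := by
  ext v
  rw [Finsupp.smul_apply, kdiv, Finsupp.mapRange_apply, divisorOf_apply, nsmul_eq_mul,
    Int.mul_ediv_cancel' (h v)]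

theorem nsmul_inj {n : ℕ} (hn : n ≠ 0) {D D' : Divisor k F} (h : n • D = n • D') : D = D' := by
  ext v
  have := DFunLike.congr_fun h v
  rw [Finsupp.smul_apply, Finsupp.smul_apply, nsmul_eq_mul, nsmul_eq_mul] at this
  exact mul_left_cancel₀ (by exact_mod_cast hn) this

theorem kdiv_eq {n : ℕ} (hn : n ≠ 0) {f : F} {D : Divisor k F}
    (h : ∀ v : Place k F, (n : ℤ) ∣ v.ord f) (hD : n • D = divisorOf (k := k) f) :
    kdiv n f = D := nsmul_inj hn (by rw [nsmul_kdiv h, hD])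

theorem degree_kdiv {n : ℕ} (hn : n ≠ 0) {f : F}
    (h : ∀ v : Place k F, (n : ℤ) ∣ v.ord f) : Divisor.degree (kdiv (k := k) n f) = 0 := by
  have h1 := congrArg Divisor.degree (nsmul_kdiv (k := k) h)
  have h2 : Divisor.degree (divisorOf (k := k) f) = 0 := degree_divisorOf f
  rw [map_nsmul, h2, nsmul_eq_mul] at h1
  exact (mul_eq_zero.mp h1).resolve_left (by exact_mod_cast hn)

/-- changing the function by an `n`-th power -/
theorem lin_of_mul_pow {n : ℕ} (hn : n ≠ 0) {f g z : F} {D : Divisor k F} (hg : g ≠ 0) (hz : z ≠ 0)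
    (hf : ∀ v : Place k F, (n : ℤ) ∣ v.ord f)
    (hD : n • D = divisorOf (k := k) g) (h : f = g * z ^ n) : Lin (kdiv n f) D := by
  refine ⟨z, hz, kdiv_eq hn hf ?_⟩
  subst h
  rw [divisorOf_mul' hg (pow_ne_zero _ hz), smul_add, hD, add_comm]
  congr 1
  ext v
  rw [Finsupp.smul_apply, divisorOf_apply, divisorOf_apply, ord_pow, nsmul_eq_mul]

/-- linearly equivalent quotients differ by an `n`-th power -/
theorem exists_of_lin {n : ℕ} (hn : n ≠ 0) {f g : F} (hf0 : f ≠ 0) (hg0 : g ≠ 0)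
    (hf : ∀ v : Place k F, (n : ℤ) ∣ v.ord f) (hg : ∀ v : Place k F, (n : ℤ) ∣ v.ord g)
    (h : Lin (kdiv (k := k) n f) (kdiv n g)) : ∃ z : F, z ≠ 0 ∧ f = g * z ^ n := by
  obtain ⟨z, hz, hdiv⟩ := h
  have h1 := congrArg (fun D => n • D) hdiv
  simp only [smul_add] at h1
  rw [nsmul_kdiv hf, nsmul_kdiv hg] at h1
  have hgz : g * z ^ n ≠ 0 := mul_ne_zero hg0 (pow_ne_zero _ hz)
  obtain ⟨d, hd⟩ := exists_const_of_ord_zero (k := k) (x := f * (g * z ^ n)⁻¹) (fun Q => by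
    have h4 := DFunLike.congr_fun h1 Q
    rw [Finsupp.add_apply, Finsupp.smul_apply, divisorOf_apply, divisorOf_apply, divisorOf_apply,
      nsmul_eq_mul] at h4
    rw [Q.ord_mul hf0 (inv_ne_zero hgz), Q.ord_inv, Q.ord_mul hg0 (pow_ne_zero _ hz), ord_pow, h4]
    ring)
  obtain ⟨e, he⟩ := IsAlgClosed.exists_pow_nat_eq d (Nat.pos_of_ne_zero hn)
  have h2 : f = algebraMap k F d * (g * z ^ n) := by
    rw [← hd, mul_assoc, inv_mul_cancel₀ hgz, mul_one]
  have he0 : algebraMap k F e ≠ 0 := by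
    intro h0
    rw [← he, map_pow, h0, zero_pow hn, zero_mul] at h2
    exact hf0 h2
  refine ⟨algebraMap k F e * z, mul_ne_zero he0 hz, ?_⟩
  rw [h2, mul_pow, ← map_pow, he]
  ring

end kdiv

namespace KumGrp

variable {M n : ℕ} {X : Type*} [AddCommGroup X] {ρ : GQ →* AddMonoid.End X} (c : KumGrp M n ρ)

/-- the functions -/
def fn (x : X) : modularFunctionFieldFullC Qbar M := ⟨c.u x, c.mem x⟩

theorem fn_ne (x : X) : c.fn x ≠ 0 := fun h => c.ne x (congrArg Subtype.val h)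

theorem fn_dvd (x : X) (v : Place Qbar (modularFunctionFieldFullC Qbar M)) :
    (n : ℤ) ∣ v.ord (c.fn x) := c.dvd x v

theorem smul_kdiv [IsFunctionField Qbar (modularFunctionFieldFullC Qbar M)] (σ : GQ) (x : X) :
    n • (gFull M σ • kdiv n (c.fn x)) =
      divisorOf (k := Qbar) (gFull M σ • c.fn x) := by
  have h1 := map_nsmul (DistribSMul.toAddMonoidHom (Divisor Qbar
      (modularFunctionFieldFullC Qbar M)) (gFull M σ)) n (kdiv n (c.fn x))
  have h2 : gFull M σ • (n • kdiv (k := Qbar) n (c.fn x)) =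
    n • (gFull M σ • kdiv n (c.fn x)) := h1
  rw [← h2, nsmul_kdiv (c.fn_dvd x), smul_divisorOf']

/-- divisor classes from Kummer classes -/
def toClass (hn : n ≠ 0) [IsFunctionField Qbar (modularFunctionFieldFullC Qbar M)] :
    ClassGrp (gFull M) ρ where
  rep x := kdiv n (c.fn x)
  deg x := degree_kdiv hn (c.fn_dvd x)
  add x y := by
    obtain ⟨z, hz, hz0, h⟩ := c.add x y
    refine lin_of_mul_pow hn (g := c.fn x * c.fn y) (z := ⟨z, hz⟩)
      (mul_ne_zero (c.fn_ne x) (c.fn_ne y)) (fun h0 => hz0 (congrArg Subtype.val h0)) (c.fn_dvd _) ?_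
      (Subtype.ext h)
    rw [smul_add, nsmul_kdiv (c.fn_dvd x), nsmul_kdiv (c.fn_dvd y),
      divisorOf_mul' (c.fn_ne x) (c.fn_ne y)]
  inj x y h := by
    obtain ⟨z, hz0, hz⟩ := exists_of_lin hn (c.fn_ne x) (c.fn_ne y) (c.fn_dvd x) (c.fn_dvd y) h
    exact c.inj x y ⟨z, z.2, fun h0 => hz0 (Subtype.ext h0), congrArg Subtype.val hz⟩
  act σ x := by
    obtain ⟨z, hz, hz0, h⟩ := c.act σ x
    refine lin_of_mul_pow hn (g := gFull M σ • c.fn x) (z := ⟨z, hz⟩)
      (smul_ne_zero' _ (c.fn_ne x)) (fun h0 => hz0 (congrArg Subtype.val h0)) (c.fn_dvd _) ?_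
      (Subtype.ext h)
    exact c.smul_kdiv σ x

/-- raising the level by a prime -/
def raise [NeZero M] {q : ℕ} [NeZero (M * q)] (hq : q.Prime) (hn : n ≠ 0) :
    KumGrp (M * q) n ρ where
  u := c.u
  mem x := full_degeneracyC_le (K := Qbar) (Dvd.intro q rfl : M ∣ M * q) (c.mem x)
  ne := c.ne
  dvd x v := by
    haveI := isFunctionField_fullC Qbar M (by exact_mod_cast NeZero.ne M)
    haveI := isFunctionField_fullC Qbar (M * q) (by exact_mod_cast NeZero.ne (M * q))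
    exact ord_level (Dvd.intro q rfl : M ∣ M * q) (c.mem x) _ (c.dvd x) v
  add x y := by
    obtain ⟨z, hz, h⟩ := c.add x y
    exact ⟨z, full_degeneracyC_le (K := Qbar) (Dvd.intro q rfl : M ∣ M * q) hz, h⟩
  inj x y := by
    rintro ⟨z, hz, hz0, h⟩
    have h1 : ∃ g : modularFunctionFieldFullC Qbar M, g ≠ 0 ∧ g ^ n = c.fn x / c.fn y := by
      refine exists_root_level ιQ hq hn (div_ne_zero (c.fn_ne x) (c.fn_ne y)) (fun v => ?_) hz ?_
      · rw [div_eq_mul_inv, v.ord_mul (c.fn_ne x) (inv_ne_zero (c.fn_ne y)), v.ord_inv]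
        exact dvd_add (c.fn_dvd x v) ((c.fn_dvd y v).neg_right)
      · change z ^ n = c.u x / c.u y
        rw [h, mul_div_cancel_left₀ _ (c.ne y)]
    obtain ⟨g, hg0, hg⟩ := h1
    refine c.inj x y ⟨g, g.2, fun h0 => hg0 (Subtype.ext h0), ?_⟩
    have h2 : c.fn x = c.fn y * g ^ n := by rw [hg, mul_div_cancel₀ _ (c.fn_ne y)]
    exact congrArg Subtype.val h2
  act σ x := by
    obtain ⟨z, hz, h⟩ := c.act σ x
    exact ⟨z, full_degeneracyC_le (K := Qbar) (Dvd.intro q rfl : M ∣ M * q) hz, h⟩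

include c in
/-- Kummer groups are finite -/
theorem finite [NeZero M] (hn : n ≠ 0) : Finite X := by
  haveI : NeZero n := ⟨hn⟩
  choose φ hφ using fun x => exists_ClX ιQ hn (c.fn_ne x) (c.fn_dvd x)
  refine Finite.of_injective (fun x => KSys.red (bL M) n (φ x)) fun x y hxy => ?_
  obtain ⟨χ, hχ⟩ := (KSys.red_eq_iff (bL M)).mp hxy
  obtain ⟨g, hg0, hg⟩ := (KQ M).eq_mul_pow hn (hφ x) (hφ y) hχ
  exact c.inj x y ⟨g, g.2, fun h0 => hg0 (Subtype.ext h0), congrArg Subtype.val hg⟩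

include c in
/-- Kummer groups are smooth Galois modules -/
theorem smooth [NeZero M] (hn : n ≠ 0) : ∃ U : Subgroup GQ, U.Normal ∧ IsOpen (U : Set GQ) ∧
    ∀ g ∈ U, ∀ x, ρ g x = x := by
  haveI := c.finite hn
  haveI := Fintype.ofFinite X
  choose L hL h using fun x => exists_finite_fixed (N := M) (c.fn x)
  have hfd : FiniteDimensional ℚ (⨆ x, L x : IntermediateField ℚ Qbar) :=
    IntermediateField.finiteDimensional_iSup_of_finite
  obtain ⟨K, hKf, hK, hKs⟩ := TWGal.exists_stable (⨆ x, L x)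
  refine ⟨K.fixingSubgroup, ⟨fun m hm k => ?_⟩, K.fixingSubgroup_isOpen, fun g hg x => ?_⟩
  · rw [IntermediateField.mem_fixingSubgroup_iff] at hm ⊢
    intro x hx
    rw [AlgEquiv.mul_apply, AlgEquiv.mul_apply, hm _ (hKs _ x hx), ← AlgEquiv.mul_apply,
      mul_inv_cancel, AlgEquiv.one_apply]
  · have h1 : actG M fQ g (c.fn x) = c.fn x := h x g fun y hy =>
      (IntermediateField.mem_fixingSubgroup_iff K g).mp hg y (hK (le_iSup L x hy))
    obtain ⟨z, hz, hz0, h2⟩ := c.act g x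
    refine c.inj _ _ ⟨z, hz, hz0, ?_⟩
    rw [h2]
    congr 1
    exact congrArg Subtype.val h1

include c in
/-- **Kummer groups of level prime to `ℓ` are flat at `ℓ`** -/
theorem isFlatMod_aux [NeZero M] (hn : n ≠ 0) {ℓ : ℕ} (hℓ : ℓ.Prime) (hMℓ : ¬ ℓ ∣ M)
    (h2 : ℓ = 2 → 3 ∣ M) (h3 : ℓ = 3 → 2 ∣ M) : IsFlatMod (Zloc ℓ) ρ := by
  haveI := isFunctionField_fullC Qbar M (by exact_mod_cast NeZero.ne M)
  haveI := c.finite hn
  obtain ⟨A, hA⟩ := Frob.exists_liesOverPrime Qbar hℓ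
  obtain ⟨H, hH⟩ := exists_locData hℓ hA M hMℓ h2 h3 rfl (gFull M) (coeffAct_gFull M)
    (c.toClass hn)
  obtain ⟨U, hUn, hU, hUρ⟩ := c.smooth hn
  exact hH.isFlatMod hℓ hA hU hUρ

include c in
/-- **Kummer groups of level prime to `ℓ` are flat at `ℓ`** -/
theorem isFlatMod [NeZero M] (hn : n ≠ 0) {ℓ : ℕ} (hℓ : ℓ.Prime) (hMℓ : ¬ ℓ ∣ M) :
    IsFlatMod (Zloc ℓ) ρ := by
  by_cases hℓ2 : ℓ = 2
  · subst hℓ2
    haveI : NeZero (M * 3) := ⟨Nat.mul_ne_zero (NeZero.ne M) (by norm_num)⟩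
    refine (c.raise Nat.prime_three hn).isFlatMod_aux hn hℓ (fun h => ?_)
      (fun _ => Dvd.intro_left M rfl) (fun h => absurd h (by norm_num))
    rcases (Nat.Prime.dvd_mul hℓ).1 h with h | h
    · exact hMℓ h
    · norm_num at h
  by_cases hℓ3 : ℓ = 3
  · subst hℓ3
    haveI : NeZero (M * 2) := ⟨Nat.mul_ne_zero (NeZero.ne M) (by norm_num)⟩
    refine (c.raise Nat.prime_two hn).isFlatMod_aux hn hℓ (fun h => ?_)
      (fun h => absurd h (by norm_num)) (fun _ => Dvd.intro_left M rfl)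
    rcases (Nat.Prime.dvd_mul hℓ).1 h with h | h
    · exact hMℓ h
    · norm_num at h
  exact c.isFlatMod_aux hn hℓ hMℓ (fun h => absurd h hℓ2) (fun h => absurd h hℓ3)

end KumGrp

end Fermat.Agent.PicFlat
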