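import Fermat.Agent.PicFlat.RRDim
import Fermat.Agent.GoodRed.Red

/-!
# A separating function is unramified almost everywhere
-/

set_option autoImplicit false
set_option linter.unusedSectionVars false
set_option linter.style.haveILetI false

noncomputable section

namespace Fermat.Agent.PicFlat

open Polynomial AlgebraicCurve Fermat.Agent.Curves Module IntermediateField WithZero
open Fermat.Agent.GoodRed

variable {k F : Type*} [Field k] [Field F] [Algebra k F] [IsFunctionField k F] [IsAlgClosed k]

/-- orders of polynomials in `t` -/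
theorem dvd_ord_aeval (P : Place k F) {t : F} {c : k} (hc : 0 < P.ord (t - algebraMap k F c))
    (p : k[X]) : P.ord (t - algebraMap k F c) ∣ P.ord (aeval t p) := by
  by_cases hp : p = 0
  · rw [hp, map_zero, Place.ord_zero]; exact dvd_zero _
  have hs0 : t - algebraMap k F c ≠ 0 := by rintro h0; rw [h0] at hc; simp at hc
  have hsP : t - algebraMap k F c ∈ P.toValuationSubring := (mem_iff_ord P hs0).2 hc.le
  have htP : t ∈ P.toValuationSubring := by
    have := add_mem hsP (P.algebraMap_mem' c)
    rwa [sub_add_cancel] at this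
  have haff : ∀ q : k[X], aeval t q ∈ P.toValuationSubring := fun q =>
    aeval_mem_affineRing t q P htP
  obtain ⟨q, hq, hq'⟩ := exists_eq_pow_rootMultiplicity_mul_and_not_dvd p hp c
  have heval : q.eval c ≠ 0 := fun h => hq' (dvd_iff_isRoot.2 h)
  obtain ⟨r, hr⟩ := X_sub_C_dvd_sub_C_eval (a := c) (p := q)
  have hq'' : aeval t q = algebraMap k F (q.eval c) + (t - algebraMap k F c) * aeval t r := by
    have h1 : aeval t (q - C (q.eval c)) = aeval t ((X - C c) * r) := by rw [← hr]
    rw [map_sub, map_mul, map_sub, aeval_C, aeval_C, aeval_X] at h1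
    linear_combination h1
  have h0 : algebraMap k F (q.eval c) ≠ 0 := by simpa using heval
  have hordq : P.ord (aeval t q) = 0 := by
    have := (ord_add_eq_left P h0 (g := (t - algebraMap k F c) * aeval t r) (by
      by_cases hr0 : aeval t r = 0
      · left; rw [hr0, mul_zero]
      · right
        rw [ord_algebraMap, P.ord_mul hs0 hr0]
        have := (mem_iff_ord P hr0).1 (haff r)
        omega)).2
    rw [← hq''] at this
    rw [this, ord_algebraMap]
  have hqne : aeval t q ≠ 0 := by
    rw [hq'']
    intro h1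
    have h2 : value P (algebraMap k F (q.eval c) + (t - algebraMap k F c) * aeval t r) = 0 := by
      rw [h1, value_zero]
    rw [value_add P (P.algebraMap_mem' _) (mul_mem hsP (haff r)), value_algebraMap,
      value_mul P hsP (haff r)] at h2
    have h3 : value P (t - algebraMap k F c) = 0 := by
      rw [value_eq_zero_iff P hsP, val_lt_one_iff]
      exact Or.inr hc
    rw [h3, zero_mul, add_zero] at h2
    exact heval h2
  rw [hq, map_mul, map_pow, map_sub, aeval_C, aeval_X, P.ord_mul (pow_ne_zero _ hs0) hqne, ord_pow,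
    hordq, add_zero]
  exact dvd_mul_left _ _

theorem dvd_ord_adjoin (P : Place k F) {t : F} {c : k} (hc : 0 < P.ord (t - algebraMap k F c))
    (x : k⟮t⟯) : P.ord (t - algebraMap k F c) ∣ P.ord (x : F) := by
  obtain ⟨p, q, hx⟩ := adjoin_gen t x
  have hx' : (x : F) = aeval t p / aeval t q := by
    have haux : ∀ p : k[X], ((aeval
        (⟨t, IntermediateField.mem_adjoin_simple_self k t⟩ : k⟮t⟯) p : k⟮t⟯) : F)
        = aeval t p := fun p =>
      (aeval_algebraMap_apply F
        (⟨t, IntermediateField.mem_adjoin_simple_self k t⟩ : k⟮t⟯) p).symm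
    rw [hx, IntermediateField.coe_div, haux, haux]
  rcases eq_or_ne (x : F) 0 with h0 | h0
  · rw [h0, Place.ord_zero]; exact dvd_zero _
  have hp : aeval t p ≠ 0 := by
    intro h; rw [hx', h, zero_div] at h0; exact h0 rfl
  have hq : aeval t q ≠ 0 := by
    intro h; rw [hx', h, div_zero] at h0; exact h0 rfl
  rw [hx', ord_div P hp hq]
  exact dvd_sub (dvd_ord_aeval P hc p) (dvd_ord_aeval P hc q)

/-- `f` vanishes to order at least `n` at `P` -/
def OrdGe (P : Place k F) (n : ℕ) (f : F) : Prop := f = 0 ∨ (n : ℤ) ≤ P.ord f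

theorem OrdGe.mem {P : Place k F} {n : ℕ} {f : F} (h : OrdGe P n f) :
    f ∈ P.toValuationSubring := by
  rcases h with rfl | h
  · exact zero_mem _
  · by_cases h0 : f = 0
    · rw [h0]; exact zero_mem _
    · rw [mem_iff_ord P h0]; omega

theorem OrdGe.mul_mem {P : Place k F} {n : ℕ} {f g : F} (h : OrdGe P n f)
    (hg : g ∈ P.toValuationSubring) : OrdGe P n (f * g) := by
  rcases h with rfl | h
  · left; rw [zero_mul]
  · by_cases h0 : f = 0
    · left; rw [h0, zero_mul]
    by_cases hg0 : g = 0
    · left; rw [hg0, mul_zero]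
    right
    rw [P.ord_mul h0 hg0]
    have := (mem_iff_ord P hg0).1 hg
    omega

theorem OrdGe.mul {P : Place k F} {n m : ℕ} {f g : F} (h : OrdGe P n f) (hg : OrdGe P m g) :
    OrdGe P (n + m) (f * g) := by
  rcases h with rfl | h
  · left; rw [zero_mul]
  rcases hg with rfl | hg
  · left; rw [mul_zero]
  by_cases h0 : f = 0
  · left; rw [h0, zero_mul]
  by_cases hg0 : g = 0
  · left; rw [hg0, mul_zero]
  right
  rw [P.ord_mul h0 hg0]
  push_cast
  omega

/-- Newton approximation -/
theorem exists_newton {L : IntermediateField k F} (P : Place k F) {y : F} {φ : L[X]}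
    (hφ : aeval y φ = 0) (hcoef : ∀ i, (φ.coeff i : F) ∈ P.toValuationSubring)
    (hy : y ∈ P.toValuationSubring) (hd : P.ord (aeval y (derivative φ)) = 0)
    (hd0 : aeval y (derivative φ) ≠ 0) :
    ∀ n : ℕ, ∃ p : L, (p : F) ∈ P.toValuationSubring ∧ OrdGe P (n + 1) (y - (p : F)) := by
  set O := P.toValuationSubring with hO
  obtain ⟨ΦO, hΦO⟩ : ∃ ΦO : O[X], ΦO.map (algebraMap O F) = φ.map (algebraMap L F) := by
    rw [← Polynomial.mem_lifts, Polynomial.lifts_iff_coeff_lifts]
    intro i
    rw [coeff_map]
    exact ⟨⟨_, hcoef i⟩, rfl⟩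
  have e1 : ∀ x : O, aeval (x : F) φ = ((ΦO.eval x : O) : F) := fun x => by
    have h1 : ((ΦO.eval x : O) : F) = (ΦO.map (algebraMap O F)).eval (x : F) := by
      rw [eval_map]
      exact (eval₂_at_apply (algebraMap O F) x).symm
    rw [h1, hΦO, eval_map_algebraMap]
  have e2 : ∀ x : O, aeval (x : F) (derivative φ) = (((derivative ΦO).eval x : O) : F) :=
      fun x => by
    have h1 : (((derivative ΦO).eval x : O) : F) =
        ((derivative ΦO).map (algebraMap O F)).eval (x : F) := by
      rw [eval_map]
      exact (eval₂_at_apply (algebraMap O F) x).symm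
    rw [h1, ← derivative_map, hΦO, derivative_map, eval_map_algebraMap]
  set yO : O := ⟨y, hy⟩ with hyO
  have hyO0 : ΦO.eval yO = 0 := Subtype.ext (by rw [← e1]; exact hφ)
  intro n
  induction n with
  | zero =>
    refine ⟨algebraMap k L (value P y), P.algebraMap_mem' _, ?_⟩
    have h1 : ((algebraMap k L (value P y) : L) : F) = algebraMap k F (value P y) := rfl
    rw [h1]
    by_cases h0 : y - algebraMap k F (value P y) = 0
    · exact Or.inl h0
    right
    have h2 : value P (y - algebraMap k F (value P y)) = 0 := by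
      rw [value_sub P hy (P.algebraMap_mem' _), value_algebraMap, sub_self]
    have h3 := (value_eq_zero_iff P (sub_mem hy (P.algebraMap_mem' _))).1 h2
    rw [val_lt_one_iff] at h3
    have := h3.resolve_left h0
    push_cast
    omega
  | succ n ih =>
    obtain ⟨p, hp, hpn⟩ := ih
    set pO : O := ⟨(p : F), hp⟩ with hpO
    set η : O := yO - pO with hη
    have hηF : (η : F) = y - (p : F) := rfl
    obtain ⟨z, hz⟩ := ΦO.binomExpansion pO η
    have hyp : pO + η = yO := by rw [hη]; ring
    rw [hyp, hyO0] at hz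
    obtain ⟨z', hz'⟩ := (derivative ΦO).evalSubFactor pO yO
    -- the derivative at `p` is a unit
    have hdp : P.ord (aeval (p : F) (derivative φ)) = 0 ∧ aeval (p : F) (derivative φ) ≠ 0 := by
      have h1 : aeval (p : F) (derivative φ) = aeval y (derivative φ) +
          -((z' : F) * (y - (p : F))) := by
        have h2 := e2 pO
        have h3 := e2 yO
        change aeval (p : F) (derivative φ) = _ at h2
        change aeval y (derivative φ) = _ at h3
        rw [h2, h3]
        have h4 := congrArg (fun x : O => (x : F)) hz'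
        change (((derivative ΦO).eval pO : O) : F) - (((derivative ΦO).eval yO : O) : F) =
          (z' : F) * ((p : F) - y) at h4
        linear_combination h4
      have h5 := ord_add_eq_left P hd0 (g := -((z' : F) * (y - (p : F)))) (by
        rcases hpn with h | h
        · left; rw [h, mul_zero, neg_zero]
        · by_cases hz0 : (z' : F) = 0
          · left; rw [hz0, zero_mul, neg_zero]
          by_cases hyp0 : y - (p : F) = 0
          · left; rw [hyp0, mul_zero, neg_zero]
          right
          rw [ord_neg, P.ord_mul hz0 hyp0, hd]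
          have := (mem_iff_ord P hz0).1 z'.2
          push_cast at h
          omega)
      rw [← h1] at h5
      exact ⟨by rw [h5.2, hd], h5.1⟩
    obtain ⟨hdp, hdp0⟩ := hdp
    have hinv : (aeval (p : F) (derivative φ))⁻¹ ∈ O := by
      rw [mem_iff_ord P (inv_ne_zero hdp0), P.ord_inv, hdp, neg_zero]
    have eL : ∀ ψ : L[X], ((ψ.eval p : L) : F) = aeval (p : F) ψ := fun ψ => by
      have := aeval_algebraMap_apply F p ψ
      rw [coe_aeval_eq_eval] at this
      exact this.symm
    refine ⟨p - φ.eval p / (derivative φ).eval p, ?_, ?_⟩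
    · change (p : F) - ((φ.eval p / (derivative φ).eval p : L) : F) ∈ O
      refine sub_mem hp ?_
      rw [IntermediateField.coe_div, eL, eL, div_eq_mul_inv]
      refine mul_mem ?_ hinv
      have := e1 pO
      change aeval (p : F) φ = _ at this
      rw [this]
      exact (ΦO.eval pO).2
    · have h1 : y - ((p - φ.eval p / (derivative φ).eval p : L) : F) =
          (y - (p : F)) * (y - (p : F)) * (-(z : F) * (aeval (p : F) (derivative φ))⁻¹) := by
        have h2 : ((p - φ.eval p / (derivative φ).eval p : L) : F) =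
            (p : F) - aeval (p : F) φ / aeval (p : F) (derivative φ) := by
          change (p : F) - ((φ.eval p / (derivative φ).eval p : L) : F) = _
          rw [IntermediateField.coe_div, eL, eL]
        rw [h2]
        have h3 := congrArg (fun x : O => (x : F)) hz
        change (0 : F) = ((ΦO.eval pO : O) : F) + (((derivative ΦO).eval pO : O) : F) *
          (y - (p : F)) + (z : F) * (y - (p : F)) ^ 2 at h3
        rw [← e1, ← e2] at h3
        change (0 : F) = aeval (p : F) φ + aeval (p : F) (derivative φ) * (y - (p : F)) +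
          (z : F) * (y - (p : F)) ^ 2 at h3
        field_simp
        linear_combination -h3
      rw [h1]
      have h4 := (hpn.mul hpn).mul_mem (g := -(z : F) * (aeval (p : F) (derivative φ))⁻¹)
        (mul_mem (neg_mem z.2) hinv)
      rcases h4 with h4 | h4
      · exact Or.inl h4
      · right
        push_cast at h4 ⊢
        omega

/-- all orders are multiples of the ramification index -/
theorem dvd_ord_of_newton {t : F} (P : Place k F) {c : k} (hc : 0 < P.ord (t - algebraMap k F c))
    {y : F} (hgen : ∀ z : F, ∃ ψ : k⟮t⟯[X], z = aeval y ψ)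
    (hnew : ∀ n : ℕ, ∃ p : k⟮t⟯, (p : F) ∈ P.toValuationSubring ∧ OrdGe P (n + 1) (y - (p : F)))
    (hy : y ∈ P.toValuationSubring) (z : F) (hz0 : z ≠ 0) :
    P.ord (t - algebraMap k F c) ∣ P.ord z := by
  classical
  have hs0 : t - algebraMap k F c ≠ 0 := by rintro h0; rw [h0] at hc; simp at hc
  obtain ⟨ψ, hψ⟩ := hgen z
  -- clear the poles of the coefficients
  obtain ⟨N, hN⟩ : ∃ N : ℕ, ∀ i, (t - algebraMap k F c) ^ N * (ψ.coeff i : F) ∈
      P.toValuationSubring := by
    refine ⟨∑ i ∈ Finset.range (ψ.natDegree + 1), (P.ord (ψ.coeff i : F)).natAbs, fun i => ?_⟩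
    by_cases h0 : (ψ.coeff i : F) = 0
    · rw [h0, mul_zero]; exact zero_mem _
    have hi : i ∈ Finset.range (ψ.natDegree + 1) := by
      rw [Finset.mem_range]
      by_contra hcon
      apply h0
      rw [coeff_eq_zero_of_natDegree_lt (by omega)]
      rfl
    rw [mem_iff_ord P (mul_ne_zero (pow_ne_zero _ hs0) h0), P.ord_mul (pow_ne_zero _ hs0) h0,
      ord_pow]
    have h1 : (P.ord (ψ.coeff i : F)).natAbs ≤
        ∑ i ∈ Finset.range (ψ.natDegree + 1), (P.ord (ψ.coeff i : F)).natAbs :=
      Finset.single_le_sum (f := fun i => (P.ord (ψ.coeff i : F)).natAbs)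
        (fun _ _ => Nat.zero_le _) hi
    have h2 : ((∑ i ∈ Finset.range (ψ.natDegree + 1), (P.ord (ψ.coeff i : F)).natAbs : ℕ) : ℤ) ≤
      (∑ i ∈ Finset.range (ψ.natDegree + 1), (P.ord (ψ.coeff i : F)).natAbs : ℕ) *
        P.ord (t - algebraMap k F c) := le_mul_of_one_le_right (Int.natCast_nonneg _) hc
    omega
  set s := t - algebraMap k F c with hs
  set O := P.toValuationSubring with hO
  -- `s^N ψ` has regular coefficients
  have hkey : ∀ p : k⟮t⟯, (p : F) ∈ O → ∃ r ∈ O, s ^ N * aeval y ψ - s ^ N * aeval (p : F) ψ =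
      r * (y - (p : F)) := by
    intro p hp
    obtain ⟨ΨO, hΨO⟩ : ∃ ΨO : O[X], ΨO.map (algebraMap O F) =
        C (s ^ N) * ψ.map (algebraMap k⟮t⟯ F) := by
      rw [← Polynomial.mem_lifts, Polynomial.lifts_iff_coeff_lifts]
      intro i
      rw [coeff_C_mul, coeff_map]
      exact ⟨⟨_, hN i⟩, rfl⟩
    obtain ⟨z', hz'⟩ := ΨO.evalSubFactor ⟨y, hy⟩ ⟨(p : F), hp⟩
    refine ⟨z', z'.2, ?_⟩
    have e1 : ∀ x : O, s ^ N * aeval (x : F) ψ = ((ΨO.eval x : O) : F) := fun x => by
      have h1 : ((ΨO.eval x : O) : F) = (ΨO.map (algebraMap O F)).eval (x : F) := by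
        rw [eval_map]
        exact (eval₂_at_apply (algebraMap O F) x).symm
      rw [h1, hΨO, eval_mul, eval_C, eval_map_algebraMap]
    have h2 := congrArg (fun x : O => (x : F)) hz'
    change ((ΨO.eval ⟨y, hy⟩ : O) : F) - ((ΨO.eval ⟨(p : F), hp⟩ : O) : F) =
      (z' : F) * (y - (p : F)) at h2
    rw [← e1, ← e1] at h2
    exact h2
  obtain ⟨p, hp, hpn⟩ := hnew (P.ord (s ^ N * z)).natAbs
  obtain ⟨r, hr, hrz⟩ := hkey p hp
  rw [← hψ] at hrz
  have hsz0 : s ^ N * z ≠ 0 := mul_ne_zero (pow_ne_zero _ hs0) hz0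
  have h1 : s ^ N * aeval (p : F) ψ = s ^ N * z + -((y - (p : F)) * r) := by
    linear_combination -hrz
  have h2 := ord_add_eq_left P hsz0 (g := -((y - (p : F)) * r)) (by
    rcases hpn.mul_mem hr with h | h
    · left; rw [h, neg_zero]
    · right
      rw [ord_neg]
      push_cast at h
      have h6 := le_abs_self (P.ord (s ^ N * z))
      omega)
  rw [← h1] at h2
  have h3 : ((ψ.eval p : k⟮t⟯) : F) = aeval (p : F) ψ := by
    have := aeval_algebraMap_apply F p ψ
    rw [coe_aeval_eq_eval] at this
    exact this.symm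
  have h4 : aeval (p : F) ψ ≠ 0 := by
    intro h0
    rw [h0, mul_zero] at h2
    exact h2.1 rfl
  have h5 : P.ord s ∣ P.ord (s ^ N * z) := by
    rw [← h2.2, P.ord_mul (pow_ne_zero _ hs0) h4, ord_pow, ← h3]
    exact dvd_add (dvd_mul_left _ _) (dvd_ord_adjoin P hc _)
  rw [P.ord_mul (pow_ne_zero _ hs0) hz0, ord_pow] at h5
  exact (dvd_add_right (dvd_mul_left _ _)).1 h5

/-- **Separating functions are unramified almost everywhere.** -/
theorem finite_ramified {t : F} (ht : Transcendental k t) (hsep : Algebra.IsSeparable k⟮t⟯ F) :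
    {P : Place k F | ¬ (t ∈ P.toValuationSubring ∧
      P.ord (t - algebraMap k F (value P t)) = 1)}.Finite := by
  classical
  haveI := finiteDimensional_adjoin_simple (k := k) ht
  obtain ⟨y, hy⟩ := Field.exists_primitive_element k⟮t⟯ F
  set φ := minpoly k⟮t⟯ y with hφ
  have hyint : IsIntegral k⟮t⟯ y := Algebra.IsIntegral.isIntegral y
  have hφ0 : aeval y φ = 0 := minpoly.aeval _ _
  have hsepy : φ.Separable := Algebra.IsSeparable.isSeparable k⟮t⟯ y
  have hd0 : aeval y (derivative φ) ≠ 0 := hsepy.aeval_derivative_ne_zero hφ0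
  have hgen : ∀ z : F, ∃ ψ : k⟮t⟯[X], z = aeval y ψ := by
    intro z
    have h1 : z ∈ (k⟮t⟯)⟮y⟯ := by rw [hy]; trivial
    have h2 : z ∈ (k⟮t⟯)⟮y⟯.toSubalgebra := h1
    rw [IntermediateField.adjoin_simple_toSubalgebra_of_isAlgebraic hyint.isAlgebraic,
      Algebra.adjoin_singleton_eq_range_aeval] at h2
    obtain ⟨ψ, hψ⟩ := h2
    exact ⟨ψ, hψ.symm⟩
  set bad : Set (Place k F) := (Function.support fun P : Place k F => P.ord t) ∪
    (Function.support fun P : Place k F => P.ord y) ∪
    (Function.support fun P : Place k F => P.ord (aeval y (derivative φ))) ∪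
    ⋃ i ∈ Finset.range (φ.natDegree + 1), (Function.support fun P : Place k F =>
      P.ord (φ.coeff i : F)) with hbad
  have hfin : bad.Finite := by
    refine Set.Finite.union (Set.Finite.union (Set.Finite.union (finite_support _)
      (finite_support _)) (finite_support _)) ?_
    exact Set.Finite.biUnion (Finset.finite_toSet _) fun i _ => finite_support _
  refine hfin.subset fun P hP => ?_
  by_contra hPb
  apply hP
  have hmemof : ∀ x : F, P.ord x = 0 → x ∈ P.toValuationSubring := by
    intro x hx
    by_cases h0 : x = 0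
    · rw [h0]; exact zero_mem _
    · rw [mem_iff_ord P h0]; exact hx.ge
  simp only [hbad, Set.mem_union, not_or, Function.mem_support, not_not, Set.mem_iUnion,
    not_exists] at hPb
  obtain ⟨⟨⟨h1, h2⟩, h3⟩, h4⟩ := hPb
  have htP := hmemof t h1
  have hyP := hmemof y h2
  have hcoef : ∀ i, (φ.coeff i : F) ∈ P.toValuationSubring := by
    intro i
    by_cases hi : i ∈ Finset.range (φ.natDegree + 1)
    · exact hmemof _ (h4 i hi)
    · have : φ.coeff i = 0 := coeff_eq_zero_of_natDegree_lt (by
        rw [Finset.mem_range] at hi; omega)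
      rw [this]
      exact zero_mem _
  set c := value P t with hc
  have hs0 : t - algebraMap k F c ≠ 0 := sub_algebraMap_ne_zero ht c
  have hcpos : 0 < P.ord (t - algebraMap k F c) := by
    have h5 : value P (t - algebraMap k F c) = 0 := by
      rw [value_sub P htP (P.algebraMap_mem' _), value_algebraMap, sub_self]
    have h6 := (value_eq_zero_iff P (sub_mem htP (P.algebraMap_mem' _))).1 h5
    rw [val_lt_one_iff] at h6
    exact h6.resolve_left hs0
  refine ⟨htP, ?_⟩
  obtain ⟨z, hz0, hz⟩ := exists_ord_eq P 1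
  have h7 := dvd_ord_of_newton P hcpos hgen (exists_newton P hφ0 hcoef hyP h3 hd0) hyP z hz0
  rw [hz] at h7
  exact Int.eq_one_of_dvd_one hcpos.le h7

end Fermat.Agent.PicFlat
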