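import Fermat.Agent.PicFlat.Good
import Fermat.Agent.PicFlat.Unram

/-!
# Group actions: fixed places, fixed divisors, rationality of constants
-/

set_option autoImplicit false
set_option linter.unusedSectionVars false
set_option linter.unusedDecidableInType false
set_option linter.style.haveILetI false

noncomputable section

namespace Fermat.Agent.PicFlat

open Polynomial AlgebraicCurve Fermat.Agent.Curves Module IntermediateField WithZero
open Fermat.Agent.GoodRed
open scoped Pointwise

section Act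

variable {k E : Type*} [Field k] [Field E] [Algebra k E]

theorem mem_smul_place (g : SemilinearAut k E) (P : Place k E) (f : E) :
    g • f ∈ (g • P).toValuationSubring ↔ f ∈ P.toValuationSubring := by
  rw [SemilinearAut.smul_toValuationSubring,
    ValuationSubring.mem_pointwise_smul_iff_inv_smul_mem, inv_smul_smul]

theorem smul_ne_zero' (g : SemilinearAut k E) {f : E} (hf : f ≠ 0) : g • f ≠ 0 := by
  intro h
  apply hf
  have := congrArg (g⁻¹ • ·) h
  simpa using this

variable [IsFunctionField k E] [IsAlgClosed k]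

theorem smul_divisorOf' (g : SemilinearAut k E) (f : E) :
    g • divisorOf (k := k) f = divisorOf (g • f) := by
  ext P
  rw [SemilinearAut.divisor_smul_apply, divisorOf_apply, divisorOf_apply]
  have h := SemilinearAut.ord_smul g (g⁻¹ • P) f
  rw [smul_inv_smul] at h
  exact h.symm

theorem smul_mem_riemannRoch (g : SemilinearAut k E) {D : Divisor k E} {f : E}
    (hf : f ∈ riemannRochSpace D) : g • f ∈ riemannRochSpace (g • D) := by
  rcases eq_or_ne f 0 with rfl | h0
  · rw [smul_zero]; exact Submodule.zero_mem _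
  rw [mem_iff_of_ne (smul_ne_zero' g h0)]
  intro P
  have h1 := (mem_iff_of_ne h0).1 hf (g⁻¹ • P)
  have h2 := SemilinearAut.ord_smul g (g⁻¹ • P) f
  rw [smul_inv_smul] at h2
  rw [h2, SemilinearAut.divisor_smul_apply]
  exact h1

theorem value_smul_act (g : SemilinearAut k E) (P : Place k E) {f : E}
    (hf : f ∈ P.toValuationSubring) :
    value (g • P) (g • f) = SemilinearAut.baseAut g (value P f) := by
  rw [value_eq_iff _ ((mem_smul_place g P f).2 hf)]
  have h1 := value_spec P hf
  have h2 : g • f - algebraMap k E (SemilinearAut.baseAut g (value P f)) =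
      g • (f - algebraMap k E (value P f)) := by
    rw [smul_sub, SemilinearAut.smul_algebraMap]
  rw [val_lt_one_iff] at h1 ⊢
  rw [h2]
  rcases h1 with h1 | h1
  · left; rw [h1, smul_zero]
  · right; rwa [SemilinearAut.ord_smul]

theorem nonneg_smul (g : SemilinearAut k E) {D : Divisor k E} (h : 0 ≤ D) : 0 ≤ g • D := by
  intro P
  rw [SemilinearAut.divisor_smul_apply]
  exact h _

end Act

variable {K κ : Type*} [Field K] [Field κ] [IsAlgClosed K] [IsAlgClosed κ] {A : ValuationSubring K}
  {π : A →+* κ} [IsLocalHom π]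
  {F Fb : Type*} [Field F] [Field Fb] [Algebra K F] [Algebra κ Fb]
  [IsFunctionField K F] [IsFunctionField κ Fb]
  {G : GaussRed A π F Fb}

/-- a group acting trivially on the reduction -/
structure GalAct (G : GaussRed A π F Fb) (Γ : Type*) [Group Γ] where
  ρ : Γ →* SemilinearAut K F
  base : ∀ (γ : Γ) (a : A), ∃ a' : A, (a' : K) = SemilinearAut.baseAut (ρ γ) a ∧ π a' = π a
  fn : ∀ (γ : Γ) {f : F} {fb : Fb}, G.R f fb → G.R (ρ γ • f) fb

namespace GalAct

variable {Γ : Type*} [Group Γ] (M : GalAct G Γ)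

/-- fixed integral constants -/
def Fix (a : K) : Prop := a ∈ A ∧ ∀ γ, SemilinearAut.baseAut (M.ρ γ) a = a

/-- fixed places -/
def fixPl : Set (Place K F) := {P | ∀ γ, M.ρ γ • P = P}

variable (C : RedCurve G)

theorem red_smul {D : Divisor K F} (hD : Divisor.degree D = 0) (γ : Γ) :
    C.red (M.ρ γ • D) = C.red D := by
  have hs : PosDeg (DistribSMul.toAddMonoidHom (Divisor K F) (M.ρ γ)) (1 : ℤ) :=
    { nonneg := fun D hD => nonneg_smul _ hD
      degree := fun D => by rw [one_mul]; exact SemilinearAut.degree_smul _ D }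
  have hr : PosDeg C.red (1 : ℤ) :=
    { nonneg := fun D hD => C.red_nonneg hD
      degree := fun D => by rw [one_mul]; exact C.degree_red D }
  refine rigid (hs.comp hr) hr ?_ hD
  intro f hf
  change C.red (M.ρ γ • divisorOf f) = C.red (divisorOf f)
  obtain ⟨c, hc, hm, hne⟩ := G.scale f hf
  have hR : G.R (algebraMap K F c * f) (G.red ⟨_, hm⟩) := ⟨hm, rfl⟩
  have hdiv : divisorOf (k := K) f = divisorOf (algebraMap K F c * f) := by
    ext v
    rw [divisorOf_apply, divisorOf_apply, v.ord_mul (by simpa using hc) hf, ord_algebraMap,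
      zero_add]
  rw [hdiv, smul_divisorOf', C.red_div (M.fn γ hR) hne, C.red_div hR hne]

theorem rd_smul (γ : Γ) (P : Place K F) : C.rd (M.ρ γ • P) = C.rd P := by
  classical
  obtain ⟨Q, hQ⟩ := RedCurve.exists_place_notMem ({C.rd P} : Set (Place κ Fb))
    (Set.finite_singleton _)
  obtain ⟨P', rfl⟩ := C.rd_surjective Q
  have hne : C.rd P' ≠ C.rd P := hQ
  have h1 := M.red_smul C (D := Finsupp.single P 1 - Finsupp.single P' 1)
    (by rw [map_sub, degree_single_one, degree_single_one, sub_self]) γ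
  rw [smul_sub, SemilinearAut.smul_single, SemilinearAut.smul_single, map_sub, map_sub,
    C.red_single, C.red_single, C.red_single, C.red_single] at h1
  have h2 := DFunLike.congr_fun h1 (C.rd P)
  rw [Finsupp.sub_apply, Finsupp.sub_apply, Finsupp.single_eq_same (a := C.rd P),
    Finsupp.single_eq_of_ne (a := C.rd P') hne.symm, sub_zero] at h2
  by_contra hcon
  rw [Finsupp.single_eq_of_ne (Ne.symm hcon)] at h2
  have h3 : (0 : ℤ) ≤ (Finsupp.single (C.rd (M.ρ γ • P')) (1 : ℤ) : Divisor κ Fb) (C.rd P) := by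
    by_cases h4 : C.rd P = C.rd (M.ρ γ • P')
    · rw [h4, Finsupp.single_eq_same]; norm_num
    · rw [Finsupp.single_eq_of_ne h4]
  omega

theorem red_smul' (γ : Γ) (D : Divisor K F) : C.red (M.ρ γ • D) = C.red D := by
  induction D using Finsupp.induction_linear with
  | zero => rw [smul_zero]
  | add D E hD hE => rw [smul_add, map_add, map_add, hD, hE]
  | single P n => rw [SemilinearAut.smul_single, C.red_single, C.red_single, M.rd_smul C]

/-- the group of fixed divisors supported in `B` -/
def fixDiv (B : Set (Place κ Fb)) : AddSubgroup (Divisor K F) where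
  carrier := {D | (∀ γ, M.ρ γ • D = D) ∧ C.Adm B D}
  zero_mem' := ⟨fun γ => smul_zero _, fun _ _ => rfl⟩
  add_mem' := by
    rintro D E ⟨hD, hD'⟩ ⟨hE, hE'⟩
    exact ⟨fun γ => by rw [smul_add, hD, hE], hD'.add hE'⟩
  neg_mem' := by
    rintro D ⟨hD, hD'⟩
    exact ⟨fun γ => by rw [smul_neg, hD], hD'.neg⟩

variable {C}

theorem mem_fixDiv {B : Set (Place κ Fb)} {D : Divisor K F} :
    D ∈ M.fixDiv C B ↔ (∀ γ, M.ρ γ • D = D) ∧ C.Adm B D := Iff.rfl

/-- fixed spaces have rational bases -/
theorem isRat_const {S : Type*} {B : Set (Place κ Fb)} {R : Subring (S → K)} [Nonempty S]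
    (hT : ∀ S : Set (Place κ Fb), S.Finite → ∃ P ∈ M.fixPl, C.rd P ∉ S) (hB : B.Finite)
    (hR0 : ∀ a, M.Fix a → (fun _ => a) ∈ R) {m : Divisor K F} (hm : m ∈ M.fixDiv C B)
    (hell : ell m = ell (C.red m)) :
    C.IsRat M.fixPl B R (fun _ : S => riemannRochSpace m) (riemannRochSpace (C.red m)) := by
  obtain ⟨hm1, hm2⟩ := hm
  have hfam : C.DivFam B (fun _ : S => m) (C.red m) := ⟨fun _ => rfl, fun _ => hm2⟩
  have hfam' := hfam.fam (fun _ => hell)
  refine RedCurve.isRat_of_fam hT hB hfam' fun n P w wb hn hP hw hwb hwv hwbv hwR i P' hP' hP'B => ?_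
  obtain ⟨s₀⟩ := (inferInstance : Nonempty S)
  have hred := hfam'.redIn s₀
  have huniq : ∀ (f : F), f ∈ riemannRochSpace m → (∀ j, value (P j) f = if i = j then 1 else 0) →
      f = w i s₀ := by
    intro f hf hfv
    rw [← sub_eq_zero]
    refine C.eq_zero_of_pivots hred hP (Submodule.sub_mem _ hf (hw i s₀)) fun j => ?_
    rw [value_sub _ (hred.reg _ hf _ (hP.out j)) (hred.reg _ (hw i s₀) _ (hP.out j)), hfv, hwv,
      sub_self]
  have hconst : (fun s => value P' (w i s)) = fun _ => value P' (w i s₀) := by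
    funext s
    rw [huniq (w i s) (hw i s) fun j => hwv i j s]
  rw [hconst]
  apply hR0
  refine ⟨?_, fun γ => ?_⟩
  · obtain ⟨-, a, ha, -⟩ := (hred.reg _ (hw i s₀)).value_spec (hwR i s₀) hP'B
    rw [← ha]
    exact a.2
  · have h1 : M.ρ γ • w i s₀ = w i s₀ := by
      refine huniq _ ?_ fun j => ?_
      · have := smul_mem_riemannRoch (M.ρ γ) (hw i s₀)
        rwa [hm1 γ] at this
      · have h2 := value_smul_act (M.ρ γ) (P j) (hred.reg _ (hw i s₀) _ (hP.out j))
        rw [hP.mem j γ, hwv] at h2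
        rw [h2]
        split_ifs
        · exact map_one _
        · exact map_zero _
    have h2 := value_smul_act (M.ρ γ) P' (hred.reg _ (hw i s₀) _ hP'B)
    rw [hP' γ, h1] at h2
    exact h2.symm

/-- the standing assumptions hold for fixed divisors -/
theorem setup {S : Type*} {B : Set (Place κ Fb)} {R : Subring (S → K)} [hS : Nonempty S] {g c : ℤ}
    (hK : RR K F g c) (hκ : RR κ Fb g c)
    (hT : ∀ S : Set (Place κ Fb), S.Finite → ∃ P ∈ M.fixPl, C.rd P ∉ S) (hB : B.Finite)
    (hR : ResRing π R) (hR0 : ∀ a, M.Fix a → (fun _ => a) ∈ R)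
    (hpos : ∃ m ∈ M.fixDiv C B, 0 < Divisor.degree m) :
    C.Setup g c M.fixPl B R (M.fixDiv C B) where
  hK := hK
  hκ := hκ
  hT := hT
  hB := hB
  hR := hR
  hS := hS
  adm m hm := hm.2
  rat m hm hdeg := by
    refine M.isRat_const hT hB hR0 hm ?_
    have h1 := hK.eq m hdeg
    have h2 := hκ.eq (C.red m) (by rwa [C.degree_red])
    rw [C.degree_red] at h2
    omega
  pos := hpos

/-- existence of a fixed nonspecial divisor of degree `g` -/
theorem exists_nonspecial {g c : ℤ} (hκ : RR κ Fb g c)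
    (hT : ∀ S : Set (Place κ Fb), S.Finite → ∃ P ∈ M.fixPl, C.rd P ∉ S)
    {m₀ : Divisor K F} (hm₀ : ∀ γ, M.ρ γ • m₀ = m₀) (hpos : 0 < Divisor.degree m₀)
    (Y : Set (Divisor κ Fb)) (hY : Y.Finite) (hY0 : ∀ y ∈ Y, Divisor.degree y = 0) :
    ∃ e : Divisor K F, (∀ γ, M.ρ γ • e = e) ∧ Divisor.degree e = g ∧
      ∀ y ∈ Y, ell (y + C.red e) = 1 := by
  classical
  obtain ⟨n, hn⟩ : ∃ n : ℕ, max c g ≤ Divisor.degree (n • m₀) := by
    refine ⟨(max c g).toNat, ?_⟩
    rw [map_nsmul, nsmul_eq_mul]
    have := Int.self_le_toNat (max c g)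
    nlinarith [Int.natCast_nonneg (max c g).toNat]
  set d := Divisor.degree (n • m₀) with hd
  have key : ∀ j : ℕ, (j : ℤ) ≤ d - g → ∃ D : Divisor K F, (∀ γ, M.ρ γ • D = D) ∧
      Divisor.degree D = d - j ∧ ∀ y ∈ Y, (ell (y + C.red D) : ℤ) = d - j + 1 - g := by
    intro j
    induction j with
    | zero =>
      intro _
      refine ⟨n • m₀, fun γ => ?_, by push_cast; omega, fun y hy => ?_⟩
      · have := map_nsmul (DistribSMul.toAddMonoidHom (Divisor K F) (M.ρ γ)) n m₀
        change M.ρ γ • (n • m₀) = n • (M.ρ γ • m₀) at this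
        rw [this, hm₀]
      · rw [hκ.eq _ (by
          rw [map_add, hY0 y hy, C.degree_red, zero_add]
          exact (le_max_left _ _).trans hn), map_add, hY0 y hy, C.degree_red]
        push_cast
        omega
    | succ j ih =>
      intro hj
      obtain ⟨D, hD1, hD2, hD3⟩ := ih (by push_cast at hj; omega)
      -- nonzero sections
      have hsec : ∀ y ∈ Y, ∃ f : Fb, f ≠ 0 ∧ f ∈ riemannRochSpace (y + C.red D) := by
        intro y hy
        have h1 := hD3 y hy
        push_cast at hj
        have h2 : 0 < ell (y + C.red D) := by omega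
        obtain ⟨f, hf0, hf⟩ := exists_mem_of_finrank_pos h2
        exact ⟨f, hf0, (mem_iff_div hf0).2 hf⟩
      choose! f hf0 hf using hsec
      obtain ⟨P, hPT, hP⟩ := hT (⋃ y ∈ Y, ((Function.support fun w : Place κ Fb => w.ord (f y)) ∪
        ((y + C.red D : Divisor κ Fb).support : Set (Place κ Fb)))) (hY.biUnion fun y _ =>
          (finite_support _).union (Finset.finite_toSet _))
      simp only [Set.mem_iUnion, not_exists, Set.mem_union, not_or, Function.mem_support, not_not,
        Finset.mem_coe, Finsupp.notMem_support_iff] at hP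
      refine ⟨D - Finsupp.single P 1, fun γ => ?_, ?_, fun y hy => ?_⟩
      · rw [smul_sub, hD1 γ, SemilinearAut.smul_single, hPT γ]
      · rw [map_sub, degree_single_one, hD2]; push_cast; ring
      · have h1 := ell_sub_single (P := C.rd P) (hf0 y hy) (hf y hy) (by
          rw [(hP y hy).1, (hP y hy).2, neg_zero])
        rw [hD3 y hy] at h1
        rw [map_sub, C.red_single, ← add_sub_assoc]
        push_cast
        omega
  obtain ⟨D, hD1, hD2, hD3⟩ := key (d - g).toNat (by
    rw [Int.toNat_of_nonneg (by have := (le_max_right c g).trans hn; omega)])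
  rw [Int.toNat_of_nonneg (by have := (le_max_right c g).trans hn; omega)] at hD2 hD3
  refine ⟨D, hD1, by rw [hD2]; ring, fun y hy => ?_⟩
  have := hD3 y hy
  omega

/-- fixed places are abundant -/
theorem exists_fixPl {t : F} {tb : Fb} (h1 : GoodChart G t tb) (h2 : GoodChart G t⁻¹ tb⁻¹)
    (ht : ∀ γ, M.ρ γ • t = t) (hres : ∀ c : κ, ∃ a : A, M.Fix (a : K) ∧ π a = c)
    (S : Set (Place κ Fb)) (hS : S.Finite) :
    ∃ P ∈ M.fixPl, (ofCharts h1 h2).rd P ∉ S := by
  classical
  set C := ofCharts h1 h2 with hC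
  set Ram := {P : Place κ Fb | ¬ (tb ∈ P.toValuationSubring ∧
      P.ord (tb - algebraMap κ Fb (value P tb)) = 1)} with hRam
  have hRamf : Ram.Finite := finite_ramified h1.trb h1.sepb
  haveI : Infinite κ := IsAlgClosed.instInfinite
  obtain ⟨c, hc⟩ := ((hS.union hRamf).image fun Q => value Q tb).exists_notMem
  obtain ⟨a, ha, hac⟩ := hres c
  have htr : Transcendental K (t - algebraMap K F a) := by
    intro h
    apply h1.tr
    have := h.add (isAlgebraic_algebraMap (a : K))
    rwa [sub_add_cancel] at this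
  obtain ⟨P, hP⟩ := exists_ord_pos_of_transcendental htr
  have hs0 : t - algebraMap K F a ≠ 0 := sub_algebraMap_ne_zero h1.tr _
  have hdisc : InDisc π P t c := ⟨a, hac, hP⟩
  have hspec := redPlace_spec1 h1 h2 ⟨c, hdisc⟩
  set Q := C.rd P with hQ
  have hQc : value Q tb = c := value_eq_of_specTo h1.toChart hspec hdisc
  have hQS : Q ∉ S ∪ Ram := fun h => hc ⟨Q, h, hQc⟩
  rw [Set.mem_union, not_or] at hQS
  have hram : tb ∈ Q.toValuationSubring ∧ Q.ord (tb - algebraMap κ Fb c) = 1 := by
    have := hQS.2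
    rw [hRam, Set.mem_ofPred_eq, not_not, hQc] at this
    exact this
  -- `t` is regular over `Q`
  have htreg : ∀ P', C.rd P' = Q → t ∈ P'.toValuationSubring := by
    intro P' hP'
    have := (redPlace_eq_iff1 h1 h2 hram.1).1 hP'
    exact this.1
  refine ⟨P, fun γ => ?_, hQS.1⟩
  by_contra hne
  set D := divisorOf (k := K) (t - algebraMap K F a) with hD
  have hRs : G.R (t - algebraMap K F a) (tb - algebraMap κ Fb c) := by
    rw [← hac]
    exact h1.R.sub (GaussRed.R.const G a)
  have hsb0 : tb - algebraMap κ Fb c ≠ 0 := sub_algebraMap_ne_zero h1.trb _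
  have h3 : C.red D Q = 1 := by
    rw [hD, C.red_div hRs hsb0, divisorOf_apply, hram.2]
  have hDnn : ∀ P', C.rd P' = Q → 0 ≤ D P' := by
    intro P' hP'
    rw [hD, divisorOf_apply]
    exact (mem_iff_ord P' hs0).1 (sub_mem (htreg P' hP') (P'.algebraMap_mem' _))
  have hDP : 1 ≤ D P := hP
  have hDP' : 1 ≤ D (M.ρ γ • P) := by
    have h4 : M.ρ γ • (t - algebraMap K F a) = t - algebraMap K F a := by
      rw [smul_sub, ht, SemilinearAut.smul_algebraMap, ha.2 γ]
    have h5 := SemilinearAut.ord_smul (M.ρ γ) P (t - algebraMap K F a)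
    rw [h4] at h5
    rw [hD, divisorOf_apply, h5]
    exact hP
  have h6 := C.red_apply_nonneg (D := D - Finsupp.single P 1 - Finsupp.single (M.ρ γ • P) 1)
    (Q := Q) fun P' hP' => by
      rw [Finsupp.sub_apply, Finsupp.sub_apply]
      have := hDnn P' hP'
      by_cases h7 : P' = P
      · subst h7
        rw [Finsupp.single_eq_same, Finsupp.single_eq_of_ne (Ne.symm hne)]
        omega
      · rw [Finsupp.single_eq_of_ne h7]
        by_cases h8 : P' = M.ρ γ • P
        · rw [h8, Finsupp.single_eq_same]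
          omega
        · rw [Finsupp.single_eq_of_ne h8]
          omega
  rw [map_sub, map_sub, C.red_single, C.red_single, M.rd_smul C, Finsupp.sub_apply,
    Finsupp.sub_apply, h3, ← hQ, Finsupp.single_eq_same] at h6
  omega

end GalAct

end Fermat.Agent.PicFlat
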