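import Fermat.Agent.PicFlat.Gal

/-!
# Local Hopf orders
-/

set_option autoImplicit false
set_option linter.unusedSectionVars false
set_option linter.unusedDecidableInType false
set_option linter.style.haveILetI false

noncomputable section

namespace Fermat.Agent.PicFlat

open Polynomial AlgebraicCurve Fermat.Agent.Curves Module IntermediateField WithZero
open Fermat.Agent.GoodRed
open scoped Pointwise

section Lin

variable {k E : Type*} [Field k] [Field E] [Algebra k E] [IsFunctionField k E] [IsAlgClosed k]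

/-- linear equivalence -/
def Lin (D D' : Divisor k E) : Prop := ∃ f : E, f ≠ 0 ∧ D = divisorOf f + D'

theorem divisorOf_mul' {f g : E} (hf : f ≠ 0) (hg : g ≠ 0) :
    divisorOf (k := k) (f * g) = divisorOf f + divisorOf g := by
  ext P
  rw [Finsupp.add_apply, divisorOf_apply, divisorOf_apply, divisorOf_apply, P.ord_mul hf hg]

theorem divisorOf_inv' (f : E) : divisorOf (k := k) f⁻¹ = -divisorOf f := by
  ext P
  rw [Finsupp.neg_apply, divisorOf_apply, divisorOf_apply, P.ord_inv]

theorem divisorOf_one' : divisorOf (k := k) (1 : E) = 0 := by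
  ext P
  rw [divisorOf_apply, Place.ord_one, Finsupp.zero_apply]

namespace Lin

variable {D D' D'' E₁ E₂ : Divisor k E}

theorem refl (D : Divisor k E) : Lin D D := ⟨1, one_ne_zero, by rw [divisorOf_one', zero_add]⟩

theorem symm (h : Lin D D') : Lin D' D := by
  obtain ⟨f, hf, rfl⟩ := h
  exact ⟨f⁻¹, inv_ne_zero hf, by rw [divisorOf_inv']; abel⟩

theorem trans (h : Lin D D') (h' : Lin D' D'') : Lin D D'' := by
  obtain ⟨f, hf, rfl⟩ := h
  obtain ⟨g, hg, rfl⟩ := h'
  exact ⟨f * g, mul_ne_zero hf hg, by rw [divisorOf_mul' hf hg]; abel⟩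

theorem add (h : Lin D D') (h' : Lin E₁ E₂) : Lin (D + E₁) (D' + E₂) := by
  obtain ⟨f, hf, rfl⟩ := h
  obtain ⟨g, hg, rfl⟩ := h'
  exact ⟨f * g, mul_ne_zero hf hg, by rw [divisorOf_mul' hf hg]; abel⟩

theorem neg (h : Lin D D') : Lin (-D) (-D') := by
  obtain ⟨f, hf, rfl⟩ := h
  exact ⟨f⁻¹, inv_ne_zero hf, by rw [divisorOf_inv']; abel⟩

theorem sub (h : Lin D D') (h' : Lin E₁ E₂) : Lin (D - E₁) (D' - E₂) := by
  rw [sub_eq_add_neg, sub_eq_add_neg]
  exact h.add h'.neg

theorem smul (g : SemilinearAut k E) (h : Lin D D') : Lin (g • D) (g • D') := by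
  obtain ⟨f, hf, rfl⟩ := h
  exact ⟨g • f, smul_ne_zero' g hf, by rw [smul_add, smul_divisorOf']⟩

theorem ell_eq (h : Lin D D') : ell D = ell D' := by
  obtain ⟨f, hf, rfl⟩ := h
  rw [add_comm, ell_add_divisorOf _ hf]

theorem degree_eq (h : Lin D D') : Divisor.degree D = Divisor.degree D' := by
  obtain ⟨f, hf, rfl⟩ := h
  rw [map_add, degree_divisorOf, zero_add]

end Lin

/-- effective divisors in a one-dimensional class -/
theorem eff_unique {D D' D₀ : Divisor k E} (h0 : ell D₀ = 1) (hD : 0 ≤ D) (hD' : 0 ≤ D')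
    (h : Lin D D₀) (h' : Lin D' D₀) : D = D' := by
  obtain ⟨f, hf, rfl⟩ := h
  obtain ⟨f', hf', rfl⟩ := h'
  have hfm : f ∈ riemannRochSpace D₀ := (mem_iff_div hf).2 hD
  have hfm' : f' ∈ riemannRochSpace D₀ := (mem_iff_div hf').2 hD'
  obtain ⟨c, hc⟩ := (finrank_eq_one_iff_of_nonzero' (⟨f, hfm⟩ : riemannRochSpace D₀)
    (fun h => hf (congrArg Subtype.val h))).1 h0 ⟨f', hfm'⟩
  have hc' : c • f = f' := congrArg Subtype.val hc
  have hc0 : c ≠ 0 := by
    rintro rfl
    rw [zero_smul] at hc'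
    exact hf' hc'.symm
  congr 1
  ext v
  rw [divisorOf_apply, divisorOf_apply, ← hc', Algebra.smul_def,
    v.ord_mul (by simpa using hc0) hf, ord_algebraMap, zero_add]

end Lin

section Unit

variable {K κ : Type*} [Field K] [Field κ] {A : ValuationSubring K} {π : A →+* κ} [IsLocalHom π]

/-- inverses of equivariant functions -/
theorem unit_of_equivariant {S Γ : Type*} [Finite S] (a : Γ → K ≃+* K) (e : Γ → S ≃ S)
    (R : Subring (S → K)) (hconst : ∀ c : K, c ∈ A → (∀ γ, a γ c = c) → (fun _ => c) ∈ R)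
    {r : S → K} (hr : r ∈ R) (hrA : ∀ s, r s ∈ A) (hre : ∀ γ s, r (e γ s) = a γ (r s))
    (hru : ∀ s, ∀ x : A, (x : K) = r s → π x ≠ 0) : ∃ r' ∈ R, r * r' = 1 := by
  classical
  haveI := Fintype.ofFinite S
  set p : K[X] := ∏ s, (X - C (r s)) with hp
  -- coefficients
  have hA : ∀ i, p.coeff i ∈ A := by
    have h1 : p = (∏ s, (X - C (⟨r s, hrA s⟩ : A)) : A[X]).map A.subtype := by
      rw [Polynomial.map_prod]
      refine Finset.prod_congr rfl fun s _ => ?_
      rw [Polynomial.map_sub, map_X, map_C]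
      rfl
    intro i
    rw [h1, coeff_map]
    exact Subtype.prop _
  have hfix : ∀ γ i, a γ (p.coeff i) = p.coeff i := by
    intro γ i
    have h1 : p.map (a γ : K →+* K) = p := by
      rw [hp, Polynomial.map_prod, ← Equiv.prod_comp (e γ) (fun s => X - C (r s))]
      refine Finset.prod_congr rfl fun s _ => ?_
      rw [Polynomial.map_sub, map_X, map_C, hre]
      rfl
    have h2 : (p.map (a γ : K →+* K)).coeff i = p.coeff i := by rw [h1]
    rw [coeff_map] at h2
    exact h2
  have hcR : ∀ i, (fun _ : S => p.coeff i) ∈ R := fun i => hconst _ (hA i) fun γ => hfix γ i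
  -- the constant term
  have h0 : p.coeff 0 = ∏ s, (-r s) := by
    rw [coeff_zero_eq_eval_zero, hp, eval_prod]
    simp
  have hunit : ∀ s, ∃ u : A, (u : K) * r s = 1 := by
    intro s
    have h1 := hru s ⟨r s, hrA s⟩ rfl
    have hu : IsUnit (⟨r s, hrA s⟩ : A) := isUnit_of_map_unit π _ (isUnit_iff_ne_zero.2 h1)
    obtain ⟨u, hu'⟩ := hu
    refine ⟨((u⁻¹ : Aˣ) : A), ?_⟩
    have h2 := congrArg (fun x : A => (x : K)) u.inv_mul
    rw [hu'] at h2
    exact h2
  choose u hu using hunit
  set v : K := ∏ s, (-(u s : K)) with hv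
  have hvA : v ∈ A := prod_mem fun s _ => neg_mem (u s).2
  have hvp : v * p.coeff 0 = 1 := by
    rw [h0, hv, ← Finset.prod_mul_distrib]
    refine Finset.prod_eq_one fun s _ => ?_
    rw [neg_mul_neg, hu]
  have hp0 : p.coeff 0 ≠ 0 := right_ne_zero_of_mul_eq_one hvp
  have hvfix : ∀ γ, a γ v = v := by
    intro γ
    have h1 := congrArg (a γ) hvp
    rw [map_mul, hfix, map_one, ← hvp] at h1
    exact mul_right_cancel₀ hp0 h1
  refine ⟨-((fun _ => v) * ∑ i ∈ Finset.range p.natDegree, (fun _ : S => p.coeff (i + 1)) * r ^ i),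
    neg_mem (mul_mem (hconst v hvA hvfix) (sum_mem fun i _ => mul_mem (hcR _) (pow_mem hr i))), ?_⟩
  funext s
  have heval : p.eval (r s) = 0 := by
    rw [hp, eval_prod]
    exact Finset.prod_eq_zero (Finset.mem_univ s) (by simp)
  rw [eval_eq_sum_range, Finset.sum_range_succ', pow_zero, mul_one] at heval
  have h1 : r s * ∑ i ∈ Finset.range p.natDegree, p.coeff (i + 1) * r s ^ i = -p.coeff 0 := by
    rw [Finset.mul_sum, eq_neg_iff_add_eq_zero, ← heval]
    congr 1
    refine Finset.sum_congr rfl fun i _ => ?_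
    rw [pow_succ]; ring
  have h2 : (∑ i ∈ Finset.range p.natDegree, (fun _ : S => p.coeff (i + 1)) * r ^ i) s =
      ∑ i ∈ Finset.range p.natDegree, p.coeff (i + 1) * r s ^ i := by
    rw [Finset.sum_apply]
    rfl
  rw [Pi.mul_apply, Pi.neg_apply, Pi.mul_apply, h2, Pi.one_apply]
  linear_combination (-v) * h1 + hvp

end Unit

variable {K κ : Type*} [Field K] [Field κ] [IsAlgClosed K] [IsAlgClosed κ] {A : ValuationSubring K}
  {π : A →+* κ} [IsLocalHom π]
  {F Fb : Type*} [Field F] [Field Fb] [Algebra K F] [Algebra κ Fb]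
  [IsFunctionField K F] [IsFunctionField κ Fb]
  {G : GaussRed A π F Fb}

namespace RedCurve

variable {S : Type*} {C : RedCurve G} {T : Set (Place K F)} {B : Set (Place κ Fb)}
  {R : Subring (S → K)} {W : S → Submodule K F} {Wb : Submodule κ Fb}

/-- all dual bases of a rational family are rational -/
theorem ratFun_of_isRat (hRR : ResRing π R) (hr : C.IsRat T B R W Wb) {n : ℕ}
    {P : Fin n → Place K F} {w : Fin n → S → F} (hP : C.Pivots T B Wb P)
    (hw : ∀ i s, w i s ∈ W s) (hwv : ∀ i j s, value (P j) (w i s) = if i = j then 1 else 0)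
    (j : Fin n) : C.RatFun T B R (w j) := by
  obtain ⟨n', P', w', wb', hb⟩ := hr
  let y : Fin n' → S → K := fun i s => value (P' i) (w j s)
  have hy : ∀ s, w j s = ∑ i, y i s • w' i s := fun s => hb.eq_sum (hw j s)
  have hyR : ∀ i, y i ∈ R := by
    refine solve_mem hRR (fun (k : Fin n) i s => value (P k) (w' i s))
      (fun k i => value (C.rd (P k)) (wb' i)) (fun k i => hb.rres i (hP.mem k) (hP.out k))
      (fun k _ => if j = k then 1 else 0) (fun k => ?_) y (fun k => ?_) ?_
    · by_cases hjk : j = k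
      · simp only [if_pos hjk]; exact one_mem _
      · simp only [if_neg hjk]; exact zero_mem _
    · funext s
      rw [Finset.sum_apply, ← hwv j k s, hy s,
        value_sum_smul _ _ _ fun i _ => hb.reg i s _ (hP.out k)]
      exact Finset.sum_congr rfl fun i _ => mul_comm _ _
    · intro z hz
      apply hb.eq_zero_of_sumb
      refine hP.inj _ (Submodule.sum_mem _ fun i _ => Submodule.smul_mem _ _ (hb.memb i)) fun k => ?_
      rw [value_sum_smul _ _ _ fun i _ => hb.fam.regb _ (hb.memb i) _ (hP.out k)]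
      rw [← hz k]
      exact Finset.sum_congr rfl fun i _ => mul_comm _ _
  intro Q hQ hQB
  have h1 : (fun s => value Q (w j s)) = ∑ i, y i * fun s => value Q (w' i s) := by
    funext s
    rw [Finset.sum_apply, hy s, value_sum_smul _ _ _ fun i _ => hb.reg i s _ hQB]
    rfl
  rw [h1]
  exact sum_mem fun i _ => mul_mem (hyR i) (hb.rat i Q hQ hQB)

end RedCurve

end Fermat.Agent.PicFlat
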