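import Fermat.Agent.TWGal.Inertia

/-!
# Bump functions on Galois groups

For a place `A` of `ℚ̄` over `ℓ` with inertia group `I`, decomposition group `D` and an open normal
subgroup `U`, we construct integral elements fixed by `I` and `U` with prescribed congruences.
-/

set_option autoImplicit false
set_option linter.style.haveILetI false
set_option linter.unusedSectionVars false

namespace Fermat.Agent.PicFlat

open Fermat.Agent.Frob Fermat.Agent.TWGal Polynomial
open scoped Pointwise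

local notation "Qbar" => AlgebraicClosure ℚ
local notation "GQ" => (AlgebraicClosure ℚ ≃ₐ[ℚ] AlgebraicClosure ℚ)

section trans

variable {L : Type} [Field L] [CharZero L] [Algebra ℚ L]

set_option maxHeartbeats 1000000 in
/-- lifting to the decomposition group -/
theorem exists_mul_mem_decomp [IsGalois ℚ L] (A : ValuationSubring L) {ℓ : ℕ} (hℓ : ℓ.Prime)
    (hA : A.LiesOverPrime ℓ) (H : Subgroup (L ≃ₐ[ℚ] L)) [H.Normal]
    (hH : IsOpen (H : Set (L ≃ₐ[ℚ] L))) (g : L ≃ₐ[ℚ] L)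
    (hg : ∀ b : integralClosure ℤ L, (∀ h ∈ H, h • b = b) → g • b ∈ center A → b ∈ center A) :
    ∃ h ∈ H, h * g ∈ A.decompositionSubgroup ℚ := by
  letI : TopologicalSpace (integralClosure ℤ L) := ⊥
  haveI : DiscreteTopology (integralClosure ℤ L) := ⟨rfl⟩
  haveI : ContinuousSMul (L ≃ₐ[ℚ] L) (integralClosure ℤ L) := continuousSMul_integralClosure
  haveI : ContinuousSMul H (integralClosure ℤ L) :=
    ⟨(continuous_smul (M := L ≃ₐ[ℚ] L) (X := integralClosure ℤ L)).comp
      (continuous_subtype_val.prodMap continuous_id)⟩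
  have hHc : IsClosed (H : Set (L ≃ₐ[ℚ] L)) := H.isClosed_of_isOpen hH
  haveI : CompactSpace H := isCompact_iff_compactSpace.mp hHc.isCompact
  let A' := FixedPoints.subalgebra ℤ (integralClosure ℤ L) H
  have hmem : ∀ b : (integralClosure ℤ L), b ∈ A' ↔ ∀ h ∈ H, h • b = b := by
    intro b
    constructor
    · intro hb h hh; exact hb ⟨h, hh⟩
    · intro hb h; exact hb h h.2
  have hnorm : ∀ (k : L ≃ₐ[ℚ] L) (b : (integralClosure ℤ L)), b ∈ A' → k • b ∈ A' := by
    intro k b hb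
    rw [hmem] at hb ⊢
    intro h hh
    have h1 : k⁻¹ * h * k ∈ H := by
      have := (inferInstance : H.Normal).conj_mem h hh k⁻¹
      simpa using this
    have h2 := hb _ h1
    rw [mul_smul, mul_smul] at h2
    have h3 := congrArg (fun z => k • z) h2
    simpa only [smul_inv_smul] using h3
  haveI : Algebra.IsInvariant A' (integralClosure ℤ L) H := ⟨fun b hb => ⟨⟨b, hb⟩, rfl⟩⟩
  haveI : SMulCommClass H A' (integralClosure ℤ L) := ⟨fun h a b => by
    rw [Algebra.smul_def, Algebra.smul_def, smul_mul']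
    congr 1
    exact a.2 h⟩
  -- the converse implication
  haveI : H.FiniteIndex := by
    haveI := Subgroup.quotient_finite_of_isOpen H hH
    exact Subgroup.finiteIndex_of_finite_quotient
  have hg' : ∀ b : (integralClosure ℤ L), b ∈ A' → b ∈ center A → g • b ∈ center A := by
    intro b hb hbc
    obtain ⟨n, hn0, -, hn⟩ := Subgroup.exists_pow_mem_of_index_ne_zero
      (H := H) Subgroup.FiniteIndex.index_ne_zero g
    have key : ∀ k : ℕ, g ^ k • (g • b) ∈ center A → g • b ∈ center A := by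
      intro k
      induction k with
      | zero => intro h; rwa [pow_zero, one_smul] at h
      | succ k ih =>
        intro h
        apply ih
        rw [pow_succ', mul_smul] at h
        exact hg _ ((hmem _).mp (hnorm _ _ (hnorm _ _ hb))) h
    apply key (n - 1)
    rw [← mul_smul, ← pow_succ, Nat.sub_add_cancel hn0, (hmem b).mp hb _ hn]
    exact hbc
  have h1 : (g • center A).under A' = (center A).under A' := by
    ext ⟨b, hb⟩
    rw [Ideal.mem_comap, Ideal.mem_comap]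
    show b ∈ g • center A ↔ b ∈ center A
    rw [Ideal.mem_pointwise_smul_iff_inv_smul_mem]
    have h2 := hnorm g⁻¹ b hb
    constructor
    · intro h3
      have := hg' _ h2 h3
      rwa [smul_inv_smul] at this
    · intro h3
      refine hg _ ((hmem _).mp h2) ?_
      rwa [smul_inv_smul]
  obtain ⟨⟨h, hh⟩, hgh⟩ := Algebra.IsInvariant.exists_smul_of_under_eq_of_profinite (A := A')
    (G := H) (g • center A) (center A) h1
  refine ⟨h, hh, mem_decomposition_of_mem_stabilizer_center A hℓ hA ?_⟩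
  rw [MulAction.mem_stabilizer_iff, mul_smul]
  exact hgh.symm

end trans

variable {A : ValuationSubring Qbar} {ℓ : ℕ}

/-- inertia elements act trivially on residues -/
theorem val_inertia {σ : GQ} (hσ : σ ∈ A.inertiaSubgroupIn ℚ) {x : Qbar} (hx : x ∈ A) :
    A.valuation (σ x - x) < 1 := by
  obtain ⟨⟨σ', hσ'⟩, hker, rfl⟩ := hσ
  have h1 : (⟨σ', hσ'⟩ : A.decompositionSubgroup ℚ) • IsLocalRing.residue A ⟨x, hx⟩ =
      IsLocalRing.residue A ⟨x, hx⟩ := by
    have h2 : MulSemiringAction.toRingAut (A.decompositionSubgroup ℚ) (IsLocalRing.ResidueField A)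
      ⟨σ', hσ'⟩ = 1 := hker
    exact congrArg (fun f : IsLocalRing.ResidueField A ≃+* IsLocalRing.ResidueField A =>
      f (IsLocalRing.residue A ⟨x, hx⟩)) h2
  have h3 : IsLocalRing.residue A ((⟨σ', hσ'⟩ : A.decompositionSubgroup ℚ) • (⟨x, hx⟩ : A)) =
      IsLocalRing.residue A ⟨x, hx⟩ := h1
  exact (FrobDens.residue_eq_iff A _ _).mp h3

/-- the open subgroup generated by inertia and `U` -/
noncomputable def SU (A : ValuationSubring Qbar) (U : Subgroup GQ) : Subgroup GQ := A.inertiaSubgroupIn ℚ ⊔ U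

section

variable {U : Subgroup GQ} [hUn : U.Normal]

theorem mem_SU {g : GQ} : g ∈ SU A U ↔ ∃ σ ∈ A.inertiaSubgroupIn ℚ, ∃ u ∈ U, g = σ * u := by
  rw [← SetLike.mem_coe, SU, Subgroup.mul_normal, Set.mem_mul]
  constructor
  · rintro ⟨σ, hσ, u, hu, h⟩; exact ⟨σ, hσ, u, hu, h.symm⟩
  · rintro ⟨σ, hσ, u, hu, h⟩; exact ⟨σ, hσ, u, hu, h.symm⟩

theorem mem_SU' {g : GQ} (h : ∃ u ∈ U, u * g ∈ A.inertiaSubgroupIn ℚ) : g ∈ SU A U := by
  obtain ⟨u, hu, h⟩ := h
  have h1 : g = u⁻¹ * (u * g) := by group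
  rw [h1]
  exact Subgroup.mul_mem _ ((le_sup_right : U ≤ SU A U) (U.inv_mem hu))
    ((le_sup_left : _ ≤ SU A U) h)

/-- the finite orbit -/
theorem orbit_finite (S : Subgroup GQ) (y : Qbar) :
    (Set.range fun s : S => (s : GQ) y).Finite := by
  have hy : IsIntegral ℚ y := Algebra.IsIntegral.isIntegral y
  refine ((minpoly ℚ y).rootSet_finite Qbar).subset ?_
  rintro _ ⟨s, rfl⟩
  rw [mem_rootSet_of_ne (minpoly.ne_zero hy)]
  have h1 : aeval ((s : GQ) y) (minpoly ℚ y) = (s : GQ) (aeval y (minpoly ℚ y)) :=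
    (aeval_algHom_apply ((s : GQ) : Qbar →ₐ[ℚ] Qbar) y _)
  rw [h1, minpoly.aeval, map_zero]

/-- the orbit as a finset -/
noncomputable def orb (S : Subgroup GQ) (y : Qbar) : Finset Qbar := (orbit_finite S y).toFinset

theorem mem_orb {S : Subgroup GQ} {y z : Qbar} : z ∈ orb S y ↔ ∃ s ∈ S, (s : GQ) y = z := by
  rw [orb, Set.Finite.mem_toFinset, Set.mem_range]
  constructor
  · rintro ⟨s, hs⟩; exact ⟨s, s.2, hs⟩
  · rintro ⟨s, hs, h⟩; exact ⟨⟨s, hs⟩, h⟩

theorem self_mem_orb (S : Subgroup GQ) (y : Qbar) : y ∈ orb S y := mem_orb.mpr ⟨1, S.one_mem, rfl⟩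

open Classical in
theorem image_orb {S : Subgroup GQ} (y : Qbar) {s : GQ} (hs : s ∈ S) :
    (orb S y).image s = orb S y := by
  ext z
  rw [Finset.mem_image]
  constructor
  · rintro ⟨w, hw, rfl⟩
    obtain ⟨t, ht, rfl⟩ := mem_orb.mp hw
    exact mem_orb.mpr ⟨s * t, S.mul_mem hs ht, rfl⟩
  · intro hz
    obtain ⟨t, ht, rfl⟩ := mem_orb.mp hz
    refine ⟨s⁻¹ (t y), mem_orb.mpr ⟨s⁻¹ * t, S.mul_mem (S.inv_mem hs) ht, rfl⟩, ?_⟩
    rw [← AlgEquiv.mul_apply, mul_inv_cancel, AlgEquiv.one_apply]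

theorem prod_orb {S : Subgroup GQ} (y : Qbar) {s : GQ} (hs : s ∈ S) {M : Type*} [CommMonoid M]
    (f : Qbar → M) : ∏ z ∈ orb S y, f (s z) = ∏ z ∈ orb S y, f z := by
  classical
  conv_rhs => rw [← image_orb y hs]
  rw [Finset.prod_image fun a _ b _ h => s.injective h]

theorem val_orb {y z : Qbar} (hy : ∀ u ∈ U, u y = y) (hyA : y ∈ A)
    (hz : z ∈ orb (SU A U) y) : A.valuation (z - y) < 1 := by
  obtain ⟨s, hs, rfl⟩ := mem_orb.mp hz
  obtain ⟨σ, hσ, u, hu, rfl⟩ := mem_SU.mp hs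
  rw [AlgEquiv.mul_apply, hy u hu]
  exact val_inertia hσ hyA

theorem orb_fixed {y z : Qbar} (hy : ∀ u ∈ U, u y = y) (hz : z ∈ orb (SU A U) y) :
    ∀ u ∈ U, u z = z := by
  intro u hu
  obtain ⟨s, hs, rfl⟩ := mem_orb.mp hz
  have h1 := hy _ (hUn.conj_mem u hu s⁻¹)
  have h2 := congrArg s h1
  rw [← AlgEquiv.mul_apply] at h2
  rw [← AlgEquiv.mul_apply, ← h2]
  congr 1
  group

theorem orb_integral {S : Subgroup GQ} {y z : Qbar} (hy : IsIntegral ℤ y) (hz : z ∈ orb S y) :
    IsIntegral ℤ z := by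
  obtain ⟨s, hs, rfl⟩ := mem_orb.mp hz
  exact hy.map (s : GQ).toAlgHom.toIntAlgHom

variable (hℓ : ℓ.Prime) (hA : A.LiesOverPrime ℓ) (hU : IsOpen (U : Set GQ))

include hℓ hA hU in
theorem exists_val_one (g : GQ) (hg : ∀ u ∈ U, u * g ∉ A.inertiaSubgroupIn ℚ) :
    ∃ y : Qbar, IsIntegral ℤ y ∧ (∀ u ∈ U, u y = y) ∧ A.valuation (g y - y) = 1 := by
  by_contra hcon
  push Not at hcon
  have := isGalois_Qbar
  obtain ⟨h, hh, hσ⟩ := Mink.exists_mul_mem_inertia A hℓ hA U hU g (by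
    intro b hb
    by_contra hne
    exact hcon b b.2 (fun u hu => congrArg Subtype.val (hb u hu))
      ((notMem_center_iff A (g • b - b)).mp hne))
  exact hg h hh hσ

include hℓ hA hU in
theorem exists_val_lt (g : GQ) (hg : ∀ u ∈ U, u * g ∉ A.decompositionSubgroup ℚ) :
    ∃ y : Qbar, IsIntegral ℤ y ∧ (∀ u ∈ U, u y = y) ∧ A.valuation (g y) < 1 ∧
      A.valuation y = 1 := by
  by_contra hcon
  push Not at hcon
  have := isGalois_Qbar
  obtain ⟨h, hh, hσ⟩ := exists_mul_mem_decomp A hℓ hA U hU g (by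
    intro b hb hgb
    by_contra hne
    exact hcon b b.2 (fun u hu => congrArg Subtype.val (hb u hu))
      ((mem_center_iff A (g • b)).mp hgb) ((notMem_center_iff A b).mp hne))
  exact hg h hh hσ

include hℓ hA in
theorem val_le_of_isIntegral {y : Qbar} (hy : IsIntegral ℤ y) : A.valuation y ≤ 1 :=
  (A.valuation_le_one_iff _).mpr (mem_of_isIntegral A hy)

include hU in
theorem finite_quot : Finite (GQ ⧸ SU A U) := by
  have h1 : IsOpen (SU A U : Set GQ) := Subgroup.isOpen_mono (le_sup_right : U ≤ SU A U) hU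
  exact Subgroup.quotient_finite_of_isOpen _ h1

/-- functions which are combinations of orbit functions -/
def IsPhi (A : ValuationSubring Qbar) (S : Subgroup GQ) (F : GQ → Qbar) : Prop :=
  ∃ (ι : Type) (_ : Fintype ι) (b c : ι → Qbar), (∀ i, b i ∈ A) ∧ (∀ i, IsIntegral ℤ (c i)) ∧
    (∀ i, ∀ s ∈ S, s (c i) = c i) ∧ ∀ g, F g = ∑ i, b i * g (c i)

theorem IsPhi.one (S : Subgroup GQ) : IsPhi A S fun _ => 1 :=
  ⟨Unit, inferInstance, fun _ => 1, fun _ => 1, fun _ => A.one_mem, fun _ => isIntegral_one,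
    fun _ s _ => map_one s, fun g => by simp⟩

theorem IsPhi.mul {S : Subgroup GQ} {F F' : GQ → Qbar} (h : IsPhi A S F) (h' : IsPhi A S F') :
    IsPhi A S fun g => F g * F' g := by
  obtain ⟨ι, _, b, c, hb, hc, hcs, hF⟩ := h
  obtain ⟨ι', _, b', c', hb', hc', hcs', hF'⟩ := h'
  refine ⟨ι × ι', inferInstance, fun i => b i.1 * b' i.2, fun i => c i.1 * c' i.2,
    fun i => A.mul_mem _ _ (hb _) (hb' _), fun i => (hc _).mul (hc' _), fun i s hs => ?_,
    fun g => ?_⟩
  · rw [map_mul, hcs _ s hs, hcs' _ s hs]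
  · change F g * F' g = _
    rw [hF, hF', Finset.sum_mul_sum, Fintype.sum_prod_type]
    refine Finset.sum_congr rfl fun i _ => Finset.sum_congr rfl fun j _ => ?_
    rw [map_mul]
    ring

theorem IsPhi.prod {S : Subgroup GQ} {κ : Type*} (T : Finset κ) {F : κ → GQ → Qbar}
    (h : ∀ k, IsPhi A S (F k)) : IsPhi A S fun g => ∏ k ∈ T, F k g := by
  classical
  induction T using Finset.induction_on with
  | empty => simpa using IsPhi.one S
  | insert k T hk ih =>
    simp only [Finset.prod_insert hk]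
    exact (h k).mul ih

theorem IsPhi.right {S : Subgroup GQ} {F : GQ → Qbar} (h : IsPhi A S F) (g : GQ) {s : GQ}
    (hs : s ∈ S) : F (g * s) = F g := by
  obtain ⟨ι, _, b, c, hb, hc, hcs, hF⟩ := h
  rw [hF, hF]
  refine Finset.sum_congr rfl fun i _ => ?_
  rw [AlgEquiv.mul_apply, hcs _ s hs]

/-- products over orbits -/
theorem isPhi_orb {S : Subgroup GQ} {y β : Qbar} (hy : IsIntegral ℤ y) (hβ : IsIntegral ℤ β) :
    IsPhi A S fun g => ∏ z ∈ orb S y, (β - g z) := by
  classical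
  set Q : Qbar[X] := ∏ z ∈ orb S y, (X - C z) with hQ
  have hint : ∀ i, IsIntegral ℤ (Q.coeff i) := by
    intro i
    have h1 : ∀ z ∈ orb S y, (X - C z : Qbar[X]) ∈ Polynomial.lifts
        (algebraMap (integralClosure ℤ Qbar) Qbar) := by
      intro z hz
      exact ⟨X - C ⟨z, orb_integral hy hz⟩, by simp⟩
    have h2 : Q ∈ Polynomial.lifts (algebraMap (integralClosure ℤ Qbar) Qbar) := by
      rw [hQ]
      exact Subsemiring.prod_mem _ h1
    rw [Polynomial.lifts_iff_coeff_lifts] at h2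
    obtain ⟨c, hc⟩ := h2 i
    rw [← hc]
    exact c.2
  have hfix : ∀ s ∈ S, Q.map (s : Qbar →+* Qbar) = Q := by
    intro s hs
    rw [hQ, Polynomial.map_prod]
    simp only [Polynomial.map_sub, Polynomial.map_X, Polynomial.map_C]
    exact prod_orb y hs fun z => (X - C z)
  refine ⟨Fin (Q.natDegree + 1), inferInstance, fun i => β ^ (i : ℕ), fun i => Q.coeff i,
    fun i => mem_of_isIntegral A (hβ.pow _), fun i => hint i, fun i s hs => ?_, fun g => ?_⟩
  · have h1 := congrArg (fun P : Qbar[X] => P.coeff i) (hfix s hs)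
    simp only [Polynomial.coeff_map] at h1
    exact h1
  · have h1 : ∏ z ∈ orb S y, (β - g z) = (Q.map (g : Qbar →+* Qbar)).eval β := by
      rw [hQ, Polynomial.map_prod, Polynomial.eval_prod]
      refine Finset.prod_congr rfl fun z _ => ?_
      simp
    change ∏ z ∈ orb S y, (β - g z) = _
    rw [h1, Polynomial.eval_eq_sum_range' (n := Q.natDegree + 1)
      (Nat.lt_succ_of_le natDegree_map_le)]
    rw [Finset.sum_range]
    refine Finset.sum_congr rfl fun i _ => ?_
    rw [Polynomial.coeff_map, mul_comm]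
    rfl

include hℓ hA hU in
/-- **bump functions** -/
theorem exists_phi : ∃ (ι : Type) (_ : Fintype ι) (b c : ι → Qbar), (∀ i, b i ∈ A) ∧
    (∀ i, IsIntegral ℤ (c i)) ∧ (∀ i, ∀ s ∈ SU A U, s (c i) = c i) ∧ ∑ i, b i * c i = 1 ∧
    ∀ g ∉ SU A U, ∑ i, b i * g (c i) = 0 := by
  classical
  haveI := finite_quot (A := A) hU
  haveI := Fintype.ofFinite (GQ ⧸ SU A U)
  have key : ∀ q : GQ ⧸ SU A U, ∃ F : GQ → Qbar, IsPhi A (SU A U) F ∧ A.valuation (F 1) = 1 ∧
      (q.out ∉ SU A U → F q.out = 0) := by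
    intro q
    by_cases hq : q.out ∈ SU A U
    · exact ⟨fun _ => 1, IsPhi.one _, map_one _, fun h => absurd hq h⟩
    · obtain ⟨y, hy, hyU, hval⟩ := exists_val_one hℓ hA hU q.out
        (fun u hu h => hq (mem_SU' ⟨u, hu, h⟩))
      have hβ : IsIntegral ℤ (q.out y) := hy.map (q.out).toAlgHom.toIntAlgHom
      refine ⟨_, isPhi_orb hy hβ, ?_, fun _ => ?_⟩
      · rw [map_prod]
        refine Finset.prod_eq_one fun z hz => ?_
        have h1 := val_orb hyU (mem_of_isIntegral A hy) hz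
        have h2 : q.out y - (1 : GQ) z = (q.out y - y) - (z - y) := by
          rw [AlgEquiv.one_apply]; ring
        rw [h2, Valuation.map_sub_eq_of_lt_left _ (by rw [hval]; exact h1), hval]
      · exact Finset.prod_eq_zero (self_mem_orb _ y) (sub_self _)
  choose F hF hF1 hF0 using key
  obtain ⟨ι, _, b, c, hb, hc, hcs, hF'⟩ := IsPhi.prod (A := A) (S := SU A U) Finset.univ hF
  have hval : A.valuation (∏ q, F q 1) = 1 := by
    rw [map_prod]
    exact Finset.prod_eq_one fun q _ => hF1 q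
  have hne : ∏ q, F q 1 ≠ 0 := by
    intro h
    rw [h, map_zero] at hval
    exact zero_ne_one hval
  refine ⟨ι, inferInstance, fun i => (∏ q, F q 1)⁻¹ * b i, c, fun i => A.mul_mem _ _ ?_ (hb i), hc,
    hcs, ?_, fun g hg => ?_⟩
  · rw [← A.valuation_le_one_iff, map_inv₀, hval, inv_one]
  · have h1 := hF' 1
    simp only [AlgEquiv.one_apply] at h1
    simp only [mul_assoc]
    rw [← Finset.mul_sum, ← h1, inv_mul_cancel₀ hne]
  · simp only [mul_assoc]
    rw [← Finset.mul_sum, ← hF' g]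
    have h1 : ∏ q, F q g = 0 := by
      refine Finset.prod_eq_zero (Finset.mem_univ (g : GQ ⧸ SU A U)) ?_
      obtain ⟨s, hs⟩ := QuotientGroup.mk_out_eq_mul (SU A U) g
      rw [← (hF _).right g s.2, ← hs]
      apply hF0
      rw [hs]
      intro h
      exact hg ((Subgroup.mul_mem_cancel_right _ s.2).mp h)
    change (∏ q, F q 1)⁻¹ * ∏ q, F q g = 0
    rw [h1, mul_zero]

include hℓ hA in
/-- powers of topologically nilpotent elements -/
theorem exists_pow_le {z : Qbar} (hz : A.valuation z < 1) (N : ℕ) :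
    ∃ n : ℕ, ∀ m ≥ n, A.valuation z ^ m ≤ A.valuation (ℓ : Qbar) ^ N := by
  by_cases hz0 : z = 0
  · refine ⟨1, fun m hm => ?_⟩
    rw [hz0, map_zero, zero_pow (by omega)]
    exact zero_le
  haveI := isAlgebraic_Qbar
  obtain ⟨e, he, f, hf⟩ := ECRed.val_alg A hℓ hA hz0
  have hq1 : A.valuation (ℓ : Qbar) < 1 := hA
  have hq0 := ECRed.val_q_ne_zero A hℓ
  have hf0 : 0 < f := by
    by_contra hle
    have h1 : A.valuation z ^ e < 1 := pow_lt_one' hz he.ne'
    rw [hf] at h1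
    have h2 : (1 : A.ValueGroup) ≤ A.valuation (ℓ : Qbar) ^ f := by
      obtain ⟨n, rfl⟩ : ∃ n : ℕ, f = -(n : ℤ) := ⟨(-f).toNat, by omega⟩
      rw [zpow_neg, zpow_natCast]
      exact (one_le_inv₀ (pow_pos (zero_lt_iff.mpr hq0) _)).mpr (pow_le_one' hq1.le _)
    exact absurd h1 (not_lt.mpr h2)
  obtain ⟨n, rfl⟩ : ∃ n : ℕ, f = (n : ℤ) := ⟨f.toNat, by omega⟩
  rw [zpow_natCast] at hf
  refine ⟨e * N, fun m hm => ?_⟩
  calc A.valuation z ^ m ≤ A.valuation z ^ (e * N) := pow_le_pow_right_of_le_one' hz.le hm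
    _ = A.valuation (ℓ : Qbar) ^ (n * N) := by rw [pow_mul, hf, ← pow_mul]
    _ ≤ A.valuation (ℓ : Qbar) ^ N := pow_le_pow_right_of_le_one' hq1.le
        (Nat.le_mul_of_pos_left N (by omega))

include hℓ hA hU in
/-- **elements highly divisible at the other places** -/
theorem exists_eps (N : ℕ) : ∃ ε : Qbar, IsIntegral ℤ ε ∧ (∀ s ∈ SU A U, s ε = ε) ∧
    A.valuation ε = 1 ∧ ∀ g, (∀ u ∈ U, u * g ∉ A.decompositionSubgroup ℚ) →
      A.valuation (g ε) ≤ A.valuation (ℓ : Qbar) ^ N := by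
  classical
  haveI := finite_quot (A := A) hU
  haveI := Fintype.ofFinite (GQ ⧸ SU A U)
  -- membership in `DU`
  have hDU : ∀ g s : GQ, s ∈ SU A U → (∀ u ∈ U, u * g ∉ A.decompositionSubgroup ℚ) →
      ∀ u ∈ U, u * (g * s) ∉ A.decompositionSubgroup ℚ := by
    intro g s hs hg u hu hmem
    obtain ⟨σ, hσ, u', hu', rfl⟩ := mem_SU.mp hs
    have hσd := inertia_le_decomp hσ
    have h1 : u * (g * (σ * u')) * σ⁻¹ ∈ A.decompositionSubgroup ℚ :=
      Subgroup.mul_mem _ hmem (Subgroup.inv_mem _ hσd)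
    have h2 : g * (σ * u' * σ⁻¹) * g⁻¹ ∈ U := hUn.conj_mem _ (hUn.conj_mem _ hu' _) _
    have h3 : u * (g * (σ * u')) * σ⁻¹ = (u * (g * (σ * u' * σ⁻¹) * g⁻¹)) * g := by group
    rw [h3] at h1
    exact hg _ (U.mul_mem hu h2) h1
  have key : ∀ q : GQ ⧸ SU A U, ∃ ε : Qbar, IsIntegral ℤ ε ∧ (∀ s ∈ SU A U, s ε = ε) ∧
      A.valuation ε = 1 ∧ ((∀ u ∈ U, u * q.out ∉ A.decompositionSubgroup ℚ) →
        A.valuation (q.out ε) < 1) := by
    intro q
    by_cases hq : ∀ u ∈ U, u * q.out ∉ A.decompositionSubgroup ℚ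
    · obtain ⟨y, hy, hyU, hval, hval1⟩ := exists_val_lt hℓ hA hU q.out hq
      refine ⟨∏ z ∈ orb (SU A U) y, z, IsIntegral.prod _ fun z hz => orb_integral hy hz,
        fun s hs => ?_, ?_, fun _ => ?_⟩
      · rw [map_prod]
        exact prod_orb y hs fun z => z
      · rw [map_prod]
        refine Finset.prod_eq_one fun z hz => ?_
        have h1 := val_orb hyU (mem_of_isIntegral A hy) hz
        have h2 : z = y + (z - y) := by ring
        rw [h2, Valuation.map_add_eq_of_lt_left _ (by rw [hval1]; exact h1), hval1]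
      · rw [map_prod, map_prod, ← Finset.mul_prod_erase _ _ (self_mem_orb _ y)]
        refine mul_lt_one_of_lt_of_le hval (Finset.prod_le_one' fun z hz => ?_)
        exact val_le_of_isIntegral hℓ hA
          ((orb_integral hy (Finset.mem_of_mem_erase hz)).map (q.out).toAlgHom.toIntAlgHom)
    · exact ⟨1, isIntegral_one, fun s _ => map_one s, map_one _, fun h => absurd h hq⟩
  choose ε hint hfix hval hlt using key
  set ε₀ := ∏ q, ε q with hε₀
  have hint0 : IsIntegral ℤ ε₀ := IsIntegral.prod _ fun q _ => hint q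
  have hfix0 : ∀ s ∈ SU A U, s ε₀ = ε₀ := by
    intro s hs
    rw [hε₀, map_prod]
    exact Finset.prod_congr rfl fun q _ => hfix q s hs
  have hlt0 : ∀ q : GQ ⧸ SU A U, (∀ u ∈ U, u * q.out ∉ A.decompositionSubgroup ℚ) →
      A.valuation (q.out ε₀) < 1 := by
    intro q hq
    rw [hε₀, map_prod, map_prod, ← Finset.mul_prod_erase _ _ (Finset.mem_univ q)]
    refine mul_lt_one_of_lt_of_le (hlt q hq) (Finset.prod_le_one' fun q' _ => ?_)
    exact val_le_of_isIntegral hℓ hA ((hint q').map (q.out).toAlgHom.toIntAlgHom)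
  have hn : ∀ q : GQ ⧸ SU A U, ∃ n : ℕ, (∀ u ∈ U, u * q.out ∉ A.decompositionSubgroup ℚ) →
      ∀ m ≥ n, A.valuation (q.out ε₀) ^ m ≤ A.valuation (ℓ : Qbar) ^ N := by
    intro q
    by_cases hq : ∀ u ∈ U, u * q.out ∉ A.decompositionSubgroup ℚ
    · obtain ⟨n, hn⟩ := exists_pow_le hℓ hA (hlt0 q hq) N
      exact ⟨n, fun _ => hn⟩
    · exact ⟨0, fun h => absurd h hq⟩
  choose n hn using hn
  refine ⟨ε₀ ^ (∑ q, n q), hint0.pow _, fun s hs => by rw [map_pow, hfix0 s hs], ?_, fun g hg => ?_⟩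
  · rw [map_pow, hε₀, map_prod, Finset.prod_eq_one fun q _ => hval q, one_pow]
  · obtain ⟨s, hs⟩ := QuotientGroup.mk_out_eq_mul (SU A U) g
    have h1 : g ε₀ = (Quotient.out (g : GQ ⧸ SU A U)) ε₀ := by
      rw [hs, AlgEquiv.mul_apply, hfix0 _ s.2]
    rw [map_pow, map_pow, h1]
    refine hn _ ?_ _ (Finset.single_le_sum (fun _ _ => Nat.zero_le _) (Finset.mem_univ _))
    rw [hs]
    exact hDU g s s.2 hg

end

end Fermat.Agent.PicFlat
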