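import Fermat.Agent.PicFlat.Rat

/-!
# Rationality of colon spaces
-/

set_option autoImplicit false
set_option linter.unusedSectionVars false
set_option linter.unusedDecidableInType false
set_option linter.style.haveILetI false

noncomputable section

namespace Fermat.Agent.PicFlat

open Polynomial AlgebraicCurve Fermat.Agent.Curves Module IntermediateField WithZero
open Fermat.Agent.GoodRed

theorem sum_pair_ite {R ι μ : Type*} [CommRing R] [Fintype ι] [Fintype μ] [DecidableEq ι]
    (l : ι) (f : μ → R) (x : ι × μ → R) :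
    ∑ p : ι × μ, (if p.1 = l then f p.2 else 0) * x p = ∑ m, f m * x (l, m) := by
  rw [Fintype.sum_prod_type, Finset.sum_eq_single l]
  · simp
  · intro b _ hb
    simp [hb]
  · intro h
    exact absurd (Finset.mem_univ _) h

variable {K κ : Type*} [Field K] [Field κ] [IsAlgClosed K] [IsAlgClosed κ] {A : ValuationSubring K}
  {π : A →+* κ} [IsLocalHom π]
  {F Fb : Type*} [Field F] [Field Fb] [Algebra K F] [Algebra κ Fb]
  [IsFunctionField K F] [IsFunctionField κ Fb]
  {G : GaussRed A π F Fb}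

namespace RedCurve

variable {S : Type*} {C : RedCurve G} {T : Set (Place K F)} {B : Set (Place κ Fb)}
  {R : Subring (S → K)}

theorem RRes.of_mem_zero {R : Subring (S → K)} : RRes π R 0 0 := RRes.zero

/-- **colon spaces of rational families are rational** -/
theorem isRat_colon (hT : ∀ S : Set (Place κ Fb), S.Finite → ∃ P ∈ T, C.rd P ∉ S)
    (hB : B.Finite) (hRR : ResRing π R) {X Y Z : S → Submodule K F} {Xb Yb Zb : Submodule κ Fb}
    (hX : C.IsRat T B R X Xb) (hY : C.IsRat T B R Y Yb) (hZ : C.Fam B Z Zb)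
    (hmul : ∀ s, ∀ v ∈ Z s, ∀ u ∈ X s, v * u ∈ Y s)
    (hcol : ∀ v : Fb, (∀ u ∈ Xb, v * u ∈ Yb) → v ∈ Zb)
    (hbpf : ∀ Q, Q ∉ B → ∃ u ∈ Xb, value Q u ≠ 0) : C.IsRat T B R Z Zb := by
  classical
  obtain ⟨nx, Px, u, ub, hu⟩ := hX
  obtain ⟨ny, Py, b, bb, hb⟩ := hY
  refine isRat_of_fam hT hB hZ fun n P w wb hn hP hw hwb hwv hwbv hwR j => ?_
  have hreg : ∀ s, C.Reg B (w j s) := fun s => (hZ.redIn s).reg _ (hw j s)
  -- some nonvanishing basis element
  have hbpf' : ∀ Q, Q ∉ B → ∃ l, value Q (ub l) ≠ 0 := by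
    intro Q hQ
    obtain ⟨f, hf, hf0⟩ := hbpf Q hQ
    by_contra hcon
    push Not at hcon
    apply hf0
    rw [hu.eq_sumb hf, value_sum_smul _ _ _ fun i _ => hu.fam.regb _ (hu.memb i) _ hQ]
    exact Finset.sum_eq_zero fun i _ => by rw [hcon i, mul_zero]
  let x : Fin nx × Fin ny → S → K := fun p s => value (Py p.2) (w j s * u p.1 s)
  have hx : ∀ l s, w j s * u l s = ∑ m, x (l, m) s • b m s := fun l s =>
    hb.eq_sum (hmul s _ (hw j s) _ (hu.mem l s))
  let β : Place K F → Fin ny → S → K := fun P' m s => value P' (b m s)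
  let υ : Place K F → Fin nx → S → K := fun P' l s => value P' (u l s)
  have hβ : ∀ P' ∈ T, C.rd P' ∉ B → ∀ m, RRes π R (β P' m) (value (C.rd P') (bb m)) :=
    fun P' h1 h2 m => hb.rres m h1 h2
  have hυ : ∀ P' ∈ T, C.rd P' ∉ B → ∀ l, RRes π R (υ P' l) (value (C.rd P') (ub l)) :=
    fun P' h1 h2 l => hu.rres l h1 h2
  -- values of `w u`
  have hval : ∀ P', C.rd P' ∉ B → ∀ l s,
      value P' (w j s) * υ P' l s = ∑ m, β P' m s * x (l, m) s := by
    intro P' h2 l s
    change value P' (w j s) * value P' (u l s) = ∑ m, value P' (b m s) * x (l, m) s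
    rw [← value_mul P' (hreg s _ h2) (hu.reg l s _ h2), hx l s,
      value_sum_smul _ _ _ fun m _ => hb.reg m s _ h2]
    exact Finset.sum_congr rfl fun m _ => mul_comm _ _
  let ρ := (Fin nx × Fin nx × {P' : Place K F // P' ∈ T ∧ C.rd P' ∉ B}) ⊕ (Fin nx × Fin n)
  let M : ρ → Fin nx × Fin ny → S → K := Sum.elim
    (fun r p => (if p.1 = r.1 then β r.2.2 p.2 * υ r.2.2 r.2.1 else 0) -
      (if p.1 = r.2.1 then β r.2.2 p.2 * υ r.2.2 r.1 else 0))
    (fun r p => if p.1 = r.1 then β (P r.2) p.2 else 0)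
  let Mb : ρ → Fin nx × Fin ny → κ := Sum.elim
    (fun r p => (if p.1 = r.1 then value (C.rd r.2.2) (bb p.2) * value (C.rd r.2.2) (ub r.2.1)
        else 0) -
      (if p.1 = r.2.1 then value (C.rd r.2.2) (bb p.2) * value (C.rd r.2.2) (ub r.1) else 0))
    (fun r p => if p.1 = r.1 then value (C.rd (P r.2)) (bb p.2) else 0)
  have hite : ∀ (p : Prop) [Decidable p] {r : S → K} {c : κ}, RRes π R r c →
      RRes π R (if p then r else 0) (if p then c else 0) := by
    intro p _ r c h
    by_cases hp : p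
    · rwa [if_pos hp, if_pos hp]
    · rw [if_neg hp, if_neg hp]; exact RRes.zero
  have hM : ∀ r p, RRes π R (M r p) (Mb r p) := by
    rintro (⟨l, l', P', h1, h2⟩ | ⟨l, k⟩) p
    · exact (hite _ ((hβ P' h1 h2 p.2).mul (hυ P' h1 h2 l'))).sub
        (hite _ ((hβ P' h1 h2 p.2).mul (hυ P' h1 h2 l)))
    · exact hite _ (hβ _ (hP.mem k) (hP.out k) p.2)
  let c : ρ → S → K := Sum.elim (fun _ => 0) (fun r => (if j = r.2 then 1 else 0) * υ (P r.2) r.1)
  have hc : ∀ r, c r ∈ R := by
    rintro (r | ⟨l, k⟩)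
    · exact zero_mem _
    · refine mul_mem ?_ (hυ _ (hP.mem k) (hP.out k) l).1
      change (if j = k then (1 : S → K) else 0) ∈ R
      split_ifs
      · exact one_mem _
      · exact zero_mem _
  have heq : ∀ r, ∑ p, M r p * x p = c r := by
    rintro (⟨l, l', P', h1, h2⟩ | ⟨l, k⟩)
    · change ∑ p : Fin nx × Fin ny, ((if p.1 = l then β P' p.2 * υ P' l' else 0) -
        (if p.1 = l' then β P' p.2 * υ P' l else 0)) * x p = 0
      simp only [sub_mul]
      rw [Finset.sum_sub_distrib, sum_pair_ite l (fun m => β P' m * υ P' l') x,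
        sum_pair_ite l' (fun m => β P' m * υ P' l) x]
      funext s
      simp only [Pi.sub_apply, Finset.sum_apply, Pi.mul_apply, Pi.zero_apply]
      have e1 := hval P' h2 l s
      have e2 := hval P' h2 l' s
      have e3 : ∑ m, β P' m s * υ P' l' s * x (l, m) s = (∑ m, β P' m s * x (l, m) s) * υ P' l' s := by
        rw [Finset.sum_mul]
        exact Finset.sum_congr rfl fun m _ => by ring
      have e4 : ∑ m, β P' m s * υ P' l s * x (l', m) s = (∑ m, β P' m s * x (l', m) s) * υ P' l s := by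
        rw [Finset.sum_mul]
        exact Finset.sum_congr rfl fun m _ => by ring
      rw [e3, e4, ← e1, ← e2]
      ring
    · change ∑ p : Fin nx × Fin ny, (if p.1 = l then β (P k) p.2 else 0) * x p =
        (if j = k then 1 else 0) * υ (P k) l
      rw [sum_pair_ite l (fun m => β (P k) m) x]
      funext s
      have e1 := hval (P k) (hP.out k) l s
      rw [hwv] at e1
      simp only [Finset.sum_apply, Pi.mul_apply]
      rw [← e1]
      by_cases hjk : j = k
      · simp only [if_pos hjk, Pi.one_apply]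
      · simp only [if_neg hjk, Pi.zero_apply]
  have hinj : ∀ z : Fin nx × Fin ny → κ, (∀ r, ∑ p, Mb r p * z p = 0) → z = 0 := by
    intro z hz
    let H : Fin nx → Fb := fun l => ∑ m, z (l, m) • bb m
    have hHY : ∀ l, H l ∈ Yb := fun l =>
      Submodule.sum_mem _ fun m _ => Submodule.smul_mem _ _ (hb.memb m)
    have hHv : ∀ l Q, Q ∉ B → value Q (H l) = ∑ m, value Q (bb m) * z (l, m) := by
      intro l Q hQ
      rw [value_sum_smul _ _ _ fun m _ => hb.fam.regb _ (hb.memb m) _ hQ]
      exact Finset.sum_congr rfl fun m _ => mul_comm _ _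
    have h1 : ∀ l l', H l * ub l' = H l' * ub l := by
      intro l l'
      rw [← sub_eq_zero]
      refine eq_zero_of_values hT hB fun P' hP'T hP'B => ?_
      have hr1 := hb.fam.regb _ (hHY l) _ hP'B
      have hr2 := hb.fam.regb _ (hHY l') _ hP'B
      have hr3 := hu.fam.regb _ (hu.memb l) _ hP'B
      have hr4 := hu.fam.regb _ (hu.memb l') _ hP'B
      rw [value_sub _ (mul_mem hr1 hr4) (mul_mem hr2 hr3), value_mul _ hr1 hr4,
        value_mul _ hr2 hr3, hHv l _ hP'B, hHv l' _ hP'B]
      have h2 := hz (Sum.inl (l, l', ⟨P', hP'T, hP'B⟩))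
      change ∑ p : Fin nx × Fin ny, ((if p.1 = l then value (C.rd P') (bb p.2) *
        value (C.rd P') (ub l') else 0) - (if p.1 = l' then value (C.rd P') (bb p.2) *
          value (C.rd P') (ub l) else 0)) * z p = 0 at h2
      simp only [sub_mul] at h2
      rw [Finset.sum_sub_distrib, sum_pair_ite l (fun m => value (C.rd P') (bb m) *
        value (C.rd P') (ub l')) z, sum_pair_ite l' (fun m => value (C.rd P') (bb m) *
          value (C.rd P') (ub l)) z] at h2
      rw [Finset.sum_mul, Finset.sum_mul, ← h2]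
      congr 1
      · exact Finset.sum_congr rfl fun m _ => by ring
      · exact Finset.sum_congr rfl fun m _ => by ring
    have h2 : ∀ l k, value (C.rd (P k)) (H l) = 0 := by
      intro l k
      rw [hHv l _ (hP.out k)]
      have h3 := hz (Sum.inr (l, k))
      change ∑ p : Fin nx × Fin ny, (if p.1 = l then value (C.rd (P k)) (bb p.2) else 0) * z p = 0
        at h3
      rwa [sum_pair_ite l (fun m => value (C.rd (P k)) (bb m)) z] at h3
    obtain ⟨P₀, hP₀T, hP₀⟩ := hT B hB
    obtain ⟨l₀, hl₀⟩ := hbpf' _ hP₀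
    have hub0 : ub l₀ ≠ 0 := by
      intro h0
      apply hl₀
      rw [h0, value_zero]
    set v := H l₀ / ub l₀ with hv
    have hvu : ∀ l, v * ub l = H l := by
      intro l
      rw [hv, div_mul_eq_mul_div, h1 l₀ l, mul_div_assoc, div_self hub0, mul_one]
    have hvX : ∀ f ∈ Xb, v * f = ∑ l, value (C.rd (Px l)) f • H l := by
      intro f hf
      conv_lhs => rw [hu.eq_sumb hf]
      rw [Finset.mul_sum]
      refine Finset.sum_congr rfl fun l _ => ?_
      rw [mul_smul_comm, hvu]
    have hvZ : v ∈ Zb := by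
      refine hcol v fun f hf => ?_
      rw [hvX f hf]
      exact Submodule.sum_mem _ fun l _ => Submodule.smul_mem _ _ (hHY l)
    have hv0 : v = 0 := by
      refine hP.inj v hvZ fun k => ?_
      have hk := hP.out k
      obtain ⟨l, hl⟩ := hbpf' _ hk
      have h3 : value (C.rd (P k)) (v * ub l) = 0 := by rw [hvu, h2]
      rw [value_mul _ (hZ.regb _ hvZ _ hk) (hu.fam.regb _ (hu.memb l) _ hk)] at h3
      exact (mul_eq_zero.1 h3).resolve_right hl
    funext ⟨l, m⟩
    have h4 : ∑ m, z (l, m) • bb m = 0 := by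
      change H l = 0
      rw [← hvu l, hv0, zero_mul]
    exact congrFun (hb.eq_zero_of_sumb h4) m
  have hxR := solve_mem hRR M Mb hM c hc x heq hinj
  intro P' hP'T hP'B
  obtain ⟨l, hl⟩ := hbpf' _ hP'B
  obtain ⟨r', hr', hmul'⟩ := hRR.unit _ _ (hυ P' hP'T hP'B l) hl
  have h5 : (fun s => value P' (w j s)) = (∑ m, β P' m * x (l, m)) * r' := by
    have h6 : (fun s => value P' (w j s)) * υ P' l = ∑ m, β P' m * x (l, m) := by
      funext s
      rw [Finset.sum_apply]
      exact hval P' hP'B l s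
    rw [← h6, mul_assoc, hmul', mul_one]
  rw [h5]
  exact mul_mem (sum_mem fun m _ => mul_mem (hβ P' hP'T hP'B m).1 (hxR _)) hr'

end RedCurve

end Fermat.Agent.PicFlat
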