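import Fermat.Agent.PicFlat.Tor

/-!
# Comultiplication on the local order
-/

set_option autoImplicit false
set_option linter.unusedSectionVars false
set_option linter.unusedDecidableInType false
set_option linter.style.haveILetI false

noncomputable section

namespace Fermat.Agent.PicFlat

open Polynomial AlgebraicCurve Fermat.Agent.Curves Module IntermediateField WithZero
open Fermat.Agent.GoodRed
open scoped Pointwise

variable {K κ : Type*} [Field K] [Field κ] [IsAlgClosed K] [IsAlgClosed κ] {A : ValuationSubring K}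
  {π : A →+* κ} [IsLocalHom π]
  {F Fb : Type*} [Field F] [Field Fb] [Algebra K F] [Algebra κ Fb]
  [IsFunctionField K F] [IsFunctionField κ Fb]
  {G : GaussRed A π F Fb}

/-- functions on the square generated by a ring of functions -/
def sq {X K : Type*} [Field K] (H : Subring (X → K)) : Subring (X × X → K) :=
  Subring.closure ({k | ∃ h ∈ H, k = fun p => h p.1} ∪ {k | ∃ h ∈ H, k = fun p => h p.2})

theorem fst_mem_sq {X K : Type*} [Field K] {H : Subring (X → K)} {h : X → K} (hh : h ∈ H) :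
    (fun p : X × X => h p.1) ∈ sq H := Subring.subset_closure (Or.inl ⟨h, hh, rfl⟩)

theorem snd_mem_sq {X K : Type*} [Field K] {H : Subring (X → K)} {h : X → K} (hh : h ∈ H) :
    (fun p : X × X => h p.2) ∈ sq H := Subring.subset_closure (Or.inr ⟨h, hh, rfl⟩)

/-- restriction of functions -/
def resHom {Y K : Type*} [Field K] (S : Set Y) : (Y → K) →+* (S → K) where
  toFun f s := f s
  map_one' := rfl
  map_mul' _ _ := rfl
  map_zero' := rfl
  map_add' _ _ := rfl

namespace TorData

variable {C : RedCurve G} {Γ : Type*} [Group Γ] {M : GalAct G Γ} {g c : ℤ}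
  {X : Type*} [AddCommGroup X] [MulAction Γ X] (t : TorData C M g c X)

theorem degree_Eb (x : X) : Divisor.degree (t.Eb x) = g := by
  rw [Eb, C.degree_red, t.degree_E]

section Fam

variable {S : Type*} {R : Subring (S → K)}

/-- functions along a good family are rational -/
theorem comp_mem [Nonempty S] (h : C.Setup g c M.fixPl t.B R (M.fixDiv C t.B))
    (hR0 : ∀ a, M.Fix a → (fun _ => a) ∈ R) {x : S → X} {d : Divisor κ Fb}
    (hd : ∀ s, t.Eb (x s) = d)
    (hg : C.GoodFam c M.fixPl t.B R (M.fixDiv C t.B) (fun s => t.E (x s)) d) {f : X → K}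
    (hf : f ∈ t.H) : (fun s => f (x s)) ∈ R := by
  classical
  unfold H at hf
  induction hf using Subring.closure_induction with
  | mem f hf =>
    rcases hf with (⟨a, ha, rfl⟩ | ⟨d', rfl⟩) | ⟨d', n, P, w, wb, i, P', hP, hw, hwv, hwR, hP', hB, rfl⟩
    · exact hR0 a ha
    · by_cases hdd : d = d'
      · have : (fun s => t.idem d' (x s)) = 1 := by
          funext s
          rw [idem, if_pos ((hd s).trans hdd)]
          rfl
        rw [this]
        exact one_mem _
      · have : (fun s => t.idem d' (x s)) = 0 := by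
          funext s
          rw [idem, if_neg (fun h => hdd ((hd s).symm.trans h))]
          rfl
        rw [this]
        exact zero_mem _
    · by_cases hdd : d = d'
      · subst hdd
        have h1 : (fun s => if t.Eb (x s) = d then value P' (w i (x s)) else 0) =
            fun s => value P' (w i (x s)) := by
          funext s
          rw [if_pos (hd s)]
        rw [h1]
        have hdeg : Divisor.degree d = g := by
          obtain ⟨s⟩ := (inferInstance : Nonempty S)
          rw [← hd s, t.degree_Eb]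
        have h2 := (h.good_neg hg).2 t.m t.m_mem (by
          rw [map_neg, hdeg]; have := t.m_deg'; omega)
        exact RedCurve.ratFun_of_isRat h.hR h2 (w := fun i s => w i (x s)) hP
          (fun i s => hw _ (hd s) i) (fun i j s => hwv _ (hd s) i j) i P' hP' hB
      · have : (fun s => if t.Eb (x s) = d' then value P' (w i (x s)) else 0) = (0 : S → K) := by
          funext s
          rw [if_neg (fun h => hdd ((hd s).symm.trans h))]
          rfl
        rw [this]
        exact zero_mem _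
  | zero => exact zero_mem R
  | one => exact one_mem R
  | add f f' _ _ ih ih' => exact add_mem ih ih'
  | neg f _ ih => exact neg_mem ih
  | mul f f' _ _ ih ih' => exact mul_mem ih ih'

/-- rational families are good -/
theorem good_of_comp [Finite X] [Nonempty S] (h : C.Setup g c M.fixPl t.B R (M.fixDiv C t.B))
    {x : S → X} {d : Divisor κ Fb} (hd : ∀ s, t.Eb (x s) = d)
    (hH : ∀ f ∈ t.H, (fun s => f (x s)) ∈ R) :
    C.GoodFam c M.fixPl t.B R (M.fixDiv C t.B) (fun s => t.E (x s)) d := by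
  classical
  obtain ⟨s₀⟩ := (inferInstance : Nonempty S)
  obtain ⟨n, P, w, wb, hn, hP, hwb, hwbv, hw, hwv, hwR⟩ := t.exists_gens (x s₀)
  rw [hd s₀] at hn hP hwb hw hwv hwR
  have hfamE : C.DivFam t.B (fun s => t.E (x s)) d := ⟨fun s => hd s, fun s => t.E_adm (x s)⟩
  have hfam := (RedCurve.DivFam.const h t.m_mem).add hfamE.neg
  have hell : ∀ s, ell (t.m + -t.E (x s)) = ell (C.red t.m + -d) := by
    intro s
    rw [t.ell_W (x s), hd s]
  have hdeg : Divisor.degree d = g := by rw [← hd s₀, t.degree_Eb]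
  have hrat : C.IsRat M.fixPl t.B R (fun s => riemannRochSpace (t.m + -t.E (x s)))
      (riemannRochSpace (C.red t.m + -d)) := by
    refine ⟨n, P, fun i s => w i (x s), wb, hfam.fam hell, hP, fun i s => hw _ (hd s) i, hwb,
      fun i j s => hwv _ (hd s) i j, hwbv, fun i s => hwR _ (hd s) i, fun i P' hP' hB => ?_⟩
    have h1 := hH _ (t.gen_mem ⟨d, n, P, w, wb, i, P', hP, hw, hwv, hwR, hP', hB, rfl⟩)
    have h2 : (fun s => value P' (w i (x s))) =
        fun s => if t.Eb (x s) = d then value P' (w i (x s)) else 0 := by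
      funext s
      rw [if_pos (hd s)]
    rw [h2]
    exact h1
  have h1 := h.good_neg (h.good_of_one hfamE.neg t.m_mem (by
    rw [map_neg, hdeg]; have := t.m_deg'; omega) hrat)
  simpa only [neg_neg] using h1

/-- sums of rational families are rational -/
theorem add_mem_of_comp [Finite X] [Nonempty S]
    (h : C.Setup g c M.fixPl t.B R (M.fixDiv C t.B))
    (hR0 : ∀ a, M.Fix a → (fun _ => a) ∈ R) {x y : S → X} {d d' : Divisor κ Fb}
    (hd : ∀ s, t.Eb (x s) = d) (hd' : ∀ s, t.Eb (y s) = d')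
    (hx : ∀ f ∈ t.H, (fun s => f (x s)) ∈ R) (hy : ∀ f ∈ t.H, (fun s => f (y s)) ∈ R)
    {f : X → K} (hf : f ∈ t.H) : (fun s => f (x s + y s)) ∈ R := by
  obtain ⟨s₀⟩ := (inferInstance : Nonempty S)
  have hd'' : ∀ s, t.Eb (x s + y s) = t.Eb (x s₀ + y s₀) := fun s =>
    t.Eb_add ((hd s).trans (hd s₀).symm) ((hd' s).trans (hd' s₀).symm)
  refine t.comp_mem h hR0 hd'' ?_ hf
  have h1 := h.good_sub (h.good_add (t.good_of_comp h hd hx) (t.good_of_comp h hd' hy))
    (h.good_const t.e_mem)
  refine h.good_effective h1 (fun s => t.ell_E_add (x s) (y s)) ?_ (fun s => t.E_nonneg _)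
    (fun s => t.E_add_lin _ _) (t.Eb_nonneg _) ?_ (fun Q hQ => t.Eb_B _ hQ)
  · have := t.ell_Eb_add (x s₀) (y s₀)
    rwa [hd, hd'] at this
  · have := t.Eb_add_lin (x s₀) (y s₀)
    rwa [hd, hd'] at this

end Fam

/-- constant residues on products of residue classes -/
theorem exists_res2 {f : X × X → K} (hf : f ∈ sq t.H) (d d' : Divisor κ Fb) :
    ∃ c : κ, ∀ p : X × X, t.Eb p.1 = d → t.Eb p.2 = d' → ∃ a : A, (a : K) = f p ∧ π a = c := by
  unfold sq at hf
  induction hf using Subring.closure_induction with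
  | mem f hf =>
    rcases hf with ⟨h, hh, rfl⟩ | ⟨h, hh, rfl⟩
    · obtain ⟨c, hc⟩ := t.exists_res hh d
      exact ⟨c, fun p hp _ => hc _ hp⟩
    · obtain ⟨c, hc⟩ := t.exists_res hh d'
      exact ⟨c, fun p _ hp => hc _ hp⟩
  | zero => exact ⟨0, fun p _ _ => ⟨0, rfl, map_zero π⟩⟩
  | one => exact ⟨1, fun p _ _ => ⟨1, rfl, map_one π⟩⟩
  | add h h' _ _ ih ih' =>
    obtain ⟨c, hc⟩ := ih
    obtain ⟨c', hc'⟩ := ih'
    refine ⟨c + c', fun x hx hx' => ?_⟩
    obtain ⟨a, ha, hac⟩ := hc x hx hx'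
    obtain ⟨a', ha', hac'⟩ := hc' x hx hx'
    exact ⟨a + a', by rw [Pi.add_apply, ← ha, ← ha']; rfl, by rw [map_add, hac, hac']⟩
  | neg h _ ih =>
    obtain ⟨c, hc⟩ := ih
    refine ⟨-c, fun x hx hx' => ?_⟩
    obtain ⟨a, ha, hac⟩ := hc x hx hx'
    exact ⟨-a, by rw [Pi.neg_apply, ← ha]; rfl, by rw [map_neg, hac]⟩
  | mul h h' _ _ ih ih' =>
    obtain ⟨c, hc⟩ := ih
    obtain ⟨c', hc'⟩ := ih'
    refine ⟨c * c', fun x hx hx' => ?_⟩
    obtain ⟨a, ha, hac⟩ := hc x hx hx'
    obtain ⟨a', ha', hac'⟩ := hc' x hx hx'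
    exact ⟨a * a', by rw [Pi.mul_apply, ← ha, ← ha']; rfl, by rw [map_mul, hac, hac']⟩

theorem equiv2 {f : X × X → K} (hf : f ∈ sq t.H) (γ : Γ) (p : X × X) :
    f (γ • p) = SemilinearAut.baseAut (M.ρ γ) (f p) := by
  unfold sq at hf
  induction hf using Subring.closure_induction with
  | mem f hf =>
    rcases hf with ⟨h, hh, rfl⟩ | ⟨h, hh, rfl⟩
    · exact t.equiv hh γ p.1
    · exact t.equiv hh γ p.2
  | zero => exact (map_zero _).symm
  | one => exact (map_one _).symm
  | add h h' _ _ ih ih' => rw [Pi.add_apply, Pi.add_apply, ih, ih', map_add]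
  | neg h _ ih => rw [Pi.neg_apply, Pi.neg_apply, ih, map_neg]
  | mul h h' _ _ ih ih' => rw [Pi.mul_apply, Pi.mul_apply, ih, ih', map_mul]

/-- the restriction of `sq H` to a product of residue classes is local -/
theorem resRing [Finite X] (d d' : Divisor κ Fb) :
    ResRing π ((sq t.H).map (resHom (K := K) {p : X × X | t.Eb p.1 = d ∧ t.Eb p.2 = d'})) where
  res := by
    rintro _ ⟨f, hf, rfl⟩
    obtain ⟨c, hc⟩ := t.exists_res2 hf d d'
    exact ⟨c, ⟨f, hf, rfl⟩, fun s => hc s.1 s.2.1 s.2.2⟩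
  unit := by
    rintro _ c ⟨⟨f, hf, rfl⟩, hc⟩ hc0
    let e : Γ → {p : X × X | t.Eb p.1 = d ∧ t.Eb p.2 = d'} ≃
        {p : X × X | t.Eb p.1 = d ∧ t.Eb p.2 = d'} := fun γ =>
      (MulAction.toPerm γ).subtypeEquiv fun p => by
        change (t.Eb p.1 = d ∧ t.Eb p.2 = d') ↔ (t.Eb (γ • p.1) = d ∧ t.Eb (γ • p.2) = d')
        rw [t.Eb_smul, t.Eb_smul]
    refine unit_of_equivariant (π := π) (fun γ => SemilinearAut.baseAut (M.ρ γ)) e _ ?_
      ⟨f, hf, rfl⟩ ?_ ?_ ?_
    · intro a ha hfix
      exact ⟨fun _ => a, fst_mem_sq (t.const_mem ⟨ha, hfix⟩), rfl⟩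
    · intro s
      obtain ⟨a, ha, -⟩ := hc s
      rw [← ha]
      exact a.2
    · intro γ s
      exact t.equiv2 hf γ s.1
    · intro s x hx h0
      obtain ⟨a, ha, hac⟩ := hc s
      rw [show x = a from Subtype.ext (hx.trans ha.symm), hac] at h0
      exact hc0 h0

/-- **comultiplication** -/
theorem comul [Finite X] {f : X → K} (hf : f ∈ t.H) :
    (fun p : X × X => f (p.1 + p.2)) ∈ sq t.H := by
  classical
  haveI := Fintype.ofFinite X
  -- local statements
  have key : ∀ d d' : Divisor κ Fb, ∃ θ ∈ sq t.H, ∀ p : X × X, t.Eb p.1 = d → t.Eb p.2 = d' →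
      θ p = f (p.1 + p.2) := by
    intro d d'
    set S : Set (X × X) := {p : X × X | t.Eb p.1 = d ∧ t.Eb p.2 = d'} with hS
    by_cases hne : Nonempty S
    · have hR0 : ∀ a, M.Fix a → (fun _ : S => a) ∈ (sq t.H).map (resHom (K := K) S) :=
        fun a ha => ⟨fun _ => a, fst_mem_sq (t.const_mem ha), rfl⟩
      have hset := M.setup (C := C) t.hK t.hκ t.hT t.B_finite (t.resRing d d') hR0
        ⟨t.m, t.m_mem, t.m_pos⟩
      obtain ⟨θ, hθ, hθf⟩ := t.add_mem_of_comp hset hR0 (x := fun s : S => s.1.1)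
        (y := fun s : S => s.1.2) (fun s => s.2.1) (fun s => s.2.2)
        (fun h hh => ⟨_, fst_mem_sq hh, rfl⟩) (fun h hh => ⟨_, snd_mem_sq hh, rfl⟩) hf
      exact ⟨θ, hθ, fun p hp hp' => congrFun hθf ⟨p, hp, hp'⟩⟩
    · exact ⟨0, zero_mem _, fun p hp hp' => absurd ⟨⟨p, hp, hp'⟩⟩ hne⟩
  choose θ hθ hθf using key
  have h1 : (fun p : X × X => f (p.1 + p.2)) = ∑ d ∈ Finset.univ.image t.Eb,
      ∑ d' ∈ Finset.univ.image t.Eb, (fun p : X × X => t.idem d p.1) *
        (fun p : X × X => t.idem d' p.2) * θ d d' := by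
    funext p
    rw [Finset.sum_apply, Finset.sum_eq_single (t.Eb p.1)]
    · rw [Finset.sum_apply, Finset.sum_eq_single (t.Eb p.2)]
      · simp only [Pi.mul_apply, idem, if_true, one_mul]
        exact (hθf _ _ p rfl rfl).symm
      · intro b _ hb
        simp only [Pi.mul_apply, idem, if_neg (Ne.symm hb), mul_zero, zero_mul]
      · intro h
        exact absurd (Finset.mem_image_of_mem _ (Finset.mem_univ _)) h
    · intro b _ hb
      rw [Finset.sum_apply]
      refine Finset.sum_eq_zero fun d' _ => ?_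
      simp only [Pi.mul_apply, idem, if_neg (Ne.symm hb), zero_mul]
    · intro h
      exact absurd (Finset.mem_image_of_mem _ (Finset.mem_univ _)) h
  rw [h1]
  exact sum_mem fun d _ => sum_mem fun d' _ => mul_mem (mul_mem (fst_mem_sq (t.idem_mem d))
    (snd_mem_sq (t.idem_mem d'))) (hθ d d')

end TorData

end Fermat.Agent.PicFlat
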