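import Fermat.Agent.PicFlat.Bump
import Fermat.Agent.PicFlat.Comul
import Fermat.Agent.FlatLoc.Frozen

/-!
# Descent of local orders to `ℤ_(ℓ)`
-/

set_option autoImplicit false
set_option linter.style.haveILetI false
set_option linter.unusedSectionVars false

noncomputable section

namespace Fermat.Agent.PicFlat

open Fermat.Agent.Frob Fermat.Agent.TWGal Fermat.Agent.FlatLoc
open scoped Pointwise

local notation "Qbar" => AlgebraicClosure ℚ
local notation "GQ" => (AlgebraicClosure ℚ ≃ₐ[ℚ] AlgebraicClosure ℚ)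

variable {X : Type*} [AddCommGroup X]

section action

variable (ρ : GQ →* AddMonoid.End X)

/-- the Galois action on functions -/
def actF (g : GQ) : (X → Qbar) →+* (X → Qbar) where
  toFun f x := g (f (ρ g⁻¹ x))
  map_one' := by funext x; exact map_one g
  map_mul' f f' := by funext x; exact map_mul g _ _
  map_zero' := by funext x; exact map_zero g
  map_add' f f' := by funext x; exact map_add g _ _

theorem actF_apply (g : GQ) (f : X → Qbar) (x : X) : actF ρ g f x = g (f (ρ g⁻¹ x)) := rfl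

theorem rho_mul (g h : GQ) (x : X) : ρ (g * h) x = ρ g (ρ h x) := by rw [map_mul]; rfl

theorem rho_one (x : X) : ρ 1 x = x := by rw [map_one]; rfl

theorem rho_cancel (g : GQ) (x : X) : ρ g (ρ g⁻¹ x) = x := by
  rw [← rho_mul, mul_inv_cancel, rho_one]

theorem rho_cancel' (g : GQ) (x : X) : ρ g⁻¹ (ρ g x) = x := by
  rw [← rho_mul, inv_mul_cancel, rho_one]

theorem actF_mul (g h : GQ) (f : X → Qbar) : actF ρ (g * h) f = actF ρ g (actF ρ h f) := by
  funext x
  rw [actF_apply, actF_apply, actF_apply, mul_inv_rev, rho_mul, AlgEquiv.mul_apply]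

theorem actF_eq_iff (g : GQ) (f : X → Qbar) : actF ρ g f = f ↔ ∀ x, f (ρ g x) = g (f x) := by
  constructor
  · intro h x
    have := congrFun h (ρ g x)
    rw [actF_apply, rho_cancel'] at this
    exact this.symm
  · intro h
    funext x
    rw [actF_apply, ← h, rho_cancel]

end action

/-- local Hopf data at the place `A` -/
structure LocData (A : ValuationSubring Qbar) (ρ : GQ →* AddMonoid.End X)
    (H : Subring (X → Qbar)) : Prop where
  val : ∀ f ∈ H, ∀ x, f x ∈ A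
  equiv : ∀ f ∈ H, ∀ σ ∈ A.inertiaSubgroupIn ℚ, ∀ x, f (ρ σ x) = σ (f x)
  sep : ∀ x y, (∀ h ∈ H, h x = h y) → x = y
  comul : ∀ f ∈ H, (fun q : X × X => f (q.1 + q.2)) ∈ sq H

namespace LocData

variable {A : ValuationSubring Qbar} {ℓ : ℕ} {ρ : GQ →* AddMonoid.End X} {H : Subring (X → Qbar)}

/-- inertia is normal in the decomposition group -/
theorem conj_inertia {d σ : GQ} (hd : d ∈ A.decompositionSubgroup ℚ)
    (hσ : σ ∈ A.inertiaSubgroupIn ℚ) : d⁻¹ * σ * d ∈ A.inertiaSubgroupIn ℚ := by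
  have hd' : d⁻¹ ∈ A.decompositionSubgroup ℚ := Subgroup.inv_mem _ hd
  have h := Mink.conj_mem_inertia A d⁻¹ σ hσ
  rw [mem_decomp_iff.mp hd', inv_inv] at h
  exact h

theorem mem_of_decomp {d : GQ} (hd : d ∈ A.decompositionSubgroup ℚ) {x : Qbar} (hx : x ∈ A) :
    d x ∈ A := by
  have h1 : d • A = A := hd
  rw [← h1]
  exact ValuationSubring.smul_mem_pointwise_smul _ _ _ hx

variable (A ρ H) in
/-- the `A`-algebra generated by the conjugates -/
def MA : Subalgebra A.toSubring (X → Qbar) :=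
  Algebra.adjoin A.toSubring {f | ∃ d ∈ A.decompositionSubgroup ℚ, ∃ h ∈ H, f = actF ρ d h}

theorem gen_mem {d : GQ} (hd : d ∈ A.decompositionSubgroup ℚ) {h : X → Qbar} (hh : h ∈ H) :
    actF ρ d h ∈ MA A ρ H := Algebra.subset_adjoin ⟨d, hd, h, hh, rfl⟩

theorem H_mem {h : X → Qbar} (hh : h ∈ H) : h ∈ MA A ρ H := by
  have h1 : actF ρ 1 h = h := by
    rw [actF_eq_iff]; intro x; rw [rho_one]; rfl
  rw [← h1]
  exact gen_mem (Subgroup.one_mem _) hh

theorem const_mem {a : Qbar} (ha : a ∈ A) : (fun _ => a) ∈ MA A ρ H :=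
  (MA A ρ H).algebraMap_mem (⟨a, ha⟩ : A.toSubring)

theorem smul_mem {a : Qbar} (ha : a ∈ A) {f : X → Qbar} (hf : f ∈ MA A ρ H) :
    a • f ∈ MA A ρ H := (MA A ρ H).smul_mem hf (⟨a, ha⟩ : A.toSubring)

theorem act_mem {d : GQ} (hd : d ∈ A.decompositionSubgroup ℚ) {f : X → Qbar}
    (hf : f ∈ MA A ρ H) : actF ρ d f ∈ MA A ρ H := by
  unfold MA at hf
  induction hf using Algebra.adjoin_induction with
  | mem f hf =>
    obtain ⟨d', hd', h, hh, rfl⟩ := hf
    rw [← actF_mul]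
    exact gen_mem (Subgroup.mul_mem _ hd hd') hh
  | algebraMap a => exact const_mem (a := d a) (mem_of_decomp hd a.2)
  | add f f' _ _ ih ih' => rw [map_add]; exact add_mem ih ih'
  | mul f f' _ _ ih ih' => rw [map_mul]; exact mul_mem ih ih'

variable (h : LocData A ρ H)

include h in
theorem val_mem {f : X → Qbar} (hf : f ∈ MA A ρ H) (x : X) : f x ∈ A := by
  unfold MA at hf
  induction hf using Algebra.adjoin_induction with
  | mem f hf =>
    obtain ⟨d, hd, f, hf, rfl⟩ := hf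
    exact mem_of_decomp hd (h.val f hf _)
  | algebraMap a => exact a.2
  | add f f' _ _ ih ih' => exact A.add_mem _ _ ih ih'
  | mul f f' _ _ ih ih' => exact A.mul_mem _ _ ih ih'

include h in
theorem gen_equiv {d : GQ} (hd : d ∈ A.decompositionSubgroup ℚ) {f : X → Qbar} (hf : f ∈ H)
    {σ : GQ} (hσ : σ ∈ A.inertiaSubgroupIn ℚ) (x : X) :
    actF ρ d f (ρ σ x) = σ (actF ρ d f x) := by
  rw [actF_apply, actF_apply]
  have h1 : ρ d⁻¹ (ρ σ x) = ρ (d⁻¹ * σ * d) (ρ d⁻¹ x) := by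
    rw [← rho_mul, ← rho_mul]
    congr 2
    group
  rw [h1, h.equiv f hf _ (conj_inertia hd hσ), ← AlgEquiv.mul_apply, ← AlgEquiv.mul_apply]
  congr 1
  group

include h in
/-- `MA` is spanned by inertia-equivariant functions -/
theorem mem_span_equiv {f : X → Qbar} (hf : f ∈ MA A ρ H) :
    f ∈ Submodule.span A.toSubring {f | f ∈ MA A ρ H ∧ ∀ σ ∈ A.inertiaSubgroupIn ℚ, ∀ x,
      f (ρ σ x) = σ (f x)} := by
  have h1 : f ∈ Subalgebra.toSubmodule (MA A ρ H) := hf
  rw [MA, Algebra.adjoin_eq_span] at h1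
  refine Submodule.span_mono ?_ h1
  intro f hf
  induction hf using Submonoid.closure_induction with
  | mem f hf =>
    obtain ⟨d, hd, f, hf, rfl⟩ := hf
    exact ⟨gen_mem hd hf, fun σ hσ x => h.gen_equiv hd hf hσ x⟩
  | one => exact ⟨one_mem _, fun σ hσ x => (map_one σ).symm⟩
  | mul f f' _ _ ih ih' =>
    refine ⟨mul_mem ih.1 ih'.1, fun σ hσ x => ?_⟩
    rw [Pi.mul_apply, Pi.mul_apply, map_mul, ih.2 σ hσ, ih'.2 σ hσ]

variable (hℓ : ℓ.Prime) (hA : A.LiesOverPrime ℓ)

include hℓ hA in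
theorem exists_denom (c : Qbar) : ∃ n : ℕ, (ℓ : Qbar) ^ n * c ∈ A := by
  by_cases hc0 : c = 0
  · exact ⟨0, by rw [hc0, mul_zero]; exact A.zero_mem⟩
  haveI := isAlgebraic_Qbar
  obtain ⟨e, he, f, hf⟩ := ECRed.val_alg A hℓ hA hc0
  have hq1 : A.valuation (ℓ : Qbar) < 1 := hA
  have hq0 := ECRed.val_q_ne_zero A hℓ
  refine ⟨f.natAbs, ?_⟩
  rw [← A.valuation_le_one_iff, map_mul, map_pow]
  by_contra hlt
  rw [not_le] at hlt
  have h1 := one_lt_pow₀ hlt he.ne'
  rw [mul_pow, hf, ← pow_mul, ← zpow_natCast, ← zpow_add₀ hq0] at h1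
  have h2 : (0 : ℤ) ≤ ((f.natAbs * e : ℕ) : ℤ) + f := by
    have h3 : (f.natAbs : ℤ) ≤ (f.natAbs * e : ℕ) := by
      exact_mod_cast Nat.le_mul_of_pos_right _ he
    omega
  obtain ⟨n, hn⟩ := Int.eq_ofNat_of_zero_le h2
  rw [hn, zpow_natCast] at h1
  exact absurd h1 (not_lt.mpr (pow_le_one' hq1.le _))

include hℓ hA in
theorem exists_denom_finite {ι : Type*} [Finite ι] (c : ι → Qbar) :
    ∃ n : ℕ, ∀ i, (ℓ : Qbar) ^ n * c i ∈ A := by
  classical
  haveI := Fintype.ofFinite ι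
  choose n hn using fun i => exists_denom hℓ hA (c i)
  refine ⟨∑ i, n i, fun i => ?_⟩
  rw [← Finset.add_sum_erase _ _ (Finset.mem_univ i), pow_add, mul_comm ((ℓ : Qbar) ^ n i),
    mul_assoc]
  exact A.mul_mem _ _ (pow_mem (natCast_mem A ℓ) _) (hn i)

include h hℓ hA in
/-- `MA` is a lattice -/
theorem exists_conductor [Finite X] : ∃ k : ℕ, ∀ F : X → Qbar, (∀ x, F x ∈ A) →
    (fun x => (ℓ : Qbar) ^ k * F x) ∈ MA A ρ H := by
  classical
  haveI := Fintype.ofFinite X
  have hdelta : ∀ x : X, ∃ k : ℕ, ((ℓ : Qbar) ^ k • (Pi.single x 1 : X → Qbar)) ∈ MA A ρ H := by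
    intro x
    have h1 : ∀ y : X, ∃ f ∈ H, y ≠ x → f x ≠ f y := by
      intro y
      by_cases hy : y = x
      · exact ⟨0, zero_mem _, fun h => absurd hy h⟩
      · by_contra hcon
        push Not at hcon
        exact hy (h.sep x y fun f hf => (hcon f hf).2).symm
    choose f hf hfxy using h1
    -- the interpolation function
    set F : X → Qbar := ∏ y ∈ Finset.univ.erase x, (f y - fun _ => f y y) with hF
    have hFm : F ∈ MA A ρ H :=
      prod_mem fun y _ => sub_mem (H_mem (hf y)) (const_mem (h.val _ (hf y) _))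
    have hFx : F x ≠ 0 := by
      rw [hF, Finset.prod_apply]
      refine Finset.prod_ne_zero_iff.mpr fun y hy => ?_
      exact sub_ne_zero.mpr (hfxy y (Finset.ne_of_mem_erase hy))
    have hF0 : ∀ y, y ≠ x → F y = 0 := by
      intro y hy
      rw [hF, Finset.prod_apply]
      refine Finset.prod_eq_zero (Finset.mem_erase.mpr ⟨hy, Finset.mem_univ _⟩) ?_
      exact sub_self _
    obtain ⟨k, hk⟩ := exists_denom hℓ hA (F x)⁻¹
    refine ⟨k, ?_⟩
    have h2 : ((ℓ : Qbar) ^ k • (Pi.single x 1 : X → Qbar)) = ((ℓ : Qbar) ^ k * (F x)⁻¹) • F := by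
      funext y
      by_cases hy : y = x
      · subst hy
        rw [Pi.smul_apply, Pi.smul_apply, Pi.single_eq_same, smul_eq_mul, smul_eq_mul, mul_assoc,
          inv_mul_cancel₀ hFx]
      · rw [Pi.smul_apply, Pi.smul_apply, Pi.single_eq_of_ne hy, hF0 y hy, smul_zero, smul_zero]
    rw [h2]
    exact smul_mem hk hFm
  choose k hk using hdelta
  obtain ⟨K, hK⟩ : ∃ K, K = ∑ x, k x := ⟨_, rfl⟩
  obtain ⟨k', hk'⟩ : ∃ k' : X → ℕ, ∀ x, K = k x + k' x :=
    ⟨fun x => ∑ y ∈ Finset.univ.erase x, k y, fun x => by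
      rw [hK, Finset.add_sum_erase _ _ (Finset.mem_univ x)]⟩
  refine ⟨K, fun F hF => ?_⟩
  have h1 : (fun x => (ℓ : Qbar) ^ K * F x) =
      ∑ x, ((ℓ : Qbar) ^ k' x * F x) •
        ((ℓ : Qbar) ^ k x • (Pi.single x 1 : X → Qbar)) := by
    funext y
    rw [Finset.sum_apply, Finset.sum_eq_single y]
    · rw [Pi.smul_apply, Pi.smul_apply, Pi.single_eq_same, smul_eq_mul, smul_eq_mul,
        hk' y, pow_add]
      ring
    · intro x _ hx
      rw [Pi.smul_apply, Pi.smul_apply, Pi.single_eq_of_ne hx.symm, smul_zero, smul_zero]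
    · intro h; exact absurd (Finset.mem_univ _) h
  rw [h1]
  exact sum_mem fun x _ => smul_mem (A.mul_mem _ _ (pow_mem (natCast_mem A ℓ) _) (hF x)) (hk x)

variable (A ρ H) in
include hℓ hA in
theorem mem_Zloc {z : Qbar} : z ∈ Zloc ℓ ↔ (∀ σ : GQ, σ z = z) ∧ z ∈ A := by
  have hA' : (ℓ : Qbar) ∈ A.nonunits := hA
  rw [mem_Zloc_iff hℓ hA', ECRed.ordFnAt_ge]
  rfl

variable (A ρ H) in
/-- **the global order** -/
def Mglob (hℓ : ℓ.Prime) (hA : A.LiesOverPrime ℓ) : Subalgebra (Zloc ℓ) (X → Qbar) where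
  carrier := {f | f ∈ MA A ρ H ∧ ∀ (g : GQ) (x : X), f (ρ g x) = g (f x)}
  mul_mem' := by
    rintro f f' ⟨h1, h2⟩ ⟨h1', h2'⟩
    refine ⟨mul_mem h1 h1', fun g x => ?_⟩
    rw [Pi.mul_apply, Pi.mul_apply, h2, h2', map_mul]
  add_mem' := by
    rintro f f' ⟨h1, h2⟩ ⟨h1', h2'⟩
    refine ⟨add_mem h1 h1', fun g x => ?_⟩
    rw [Pi.add_apply, Pi.add_apply, h2, h2', map_add]
  algebraMap_mem' := by
    intro r
    obtain ⟨h1, h2⟩ := (mem_Zloc A hℓ hA).mp r.2
    exact ⟨const_mem h2, fun g x => (h1 g).symm⟩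

theorem mem_Mglob {f : X → Qbar} : f ∈ Mglob A ρ H hℓ hA ↔
    f ∈ MA A ρ H ∧ ∀ (g : GQ) (x : X), f (ρ g x) = g (f x) := Iff.rfl

/-- traces are equivariant -/
theorem trace_equiv {S : Subgroup GQ} [Fintype (GQ ⧸ S)] {F : X → Qbar}
    (hF : ∀ s ∈ S, actF ρ s F = F) (g : GQ) :
    actF ρ g (∑ q : GQ ⧸ S, actF ρ q.out F) = ∑ q : GQ ⧸ S, actF ρ q.out F := by
  rw [map_sum]
  refine Fintype.sum_equiv (MulAction.toPerm g) _ _ fun q => ?_
  rw [MulAction.toPerm_apply, ← actF_mul]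
  obtain ⟨s, hs⟩ := QuotientGroup.mk_out_eq_mul S (g * q.out)
  have h1 : ((g * q.out : GQ) : GQ ⧸ S) = g • q := by
    conv_rhs => rw [← QuotientGroup.out_eq' q]
    rfl
  rw [h1] at hs
  rw [hs, actF_mul ρ _ (s : GQ), hF _ s.2]

/-- an open normal subgroup fixing given elements -/
theorem exists_open_fix [Finite X] {U₀ : Subgroup GQ} [U₀.Normal] (hU₀ : IsOpen (U₀ : Set GQ))
    (f : X → Qbar) : ∃ U : Subgroup GQ, U.Normal ∧ IsOpen (U : Set GQ) ∧ U ≤ U₀ ∧
      ∀ u ∈ U, ∀ x, u (f x) = f x := by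
  have hfd : FiniteDimensional ℚ (IntermediateField.adjoin ℚ (Set.range f)) :=
    IntermediateField.finiteDimensional_adjoin fun x _ => Algebra.IsIntegral.isIntegral x
  obtain ⟨K, hKf, hK, hKs⟩ := exists_stable (IntermediateField.adjoin ℚ (Set.range f))
  have hopen : IsOpen (K.fixingSubgroup : Set GQ) := K.fixingSubgroup_isOpen
  have hnormal : K.fixingSubgroup.Normal := by
    refine ⟨fun n hn k => ?_⟩
    rw [IntermediateField.mem_fixingSubgroup_iff] at hn ⊢
    intro x hx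
    rw [AlgEquiv.mul_apply, AlgEquiv.mul_apply, hn _ (hKs _ x hx), ← AlgEquiv.mul_apply,
      mul_inv_cancel, AlgEquiv.one_apply]
  refine ⟨U₀ ⊓ K.fixingSubgroup, inferInstance, hU₀.inter hopen, inf_le_left, fun u hu x => ?_⟩
  exact (IntermediateField.mem_fixingSubgroup_iff K u).mp hu.2 _
    (hK (IntermediateField.subset_adjoin _ _ ⟨x, rfl⟩))

include h hℓ hA in
/-- **inertia-equivariant functions are combinations of global ones** -/
theorem mem_span_glob [Finite X] {U₀ : Subgroup GQ} [U₀.Normal] (hU₀ : IsOpen (U₀ : Set GQ))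
    (hρ : ∀ u ∈ U₀, ∀ x, ρ u x = x) {f : X → Qbar} (hf : f ∈ MA A ρ H)
    (hfI : ∀ σ ∈ A.inertiaSubgroupIn ℚ, ∀ x, f (ρ σ x) = σ (f x)) :
    f ∈ Submodule.span A.toSubring (Mglob A ρ H hℓ hA : Set (X → Qbar)) := by
  classical
  obtain ⟨U, hUn, hU, hUU₀, hUf⟩ := exists_open_fix hU₀ f
  haveI := finite_quot (A := A) hU
  haveI := Fintype.ofFinite (GQ ⧸ SU A U)
  haveI := Fintype.ofFinite X
  obtain ⟨k, hk⟩ := h.exists_conductor hℓ hA
  -- `f` is `S`-equivariant
  have hfS : ∀ s ∈ SU A U, actF ρ s f = f := by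
    intro s hs
    rw [actF_eq_iff]
    obtain ⟨σ, hσ, u, hu, rfl⟩ := mem_SU.mp hs
    intro x
    rw [rho_mul, hρ u (hUU₀ hu), AlgEquiv.mul_apply, hUf u hu, hfI σ hσ]
  obtain ⟨ι, _, b, c, hb, hc, hcs, hsum1, hsum0⟩ := exists_phi hℓ hA hU
  obtain ⟨m, hm⟩ := exists_denom_finite hℓ hA
    (fun q : (GQ ⧸ SU A U) × X => (q.1.out : GQ) (f q.2))
  obtain ⟨ε, hε, hεs, hε1, hεg⟩ := exists_eps hℓ hA hU (k + m)
  -- the functions
  set F : ι → X → Qbar := fun j x => ε * c j * f x with hF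
  have hFact : ∀ j (g : GQ) x, actF ρ g (F j) x = g ε * g (c j) * actF ρ g f x := by
    intro j g x
    rw [actF_apply, hF, map_mul, map_mul, actF_apply]
  have hFS : ∀ j, ∀ s ∈ SU A U, actF ρ s (F j) = F j := by
    intro j s hs
    funext x
    rw [hFact, hεs s hs, hcs j s hs, hfS s hs]
  have hFM : ∀ j, F j ∈ MA A ρ H := fun j => smul_mem
    (A.mul_mem _ _ (mem_of_isIntegral A hε) (mem_of_isIntegral A (hc j))) hf
  -- the traces
  set T : ι → X → Qbar := fun j => ∑ q : GQ ⧸ SU A U, actF ρ q.out (F j) with hT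
  have hTM : ∀ j, T j ∈ MA A ρ H := by
    intro j
    refine sum_mem fun q _ => ?_
    by_cases hq : ∃ u ∈ U, u * q.out ∈ A.decompositionSubgroup ℚ
    · obtain ⟨u, hu, hd⟩ := hq
      have h1 : (q.out : GQ) = (u * q.out) * ((u * q.out)⁻¹ * u⁻¹ * (u * q.out)) := by group
      have h2 : (u * q.out)⁻¹ * u⁻¹ * (u * q.out) ∈ SU A U := by
        refine (le_sup_right : U ≤ SU A U) ?_
        have := hUn.conj_mem u⁻¹ (U.inv_mem hu) (u * q.out)⁻¹
        rwa [inv_inv] at this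
      rw [h1, actF_mul, hFS j _ h2]
      exact act_mem hd (hFM j)
    · push Not at hq
      have h1 : ∀ x, actF ρ q.out (F j) x = (ℓ : Qbar) ^ k *
          (((ℓ : Qbar) ^ k)⁻¹ * actF ρ q.out (F j) x) := by
        intro x
        rw [mul_inv_cancel_left₀ (pow_ne_zero _ (by exact_mod_cast hℓ.ne_zero))]
      rw [show actF ρ q.out (F j) = fun x => (ℓ : Qbar) ^ k *
          (((ℓ : Qbar) ^ k)⁻¹ * actF ρ q.out (F j) x) from funext h1]
      refine hk _ fun x => ?_
      rw [hFact, ← A.valuation_le_one_iff]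
      have hℓ0 := ECRed.val_q_ne_zero (K := Qbar) A hℓ
      have hℓk : A.valuation (ℓ : Qbar) ^ k ≠ 0 := pow_ne_zero _ hℓ0
      have hc1 := val_le_of_isIntegral (A := A) hℓ hA ((hc j).map (q.out).toAlgHom.toIntAlgHom)
      have hm1 := (A.valuation_le_one_iff _).mpr (hm (q, ρ (q.out)⁻¹ x))
      have hε2 := hεg q.out hq
      rw [map_mul, map_pow] at hm1
      rw [map_mul, map_inv₀, map_pow, map_mul, map_mul]
      have h3 : A.valuation (q.out ε) * A.valuation (q.out (c j)) *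
          A.valuation (actF ρ q.out f x) ≤ A.valuation (ℓ : Qbar) ^ k := by
        calc A.valuation (q.out ε) * A.valuation (q.out (c j)) *
              A.valuation (actF ρ q.out f x)
            ≤ (A.valuation (ℓ : Qbar) ^ (k + m) * 1) * A.valuation (actF ρ q.out f x) :=
              mul_le_mul_left (mul_le_mul' hε2 hc1) _
          _ = A.valuation (ℓ : Qbar) ^ k * (A.valuation (ℓ : Qbar) ^ m *
              A.valuation (actF ρ q.out f x)) := by rw [mul_one, pow_add, mul_assoc]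
          _ ≤ A.valuation (ℓ : Qbar) ^ k * 1 := mul_le_mul_right hm1 _
          _ = _ := mul_one _
      calc (A.valuation (ℓ : Qbar) ^ k)⁻¹ * _ ≤ (A.valuation (ℓ : Qbar) ^ k)⁻¹ *
            A.valuation (ℓ : Qbar) ^ k := mul_le_mul_right h3 _
        _ = 1 := inv_mul_cancel₀ hℓk
  have hTg : ∀ j, T j ∈ Mglob A ρ H hℓ hA := fun j =>
    ⟨hTM j, fun g x => (actF_eq_iff ρ g (T j)).mp (trace_equiv (hFS j) g) x⟩
  -- the identity
  have hε0 : ε ≠ 0 := by
    intro h0
    rw [h0, map_zero] at hε1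
    exact zero_ne_one hε1
  have hεinv : ε⁻¹ ∈ A := by rw [← A.valuation_le_one_iff, map_inv₀, hε1, inv_one]
  have hid : f = ∑ j, (⟨ε⁻¹ * b j, A.mul_mem _ _ hεinv (hb j)⟩ : A.toSubring) • T j := by
    funext x
    rw [Finset.sum_apply]
    have h1 : ∀ j, ((⟨ε⁻¹ * b j, A.mul_mem _ _ hεinv (hb j)⟩ : A.toSubring) • T j) x =
        ∑ q : GQ ⧸ SU A U, ε⁻¹ * ((b j * q.out (c j)) * (q.out ε * actF ρ q.out f x)) := by
      intro j
      change ε⁻¹ * b j * (∑ q : GQ ⧸ SU A U, actF ρ q.out (F j)) x = _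
      rw [Finset.sum_apply, Finset.mul_sum]
      refine Finset.sum_congr rfl fun q _ => ?_
      rw [hFact]
      ring
    rw [Finset.sum_congr rfl fun j _ => h1 j, Finset.sum_comm]
    have h2 : ∀ q : GQ ⧸ SU A U, ∑ j, ε⁻¹ * ((b j * q.out (c j)) *
        (q.out ε * actF ρ q.out f x)) =
        ε⁻¹ * ((∑ j, b j * q.out (c j)) * (q.out ε * actF ρ q.out f x)) := by
      intro q
      rw [Finset.sum_mul, Finset.mul_sum]
    rw [Finset.sum_congr rfl fun q _ => h2 q, Finset.sum_eq_single ((1 : GQ) : GQ ⧸ SU A U)]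
    · have h3 : Quotient.out ((1 : GQ) : GQ ⧸ SU A U) ∈ SU A U := by
        obtain ⟨s, hs⟩ := QuotientGroup.mk_out_eq_mul (SU A U) 1
        rw [hs, one_mul]
        exact s.2
      rw [hεs _ h3, hfS _ h3]
      have h4 : ∑ j, b j * (Quotient.out ((1 : GQ) : GQ ⧸ SU A U)) (c j) = 1 := by
        rw [← hsum1]
        exact Finset.sum_congr rfl fun j _ => by rw [hcs j _ h3]
      rw [h4, one_mul, inv_mul_cancel_left₀ hε0]
    · intro q _ hq
      rw [hsum0 q.out, zero_mul, mul_zero]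
      intro hmem
      apply hq
      rw [← QuotientGroup.out_eq' q, QuotientGroup.eq]
      simpa using Subgroup.inv_mem _ hmem
    · intro h; exact absurd (Finset.mem_univ _) h
  rw [hid]
  exact Submodule.sum_mem _ fun j _ => Submodule.smul_mem _ _ (Submodule.subset_span (hTg j))

include h in
/-- the comultiplication on `MA` -/
theorem comul_MA {f : X → Qbar} (hf : f ∈ MA A ρ H) :
    (fun q : X × X => f (q.1 + q.2)) ∈ box (MA A ρ H) (MA A ρ H) := by
  have hfst : ∀ {d : GQ}, d ∈ A.decompositionSubgroup ℚ → ∀ {k : X × X → Qbar}, k ∈ sq H →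
      (fun q : X × X => d (k (ρ d⁻¹ q.1, ρ d⁻¹ q.2))) ∈ box (MA A ρ H) (MA A ρ H) := by
    intro d hd k hk
    unfold sq at hk
    induction hk using Subring.closure_induction with
    | mem k hk =>
      rcases hk with ⟨f, hf, rfl⟩ | ⟨f, hf, rfl⟩
      · exact (le_sup_left : (MA A ρ H).map (pull _ Prod.fst) ≤ box (MA A ρ H) (MA A ρ H))
          ⟨_, gen_mem hd hf, rfl⟩
      · exact (le_sup_right : (MA A ρ H).map (pull _ Prod.snd) ≤ box (MA A ρ H) (MA A ρ H))
          ⟨_, gen_mem hd hf, rfl⟩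
    | zero =>
      have : (fun q : X × X => d ((0 : X × X → Qbar) (ρ d⁻¹ q.1, ρ d⁻¹ q.2))) = 0 := by
        funext q; exact map_zero d
      rw [this]; exact zero_mem _
    | one =>
      have : (fun q : X × X => d ((1 : X × X → Qbar) (ρ d⁻¹ q.1, ρ d⁻¹ q.2))) = 1 := by
        funext q; exact map_one d
      rw [this]; exact one_mem _
    | add k k' _ _ ih ih' =>
      have : (fun q : X × X => d ((k + k') (ρ d⁻¹ q.1, ρ d⁻¹ q.2))) =
          (fun q : X × X => d (k (ρ d⁻¹ q.1, ρ d⁻¹ q.2))) +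
          fun q : X × X => d (k' (ρ d⁻¹ q.1, ρ d⁻¹ q.2)) := by
        funext q; exact map_add d _ _
      rw [this]; exact add_mem ih ih'
    | neg k _ ih =>
      have : (fun q : X × X => d ((-k) (ρ d⁻¹ q.1, ρ d⁻¹ q.2))) =
          -(fun q : X × X => d (k (ρ d⁻¹ q.1, ρ d⁻¹ q.2))) := by
        funext q; exact map_neg d _
      rw [this]; exact neg_mem ih
    | mul k k' _ _ ih ih' =>
      have : (fun q : X × X => d ((k * k') (ρ d⁻¹ q.1, ρ d⁻¹ q.2))) =
          (fun q : X × X => d (k (ρ d⁻¹ q.1, ρ d⁻¹ q.2))) *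
          fun q : X × X => d (k' (ρ d⁻¹ q.1, ρ d⁻¹ q.2)) := by
        funext q; exact map_mul d _ _
      rw [this]; exact mul_mem ih ih'
  unfold MA at hf
  induction hf using Algebra.adjoin_induction with
  | mem f hf =>
    obtain ⟨d, hd, f, hf, rfl⟩ := hf
    have h1 := hfst hd (h.comul f hf)
    have h2 : (fun q : X × X => actF ρ d f (q.1 + q.2)) =
        fun q : X × X => d (f (ρ d⁻¹ q.1 + ρ d⁻¹ q.2)) := by
      funext q
      rw [actF_apply, map_add]
    rw [h2]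
    exact h1
  | algebraMap a => exact (box (MA A ρ H) (MA A ρ H)).algebraMap_mem a
  | add f f' _ _ ih ih' => exact add_mem ih ih'
  | mul f f' _ _ ih ih' => exact mul_mem ih ih'

include h hℓ hA in
theorem MA_le_span [Finite X] {U₀ : Subgroup GQ} [U₀.Normal] (hU₀ : IsOpen (U₀ : Set GQ))
    (hρ : ∀ u ∈ U₀, ∀ x, ρ u x = x) {f : X → Qbar} (hf : f ∈ MA A ρ H) :
    f ∈ Submodule.span A.toSubring (Mglob A ρ H hℓ hA : Set (X → Qbar)) := by
  have h1 := h.mem_span_equiv hf
  refine Submodule.span_le.mpr ?_ h1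
  rintro f ⟨hf, hfI⟩
  exact h.mem_span_glob hℓ hA hU₀ hρ hf hfI

include h hℓ hA in
theorem span_glob_top [Finite X] {U₀ : Subgroup GQ} [U₀.Normal] (hU₀ : IsOpen (U₀ : Set GQ))
    (hρ : ∀ u ∈ U₀, ∀ x, ρ u x = x) :
    Submodule.span Qbar (Mglob A ρ H hℓ hA : Set (X → Qbar)) = ⊤ := by
  classical
  haveI := Fintype.ofFinite X
  obtain ⟨k, hk⟩ := h.exists_conductor hℓ hA
  rw [eq_top_iff, ← (Pi.basisFun Qbar X).span_eq, Submodule.span_le]
  rintro _ ⟨x, rfl⟩
  rw [Pi.basisFun_apply]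
  have hℓ0 : (ℓ : Qbar) ^ k ≠ 0 := pow_ne_zero _ (by exact_mod_cast hℓ.ne_zero)
  have h1 := h.MA_le_span hℓ hA hU₀ hρ (hk (Pi.single x 1) (fun y => by
    by_cases hy : y = x
    · subst hy; rw [Pi.single_eq_same]; exact A.one_mem
    · rw [Pi.single_eq_of_ne hy]; exact A.zero_mem))
  have h2 : (fun y => (ℓ : Qbar) ^ k * (Pi.single x 1 : X → Qbar) y) ∈
      Submodule.span Qbar (Mglob A ρ H hℓ hA : Set (X → Qbar)) := by
    refine Submodule.span_induction (p := fun f _ => f ∈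
      Submodule.span Qbar (Mglob A ρ H hℓ hA : Set (X → Qbar))) (fun f hf =>
        Submodule.subset_span hf) (Submodule.zero_mem _) (fun f g _ _ hf hg =>
        Submodule.add_mem _ hf hg) (fun a f _ hf => ?_) h1
    exact Submodule.smul_mem _ (a : Qbar) hf
  have h3 : (Pi.single x 1 : X → Qbar) = ((ℓ : Qbar) ^ k)⁻¹ •
      fun y => (ℓ : Qbar) ^ k * (Pi.single x 1 : X → Qbar) y := by
    funext y
    rw [Pi.smul_apply, smul_eq_mul, inv_mul_cancel_left₀ hℓ0]
  rw [h3]
  exact Submodule.smul_mem _ _ h2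

include h hℓ hA in
/-- **descent** -/
theorem isOrder [Finite X] {U₀ : Subgroup GQ} [U₀.Normal] (hU₀ : IsOpen (U₀ : Set GQ))
    (hρ : ∀ u ∈ U₀, ∀ x, ρ u x = x) : IsOrder (Zloc ℓ) ρ (Mglob A ρ H hℓ hA) := by
  classical
  haveI := Fintype.ofFinite X
  have hbase := isBase_Zloc hℓ
  have htop := h.span_glob_top hℓ hA hU₀ hρ
  have heq : ∀ f ∈ Mglob A ρ H hℓ hA, ∀ (σ : GQ) (x : X), f (ρ σ x) = σ • f x :=
    fun f hf σ x => hf.2 σ x
  have hfg : (Subalgebra.toSubmodule (Mglob A ρ H hℓ hA)).FG := by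
    obtain ⟨b, hbM, hbs, hbl⟩ := exists_linearIndependent Qbar
      (Mglob A ρ H hℓ hA : Set (X → Qbar))
    rw [htop] at hbs
    let B : Module.Basis b Qbar (X → Qbar) := Module.Basis.mk hbl (by
      rw [Subtype.range_coe_subtype, Set.ofPred_mem_eq, hbs])
    haveI : Finite b := Module.Finite.finite_basis B
    haveI := Fintype.ofFinite b
    have hB : ∀ i, B i = (i : X → Qbar) := fun i => by rw [Module.Basis.mk_apply]
    -- coordinates are fixed
    have hfix : ∀ f ∈ Mglob A ρ H hℓ hA, ∀ i (g : GQ), g (B.repr f i) = B.repr f i := by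
      intro f hf i g
      have h1 : ∑ i, (B.repr f i - g (B.repr f i)) • B i = 0 := by
        funext y
        rw [Finset.sum_apply]
        have h2 := hf.2 g (ρ g⁻¹ y)
        rw [rho_cancel] at h2
        have h3 : ∀ z, f z = ∑ i, B.repr f i * B i z := by
          intro z
          conv_lhs => rw [← B.sum_repr f]
          rw [Finset.sum_apply]
          rfl
        rw [h3, h3, map_sum] at h2
        have h4 : ∀ i, g (B.repr f i * B i (ρ g⁻¹ y)) = g (B.repr f i) * B i y := by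
          intro i
          rw [map_mul, ← ((hB i).symm ▸ (hbM i.2).2 : ∀ (g : GQ) x, B i (ρ g x) = g (B i x)),
            rho_cancel]
        simp only [h4] at h2
        simp only [Pi.smul_apply, smul_eq_mul, sub_mul, Finset.sum_sub_distrib, h2, sub_self,
          Pi.zero_apply]
      have h2 := (Fintype.linearIndependent_iff.mp B.linearIndependent) _ h1 i
      exact (sub_eq_zero.mp h2).symm
    -- coordinates are bounded
    obtain ⟨k, hk⟩ := exists_denom_finite hℓ hA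
      (fun q : X × b => B.repr (Pi.single q.1 1 : X → Qbar) q.2)
    have hbd : ∀ f ∈ Mglob A ρ H hℓ hA, ∀ i, (ℓ : Qbar) ^ k * B.repr f i ∈ A := by
      intro f hf i
      have h1 : f = ∑ x, f x • (Pi.single x 1 : X → Qbar) := by
        funext y
        rw [Finset.sum_apply, Finset.sum_eq_single y]
        · rw [Pi.smul_apply, Pi.single_eq_same, smul_eq_mul, mul_one]
        · intro x _ hx
          rw [Pi.smul_apply, Pi.single_eq_of_ne hx.symm, smul_zero]
        · intro h; exact absurd (Finset.mem_univ _) h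
      have h2 : B.repr f i = ∑ x, f x * B.repr (Pi.single x 1 : X → Qbar) i := by
        conv_lhs => rw [h1]
        rw [map_sum, Finsupp.finsetSum_apply]
        refine Finset.sum_congr rfl fun x _ => ?_
        rw [map_smul, Finsupp.smul_apply, smul_eq_mul]
      rw [h2, Finset.mul_sum]
      refine sum_mem fun x _ => ?_
      rw [mul_left_comm]
      exact A.mul_mem _ _ (h.val_mem hf.1 x) (hk (x, i))
    have hZ : ∀ f ∈ Mglob A ρ H hℓ hA, ∀ i, (ℓ : Qbar) ^ k * B.repr f i ∈ Zloc ℓ := by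
      intro f hf i
      rw [mem_Zloc A hℓ hA]
      refine ⟨fun σ => ?_, hbd f hf i⟩
      rw [map_mul, map_pow, map_natCast, hfix f hf i]
    let Φ : (Subalgebra.toSubmodule (Mglob A ρ H hℓ hA)) →ₗ[Zloc ℓ] (b → Zloc ℓ) :=
      { toFun := fun f i => ⟨_, hZ f.1 f.2 i⟩
        map_add' := fun f g => by
          funext i
          apply Subtype.ext
          change (ℓ : Qbar) ^ k * B.repr (f.1 + g.1) i = (ℓ : Qbar) ^ k * B.repr f.1 i +
            (ℓ : Qbar) ^ k * B.repr g.1 i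
          rw [map_add, Finsupp.add_apply, mul_add]
        map_smul' := fun r f => by
          funext i
          apply Subtype.ext
          change (ℓ : Qbar) ^ k * B.repr ((r : Qbar) • f.1) i =
            (r : Qbar) * ((ℓ : Qbar) ^ k * B.repr f.1 i)
          rw [map_smul, Finsupp.smul_apply, smul_eq_mul, mul_left_comm] }
    have hΦ : Function.Injective Φ := by
      intro f g hfg
      apply Subtype.ext
      apply B.repr.injective
      ext i
      have h1 : (ℓ : Qbar) ^ k * B.repr f.1 i = (ℓ : Qbar) ^ k * B.repr g.1 i :=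
        congrArg Subtype.val (congrFun hfg i)
      exact mul_left_cancel₀ (pow_ne_zero _ (by exact_mod_cast hℓ.ne_zero)) h1
    have := hbase.pid
    exact Module.Finite.iff_fg.mp (Module.Finite.of_injective Φ hΦ)
  refine ⟨hfg, heq, htop, fun f hf => ?_⟩
  -- comultiplication
  obtain ⟨n, b, hb, hbl, hbs⟩ := FlatLoc.exists_basis hbase hfg heq
  have hspan : ∀ f ∈ MA A ρ H, ∃ a : Fin n → A.toSubring, ∀ x, f x = ∑ i, (a i : Qbar) * b i x := by
    intro f hf
    have h1 := h.MA_le_span hℓ hA hU₀ hρ hf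
    refine Submodule.span_induction (p := fun f _ => ∃ a : Fin n → A.toSubring, ∀ x, f x =
      ∑ i, (a i : Qbar) * b i x) (fun f hf => ?_) ⟨0, fun x => by simp⟩ ?_ ?_ h1
    · obtain ⟨r, hr⟩ := hbs f hf
      exact ⟨fun i => ⟨r i, ((mem_Zloc A hℓ hA).mp (r i).2).2⟩, hr⟩
    · rintro f g _ _ ⟨a, ha⟩ ⟨a', ha'⟩
      refine ⟨a + a', fun x => ?_⟩
      rw [Pi.add_apply, ha, ha', ← Finset.sum_add_distrib]
      exact Finset.sum_congr rfl fun i _ => by rw [Pi.add_apply, Subring.coe_add, add_mul]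
    · rintro c f _ ⟨a, ha⟩
      refine ⟨c • a, fun x => ?_⟩
      change (c : Qbar) * f x = _
      rw [ha, Finset.mul_sum]
      refine Finset.sum_congr rfl fun i _ => ?_
      change _ = ((c : Qbar) * (a i : Qbar)) * b i x
      ring
  obtain ⟨m, g, k, hg, hk, e⟩ := mem_box.mp (h.comul_MA hf.1)
  choose α hα using fun i => hspan (g i) (hg i)
  choose β hβ using fun i => hspan (k i) (hk i)
  set γ : Fin n → Fin n → Qbar := fun i j => ∑ l, (α l i : Qbar) * (β l j : Qbar) with hγ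
  have e2 : ∀ x y, f (x + y) = ∑ i, ∑ j, γ i j * (b i x * b j y) := by
    intro x y
    have := e x y
    simp only at this
    rw [this]
    have h1 : ∀ l, g l x * k l y = ∑ i, ∑ j, (α l i : Qbar) * b i x * ((β l j : Qbar) * b j y) := by
      intro l
      rw [hα, hβ, Finset.sum_mul_sum]
    rw [Finset.sum_congr rfl fun l _ => h1 l, Finset.sum_comm]
    refine Finset.sum_congr rfl fun i _ => ?_
    rw [Finset.sum_comm]
    refine Finset.sum_congr rfl fun j _ => ?_
    rw [hγ, Finset.sum_mul]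
    exact Finset.sum_congr rfl fun l _ => by ring
  have hγA : ∀ i j, γ i j ∈ A := fun i j =>
    sum_mem fun l _ => A.mul_mem _ _ (α l i).2 (β l j).2
  have hγfix : ∀ i j (σ : GQ), σ (γ i j) = γ i j := by
    intro i j σ
    have h1 : ∀ x y, ∑ i, (∑ j, (σ (γ i j) - γ i j) * b j y) * b i x = 0 := by
      intro x y
      have h2 := hf.2 σ (ρ σ⁻¹ x + ρ σ⁻¹ y)
      rw [map_add, rho_cancel, rho_cancel, e2, e2, map_sum] at h2
      have h3 : ∀ i, σ (∑ j, γ i j * (b i (ρ σ⁻¹ x) * b j (ρ σ⁻¹ y))) =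
          ∑ j, σ (γ i j) * (b i x * b j y) := by
        intro i
        rw [map_sum]
        refine Finset.sum_congr rfl fun j _ => ?_
        rw [map_mul, map_mul, ← (hb i).2, ← (hb j).2, rho_cancel, rho_cancel]
      simp only [h3] at h2
      have h4 : ∑ i, (∑ j, (σ (γ i j) - γ i j) * b j y) * b i x =
          ∑ i, ∑ j, σ (γ i j) * (b i x * b j y) - ∑ i, ∑ j, γ i j * (b i x * b j y) := by
        rw [← Finset.sum_sub_distrib]
        refine Finset.sum_congr rfl fun i _ => ?_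
        rw [Finset.sum_mul, ← Finset.sum_sub_distrib]
        exact Finset.sum_congr rfl fun j _ => by ring
      rw [h4, h2, sub_self]
    have h2 : ∀ y, ∑ j, (σ (γ i j) - γ i j) * b j y = 0 := by
      intro y
      refine (Fintype.linearIndependent_iff.mp hbl) (fun i => ∑ j, (σ (γ i j) - γ i j) * b j y) ?_ i
      funext x
      rw [Finset.sum_apply]
      exact h1 x y
    have h3 := (Fintype.linearIndependent_iff.mp hbl) (fun j => σ (γ i j) - γ i j) (by
      funext y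
      rw [Finset.sum_apply]
      exact h2 y) j
    exact sub_eq_zero.mp h3
  have hγZ : ∀ i j, γ i j ∈ Zloc ℓ := fun i j =>
    (mem_Zloc A hℓ hA).mpr ⟨hγfix i j, hγA i j⟩
  refine mem_box.mpr ⟨n, b, fun i => ∑ j, (⟨γ i j, hγZ i j⟩ : Zloc ℓ) • b j, hb,
    fun i => Subalgebra.sum_mem _ fun j _ => Subalgebra.smul_mem _ (hb j) _, fun x y => ?_⟩
  change f (x + y) = _
  rw [e2]
  refine Finset.sum_congr rfl fun i _ => ?_
  change _ = b i x * (∑ j, (⟨γ i j, hγZ i j⟩ : Zloc ℓ) • b j) y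
  rw [Finset.sum_apply, Finset.mul_sum]
  refine Finset.sum_congr rfl fun j _ => ?_
  change _ = b i x * (γ i j * b j y)
  ring

include h hℓ hA in
theorem isFlatMod [Finite X] {U₀ : Subgroup GQ} [U₀.Normal] (hU₀ : IsOpen (U₀ : Set GQ))
    (hρ : ∀ u ∈ U₀, ∀ x, ρ u x = x) : IsFlatMod (Zloc ℓ) ρ :=
  ⟨_, h.isOrder hℓ hA hU₀ hρ⟩

end LocData

end Fermat.Agent.PicFlat
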