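import Fermat.Agent.PicFlat.RRDim
import Fermat.Agent.GoodRed.KL
import Fermat.Agent.GoodRed.PlaceRed

/-!
# Lifting of sections of large multiples of the polar divisor
-/

set_option autoImplicit false
set_option linter.unusedSectionVars false

noncomputable section

namespace Fermat.Agent.PicFlat

open Polynomial AlgebraicCurve Fermat.Agent.Curves Module IntermediateField WithZero
open Fermat.Agent.GoodRed

variable {K κ : Type*} [Field K] [Field κ] [IsAlgClosed K] [IsAlgClosed κ] {A : ValuationSubring K}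
  {π : A →+* κ} [IsLocalHom π]
  {F Fb : Type*} [Field F] [Field Fb] [Algebra K F] [Algebra κ Fb]
  [IsFunctionField K F] [IsFunctionField κ Fb]
  {G : GaussRed A π F Fb} {t : F} {tb : Fb}

/-- sections of `m · (t)_∞` in terms of the two affine rings -/
theorem mem_poleMultiple {k E : Type*} [Field k] [Field E] [Algebra k E] [IsFunctionField k E]
    [IsAlgClosed k] {t : E} (ht0 : t ≠ 0) (m : ℕ) (f : E) :
    f ∈ riemannRochSpace (m • poleDivisor (k := k) t) ↔
      f ∈ affineRing k t ∧ (t ^ m)⁻¹ * f ∈ affineRing k t⁻¹ := by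
  rcases eq_or_ne f 0 with rfl | hf
  · simp only [Submodule.zero_mem, mul_zero, Subalgebra.zero_mem, and_self]
  rw [mem_iff_of_ne hf]
  have hi0 : (t ^ m)⁻¹ * f ≠ 0 := mul_ne_zero (inv_ne_zero (pow_ne_zero _ ht0)) hf
  constructor
  · intro h
    constructor
    · intro w hw
      have h1 := h w
      have h2 := (mem_iff_ord w ht0).1 hw
      rw [mem_iff_ord w hf]
      rw [Finsupp.smul_apply, poleDivisor_apply, max_eq_left (by omega), smul_zero, add_zero] at h1
      exact h1
    · intro w hw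
      have h1 := h w
      have h2 := (mem_iff_ord w (inv_ne_zero ht0)).1 hw
      rw [w.ord_inv] at h2
      rw [mem_iff_ord w hi0, w.ord_mul (inv_ne_zero (pow_ne_zero _ ht0)) hf, w.ord_inv, ord_pow]
      rw [Finsupp.smul_apply, poleDivisor_apply, max_eq_right (by omega), nsmul_eq_mul] at h1
      linarith
  · rintro ⟨h1, h2⟩ w
    rw [Finsupp.smul_apply, poleDivisor_apply]
    by_cases hw : t ∈ w.toValuationSubring
    · have h3 := (mem_iff_ord w hf).1 (h1 w hw)
      have h4 : (0 : ℤ) ≤ m • max 0 (-w.ord t) := nsmul_nonneg (le_max_left _ _) m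
      omega
    · have h5 : w.ord t < 0 := by
        by_contra hcon
        exact hw ((mem_iff_ord w ht0).2 (not_lt.1 hcon))
      have h3 := h2 w ((mem_iff_ord w (inv_ne_zero ht0)).2 (by rw [w.ord_inv]; omega))
      rw [mem_iff_ord w hi0, w.ord_mul (inv_ne_zero (pow_ne_zero _ ht0)) hf, w.ord_inv, ord_pow]
        at h3
      rw [max_eq_right (by omega), nsmul_eq_mul]
      linarith

theorem inL_zero_iff {t x : F} : InL (K := K) t 0 x ↔ x ∈ affineRing K t := by
  rcases eq_or_ne x 0 with rfl | hx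
  · exact ⟨fun _ => Subalgebra.zero_mem _, fun _ => InL.zero t 0⟩
  · refine forall_congr' fun w => forall_congr' fun hw => ?_
    rw [mem_iff_ord w hx, Finsupp.zero_apply, add_zero]
    exact ⟨fun h => h.resolve_left hx, Or.inr⟩

theorem lift_large (h1 : GoodChart G t tb) (h2 : GoodChart G t⁻¹ tb⁻¹) (hr : RankOne π) :
    ∃ m₀ : ℕ, ∀ m : ℕ, m₀ ≤ m → ∀ fb ∈ riemannRochSpace (m • poleDivisor (k := κ) tb),
      ∃ f ∈ riemannRochSpace (m • poleDivisor (k := K) t), G.R f fb := by
  classical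
  have htb0 : tb ≠ 0 := h1.toChart.ne_zero
  have ht0 : t ≠ 0 := h1.R.ne_zero htb0
  have hTO : t ∈ G.O := h1.R.mem
  have hTO' : t⁻¹ ∈ G.O := h2.R.mem
  obtain ⟨s, hs, hsgen⟩ := h1.toChart.exists_gen h1.hπ hr ht0 (0 : Divisor K F)
  obtain ⟨s', hs', hsgen'⟩ := h2.toChart.exists_gen h1.hπ hr (inv_ne_zero ht0) (0 : Divisor K F)
  rw [genNeg_eq ht0 s'] at hsgen'
  have hex : ∀ x ∈ s, ∃ k : ℕ, (t⁻¹) ^ k * x ∈ genNeg A (mulE K t ht0) s' := by
    intro x hx
    obtain ⟨N, hN⟩ := exists_pow_inL (inv_ne_zero ht0) (0 : Divisor K F) x (fun w _ hw => by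
      rw [inv_inv] at hw
      exact (hs x hx).1 w hw)
    exact ⟨N, hsgen' _ hN (mul_mem (pow_mem hTO' N) (hs x hx).2)⟩
  choose! k hk using hex
  have hneg : ∀ (j : ℕ) {x : F}, x ∈ genNeg A (mulE K t ht0) s' →
      (t⁻¹) ^ j * x ∈ genNeg A (mulE K t ht0) s' := by
    intro j x hx
    have := zpow_mem_genNeg (mulE K t ht0) hx j
    rwa [mulE_zpow_apply, zpow_neg, zpow_natCast, ← inv_pow] at this
  refine ⟨s.sup k, fun m hm fb hfb => ?_⟩
  have hk' : ∀ x ∈ s, (t⁻¹) ^ m * x ∈ genNeg A (mulE K t ht0) s' := by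
    intro x hx
    obtain ⟨j, hj⟩ := Nat.exists_eq_add_of_le ((Finset.le_sup (f := k) hx).trans hm)
    have := hneg j (hk x hx)
    rwa [← mul_assoc, ← pow_add, add_comm, ← hj] at this
  -- every element of `genAll s` is a sum
  have hall : ∀ x ∈ genAll A (mulE K t ht0) s, ∃ z ∈ genPos A (mulE K t ht0) s,
      ∃ z' ∈ genNeg A (mulE K t ht0) s', x = z + t ^ m * z' := by
    intro x hx
    unfold genAll at hx
    induction hx using Submodule.span_induction with
    | mem x hx =>
      obtain ⟨j, y, hy, rfl⟩ := hx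
      rcases le_or_gt 0 j with hj | hj
      · obtain ⟨n, rfl⟩ := Int.eq_ofNat_of_zero_le hj
        exact ⟨_, Submodule.subset_span ⟨n, y, hy, rfl⟩, 0, Submodule.zero_mem _, by simp⟩
      · obtain ⟨n, hn⟩ := Int.eq_ofNat_of_zero_le (neg_nonneg.2 hj.le)
        refine ⟨0, Submodule.zero_mem _, _, hneg n (hk' y hy), ?_⟩
        rw [mulE_zpow_apply, zero_add]
        have hj' : j = -(n : ℤ) := by omega
        rw [hj', zpow_neg, zpow_natCast]
        have htm : t ^ m ≠ 0 := pow_ne_zero _ ht0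
        rw [inv_pow, inv_pow]
        field_simp
    | zero => exact ⟨0, Submodule.zero_mem _, 0, Submodule.zero_mem _, by simp⟩
    | add x y _ _ hx hy =>
      obtain ⟨z, hz, z', hz', rfl⟩ := hx
      obtain ⟨w, hw, w', hw', rfl⟩ := hy
      exact ⟨z + w, Submodule.add_mem _ hz hw, z' + w', Submodule.add_mem _ hz' hw', by ring⟩
    | smul r x _ hx =>
      obtain ⟨z, hz, z', hz', rfl⟩ := hx
      exact ⟨r • z, Submodule.smul_mem _ _ hz, r • z', Submodule.smul_mem _ _ hz', by
        rw [smul_add, mul_smul_comm]⟩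
  -- membership of generated modules
  have hpos : ∀ z ∈ genPos A (mulE K t ht0) s, z ∈ affineRing K t ∧ z ∈ G.O := by
    intro z hz
    refine ⟨inL_zero_iff.1 (inL_of_mem_span ht0 (fun y hy => (hs y hy).1)
      (Submodule.subset_span hz)), ?_⟩
    unfold genPos at hz
    induction hz using Submodule.span_induction with
    | mem x hx =>
      obtain ⟨j, y, hy, rfl⟩ := hx
      rw [mulE_zpow_apply, zpow_natCast]
      exact mul_mem (pow_mem hTO j) (hs y hy).2
    | zero => exact zero_mem _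
    | add x y _ _ hx hy => exact add_mem hx hy
    | smul r x _ hx => rw [Algebra.smul_def]; exact mul_mem (G.mem r) hx
  have hnegm : ∀ z ∈ genNeg A (mulE K t ht0) s', z ∈ affineRing K t⁻¹ ∧ z ∈ G.O := by
    intro z hz
    rw [← genNeg_eq ht0 s'] at hz
    refine ⟨inL_zero_iff.1 (inL_of_mem_span (inv_ne_zero ht0) (fun y hy => (hs' y hy).1)
      (Submodule.subset_span hz)), ?_⟩
    unfold genPos at hz
    induction hz using Submodule.span_induction with
    | mem x hx =>
      obtain ⟨j, y, hy, rfl⟩ := hx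
      rw [mulE_zpow_apply, zpow_natCast]
      exact mul_mem (pow_mem hTO' j) (hs' y hy).2
    | zero => exact zero_mem _
    | add x y _ _ hx hy => exact add_mem hx hy
    | smul r x _ hx => rw [Algebra.smul_def]; exact mul_mem (G.mem r) hx
  -- lifts in both charts
  obtain ⟨hfb1, hfb2⟩ := (mem_poleMultiple htb0 m fb).1 hfb
  obtain ⟨y, hy, hyR⟩ := h1.lift _ hfb1
  obtain ⟨y', hy', hyR'⟩ := h2.lift _ hfb2
  have htm : t ^ m ≠ 0 := pow_ne_zero _ ht0
  have htbm : tb ^ m ≠ 0 := pow_ne_zero _ htb0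
  have hyR'' : G.R (t ^ m * y') fb := by
    have := (h1.R.pow m).mul hyR'
    rwa [mul_inv_cancel_left₀ htbm] at this
  have hdiff : G.R (y - t ^ m * y') 0 := by
    have := hyR.sub hyR''
    rwa [sub_self] at this
  by_cases h0 : y - t ^ m * y' = 0
  · refine ⟨y, (mem_poleMultiple ht0 m y).2 ⟨hy, ?_⟩, hyR⟩
    rw [sub_eq_zero.1 h0, inv_mul_cancel_left₀ htm]
    exact hy'
  obtain ⟨a, x, z, ha, ha0, hz, hx, hax⟩ := GaussRed.exists_of_R_zero h0 hdiff
  have haK : (a : K) ≠ 0 := fun h => ha0 (Subtype.ext h)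
  have hx' : x = algebraMap K F (a : K)⁻¹ * (y - t ^ m * y') := by
    rw [hax, ← mul_assoc, ← map_mul, inv_mul_cancel₀ haK, map_one, one_mul]
  obtain ⟨N, hN⟩ := exists_pow_inL ht0 (0 : Divisor K F) x (fun w hw hw' => by
    rcases eq_or_ne x 0 with h | h
    · exact Or.inl h
    · right
      rw [Finsupp.zero_apply, add_zero, ← mem_iff_ord w h, hx']
      refine mul_mem (w.algebraMap_mem' _) (sub_mem (hy w hw) (mul_mem (pow_mem hw m) (hy' w hw'))))
  have hxall : x ∈ genAll A (mulE K t ht0) s := by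
    have h3 := zpow_mem_genAll ht0 (hsgen _ hN (mul_mem (pow_mem hTO N) hx.mem)) (-(N : ℤ))
    rwa [zpow_neg, zpow_natCast, ← mul_assoc, inv_mul_cancel₀ (pow_ne_zero _ ht0), one_mul] at h3
  obtain ⟨w, hw, w', hw', hxw⟩ := hall x hxall
  obtain ⟨hwa, hwO⟩ := hpos w hw
  obtain ⟨hwa', hwO'⟩ := hnegm w' hw'
  have heq : y - algebraMap K F a * w = t ^ m * (y' + algebraMap K F a * w') := by
    have : y - t ^ m * y' = algebraMap K F a * (w + t ^ m * w') := by rw [hax, hxw]
    linear_combination this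
  refine ⟨y - algebraMap K F a * w, (mem_poleMultiple ht0 m _).2 ⟨?_, ?_⟩, ?_⟩
  · exact (affineRing K t).sub_mem hy ((affineRing K t).mul_mem (algebraMap_mem_affineRing t _) hwa)
  · rw [heq, inv_mul_cancel_left₀ htm]
    exact (affineRing K t⁻¹).add_mem hy'
      ((affineRing K t⁻¹).mul_mem (algebraMap_mem_affineRing t⁻¹ _) hwa')
  · obtain ⟨wb, hwb⟩ := GaussRed.exists_R_of_mem hwO
    have h3 := hyR.sub ((GaussRed.R.const G a).mul hwb)
    rwa [ha, map_zero, zero_mul, sub_zero] at h3

/-- residually independent elements are independent -/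
theorem linearIndependent_of_R {ι : Type*} [Fintype ι] {f : ι → F} {fb : ι → Fb}
    (hR : ∀ i, G.R (f i) (fb i)) (hind : LinearIndependent κ fb) : LinearIndependent K f := by
  classical
  rw [Fintype.linearIndependent_iff]
  intro c hc
  by_contra hcon
  push Not at hcon
  obtain ⟨i₀, hi₀⟩ := hcon
  obtain ⟨j, hj, hmax⟩ := Finset.exists_max_image Finset.univ (fun i => A.valuation (c i))
    ⟨i₀, Finset.mem_univ _⟩
  have hcj : c j ≠ 0 := by
    intro h0
    have := hmax i₀ (Finset.mem_univ _)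
    rw [h0, map_zero, le_zero_iff, map_eq_zero] at this
    exact hi₀ this
  have hmem : ∀ i, c i / c j ∈ A := by
    intro i
    rw [← A.valuation_le_one_iff, map_div₀]
    exact div_le_one_of_le₀ (hmax i (Finset.mem_univ _)) zero_le
  have h1 : ∑ i, algebraMap K F (c i / c j) * f i = 0 := by
    have h2 : ∀ i, algebraMap K F (c i / c j) * f i = (c j)⁻¹ • (c i • f i) := by
      intro i
      rw [smul_smul, Algebra.smul_def, div_eq_inv_mul]
    rw [Finset.sum_congr rfl fun i _ => h2 i, ← Finset.smul_sum, hc, smul_zero]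
  have h2 : G.R (∑ i, algebraMap K F (c i / c j) * f i)
      (∑ i, algebraMap κ Fb (π ⟨c i / c j, hmem i⟩) * fb i) :=
    GaussRed.R.sum _ fun i _ => (GaussRed.R.const G ⟨c i / c j, hmem i⟩).mul (hR i)
  rw [h1] at h2
  have h3 := h2.unique (GaussRed.R.zero G)
  have h4 := Fintype.linearIndependent_iff.1 hind (fun i => π ⟨c i / c j, hmem i⟩) (by
    rw [← h3]
    exact Finset.sum_congr rfl fun i _ => Algebra.smul_def _ _) j
  have h5 : (⟨c j / c j, hmem j⟩ : A) = 1 := Subtype.ext (div_self hcj)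
  rw [h5, map_one] at h4
  exact one_ne_zero h4

theorem finrank_le_of_lift {W : Submodule K F} {Wb : Submodule κ Fb} [FiniteDimensional K W]
    [FiniteDimensional κ Wb] (h : ∀ fb ∈ Wb, ∃ f ∈ W, G.R f fb) : finrank κ Wb ≤ finrank K W := by
  classical
  let b := Module.finBasis κ Wb
  choose f hf hR using fun i => h (b i) (b i).2
  have h1 : LinearIndependent κ fun i => ((b i : Wb) : Fb) :=
    b.linearIndependent.map' Wb.subtype (Submodule.ker_subtype _)
  have h2 := linearIndependent_of_R hR h1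
  have h3 : LinearIndependent K fun i => (⟨f i, hf i⟩ : W) := LinearIndependent.of_comp W.subtype h2
  have h4 := h3.fintype_card_le_finrank
  rwa [Fintype.card_fin] at h4

end Fermat.Agent.PicFlat
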