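import Fermat.Agent.PicFlat.Colon

/-!
# Good families of divisors
-/

set_option autoImplicit false
set_option linter.unusedSectionVars false
set_option linter.unusedDecidableInType false
set_option linter.style.haveILetI false
set_option linter.unusedSimpArgs false

noncomputable section

namespace Fermat.Agent.PicFlat

open Polynomial AlgebraicCurve Fermat.Agent.Curves Module IntermediateField WithZero
open Fermat.Agent.GoodRed

variable {K κ : Type*} [Field K] [Field κ] [IsAlgClosed K] [IsAlgClosed κ] {A : ValuationSubring K}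
  {π : A →+* κ} [IsLocalHom π]
  {F Fb : Type*} [Field F] [Field Fb] [Algebra K F] [Algebra κ Fb]
  [IsFunctionField K F] [IsFunctionField κ Fb]
  {G : GaussRed A π F Fb}

namespace RedCurve

variable {S : Type*}

/-- the standing assumptions -/
structure Setup (C : RedCurve G) (g c : ℤ) (T : Set (Place K F)) (B : Set (Place κ Fb))
    (R : Subring (S → K)) (𝒞 : AddSubgroup (Divisor K F)) : Prop where
  hK : RR K F g c
  hκ : RR κ Fb g c
  hT : ∀ S : Set (Place κ Fb), S.Finite → ∃ P ∈ T, C.rd P ∉ S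
  hB : B.Finite
  hR : ResRing π R
  hS : Nonempty S
  adm : ∀ m ∈ 𝒞, C.Adm B m
  rat : ∀ m ∈ 𝒞, c ≤ Divisor.degree m →
    C.IsRat T B R (fun _ : S => riemannRochSpace m) (riemannRochSpace (C.red m))
  pos : ∃ m ∈ 𝒞, 0 < Divisor.degree m

/-- families of divisors with constant reduction -/
structure DivFam (C : RedCurve G) (B : Set (Place κ Fb)) (D : S → Divisor K F)
    (Db : Divisor κ Fb) : Prop where
  red : ∀ s, C.red (D s) = Db
  adm : ∀ s, C.Adm B (D s)

variable {C : RedCurve G} {g c : ℤ} {T : Set (Place K F)} {B : Set (Place κ Fb)}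
  {R : Subring (S → K)} {𝒞 : AddSubgroup (Divisor K F)}

theorem Adm.add {D E : Divisor K F} (hD : C.Adm B D) (hE : C.Adm B E) : C.Adm B (D + E) := by
  intro P hP
  rw [Finsupp.add_apply, hD P hP, hE P hP, add_zero]

theorem Adm.neg {D : Divisor K F} (hD : C.Adm B D) : C.Adm B (-D) := by
  intro P hP
  rw [Finsupp.neg_apply, hD P hP, neg_zero]

theorem Adm.sub {D E : Divisor K F} (hD : C.Adm B D) (hE : C.Adm B E) : C.Adm B (D - E) := by
  rw [sub_eq_add_neg]
  exact hD.add hE.neg

namespace DivFam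

variable {D E : S → Divisor K F} {Db Eb : Divisor κ Fb}

theorem add (hD : C.DivFam B D Db) (hE : C.DivFam B E Eb) :
    C.DivFam B (fun s => D s + E s) (Db + Eb) :=
  ⟨fun s => by rw [map_add, hD.red, hE.red], fun s => (hD.adm s).add (hE.adm s)⟩

theorem neg (hD : C.DivFam B D Db) : C.DivFam B (fun s => -D s) (-Db) :=
  ⟨fun s => by rw [map_neg, hD.red], fun s => (hD.adm s).neg⟩

theorem sub (hD : C.DivFam B D Db) (hE : C.DivFam B E Eb) :
    C.DivFam B (fun s => D s - E s) (Db - Eb) :=
  ⟨fun s => by rw [map_sub, hD.red, hE.red], fun s => (hD.adm s).sub (hE.adm s)⟩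

theorem const (h : C.Setup g c T B R 𝒞) {m : Divisor K F} (hm : m ∈ 𝒞) :
    C.DivFam B (fun _ : S => m) (C.red m) := ⟨fun _ => rfl, fun _ => h.adm m hm⟩

theorem degree (hD : C.DivFam B D Db) (s : S) : Divisor.degree (D s) = Divisor.degree Db := by
  rw [← hD.red s, degree_red]

theorem fam [hS : Nonempty S] (hD : C.DivFam B D Db) (hell : ∀ s, ell (D s) = ell Db) :
    C.Fam B (fun s => riemannRochSpace (D s)) (riemannRochSpace Db) where
  redIn s := by
    have := C.redIn_riemannRoch (hD.adm s)
    rwa [hD.red s] at this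
  regb := by
    obtain ⟨s⟩ := hS
    have := C.regb_riemannRoch (hD.adm s)
    rwa [hD.red s] at this
  fin s := inferInstance
  finb := inferInstance
  dim s := hell s

end DivFam

namespace Setup

variable (h : C.Setup g c T B R 𝒞) {D E : S → Divisor K F} {Db Eb : Divisor κ Fb}

include h

theorem ell_eq (hD : C.DivFam B D Db) (hdeg : c ≤ Divisor.degree Db) (s : S) :
    ell (D s) = ell Db := by
  have h1 := h.hK.eq (D s) (by rw [hD.degree]; exact hdeg)
  have h2 := h.hκ.eq Db hdeg
  rw [hD.degree] at h1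
  omega

/-- subtraction -/
theorem isRat_sub (hD : C.DivFam B D Db) (hE : C.DivFam B E Eb)
    (hDr : C.IsRat T B R (fun s => riemannRochSpace (D s)) (riemannRochSpace Db))
    (hEr : C.IsRat T B R (fun s => riemannRochSpace (E s)) (riemannRochSpace Eb))
    (hdeg : c + 1 ≤ Divisor.degree Db) (hell : ∀ s, ell (E s - D s) = ell (Eb - Db)) :
    C.IsRat T B R (fun s => riemannRochSpace (E s - D s)) (riemannRochSpace (Eb - Db)) := by
  haveI := h.hS
  refine isRat_colon h.hT h.hB h.hR hDr hEr ((hE.sub hD).fam hell) ?_ ?_ ?_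
  · intro s v hv u hu
    exact (h.hK.colon (by rw [hD.degree]; exact hdeg) v).1 hv u hu
  · intro v hv
    exact (h.hκ.colon hdeg v).2 hv
  · intro Q hQ
    obtain ⟨s⟩ := h.hS
    obtain ⟨f, hf, hf0, hfQ⟩ := h.hκ.bpf hdeg Q
    refine ⟨f, hf, value_ne_zero_of_ord hf0 ?_⟩
    rw [hfQ, ← hD.red s, C.red_eq_zero fun P hP => hD.adm s P (by rwa [hP]), neg_zero]

theorem exists_large (n : ℤ) : ∃ m ∈ 𝒞, n ≤ Divisor.degree m := by
  obtain ⟨m, hm, hpos⟩ := h.pos
  refine ⟨n.toNat • m, nsmul_mem hm _, ?_⟩
  rw [map_nsmul, nsmul_eq_mul]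
  have := Int.self_le_toNat n
  nlinarith [Int.natCast_nonneg n.toNat]

omit h in
/-- good families of divisors -/
def _root_.Fermat.Agent.PicFlat.RedCurve.GoodFam (C : RedCurve G) (c : ℤ) (T : Set (Place K F))
    (B : Set (Place κ Fb)) (R : Subring (S → K)) (𝒞 : AddSubgroup (Divisor K F))
    (D : S → Divisor K F) (Db : Divisor κ Fb) : Prop :=
  C.DivFam B D Db ∧ ∀ m ∈ 𝒞, c + 1 ≤ Divisor.degree m + Divisor.degree Db →
    C.IsRat T B R (fun s => riemannRochSpace (m + D s)) (riemannRochSpace (C.red m + Db))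

/-- it suffices to consider one twist -/
theorem good_of_one (hD : C.DivFam B D Db) {m₀ : Divisor K F} (hm₀ : m₀ ∈ 𝒞)
    (hdeg : c + 1 ≤ Divisor.degree m₀ + Divisor.degree Db)
    (hr : C.IsRat T B R (fun s => riemannRochSpace (m₀ + D s)) (riemannRochSpace (C.red m₀ + Db))) :
    C.GoodFam c T B R 𝒞 D Db := by
  refine ⟨hD, fun m hm hmdeg => ?_⟩
  obtain ⟨n, hn, hndeg⟩ := h.exists_large (Divisor.degree m₀ + Divisor.degree Db + c + 1 +
    |Divisor.degree m₀ - Divisor.degree m| + |c|)
  have habs := abs_nonneg (Divisor.degree m₀ - Divisor.degree m)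
  have habs' := le_abs_self (Divisor.degree m₀ - Divisor.degree m)
  have habsc := abs_nonneg c
  have habsc' := neg_abs_le c
  -- `n - (m₀ + D)`
  have h0 := (DivFam.const h hm₀).add hD
  have h1 : C.IsRat T B R (fun s => riemannRochSpace (n - (m₀ + D s)))
      (riemannRochSpace (C.red n - (C.red m₀ + Db))) := by
    refine h.isRat_sub h0 (DivFam.const h hn) hr (h.rat n hn (by omega)) ?_ ?_
    · rw [map_add, degree_red]; exact hdeg
    · refine h.ell_eq ((DivFam.const h hn).sub h0) ?_
      rw [map_sub, map_add, degree_red, degree_red]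
      omega
  -- `(m + n - m₀) - (n - (m₀ + D))`
  have hk : m + n - m₀ ∈ 𝒞 := sub_mem (add_mem hm hn) hm₀
  have h2 := (DivFam.const h hn).sub h0
  have h3 := h.isRat_sub h2 (DivFam.const h hk) h1 (h.rat _ hk (by
    rw [map_sub, map_add]; omega)) (by
    rw [map_sub, map_add, degree_red, degree_red]
    omega) (h.ell_eq ((DivFam.const h hk).sub h2) (by
      simp only [map_sub, map_add, map_neg, degree_red]
      omega))
  have e1 : (fun s => riemannRochSpace (m + n - m₀ - (n - (m₀ + D s)))) =
      fun s => riemannRochSpace (m + D s) := by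
    funext s
    congr 1
    abel
  have e2 : C.red (m + n - m₀) - (C.red n - (C.red m₀ + Db)) = C.red m + Db := by
    rw [map_sub, map_add]
    abel
  rwa [e1, e2] at h3

theorem good_const {m : Divisor K F} (hm : m ∈ 𝒞) :
    C.GoodFam c T B R 𝒞 (fun _ => m) (C.red m) := by
  refine ⟨DivFam.const h hm, fun k hk hdeg => ?_⟩
  have h1 := h.rat (k + m) (add_mem hk hm) (by rw [map_add]; rw [degree_red] at hdeg; omega)
  rwa [map_add] at h1

theorem good_neg (hD : C.GoodFam c T B R 𝒞 D Db) :
    C.GoodFam c T B R 𝒞 (fun s => -D s) (-Db) := by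
  refine ⟨hD.1.neg, fun m hm hdeg => ?_⟩
  rw [map_neg] at hdeg
  obtain ⟨n, hn, hndeg⟩ := h.exists_large (|c| + |Divisor.degree m| + |Divisor.degree Db| + 1)
  have a1 := neg_abs_le c
  have a2 := le_abs_self c
  have a3 := neg_abs_le (Divisor.degree m)
  have a4 := le_abs_self (Divisor.degree m)
  have a5 := neg_abs_le (Divisor.degree Db)
  have a6 := le_abs_self (Divisor.degree Db)
  have h0 := (DivFam.const h hn).add hD.1
  have hk : m + n ∈ 𝒞 := add_mem hm hn
  have h1 := h.isRat_sub h0 (DivFam.const h hk) (hD.2 n hn (by omega)) (h.rat _ hk (by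
    rw [map_add]; omega)) (by rw [map_add, degree_red]; omega)
    (h.ell_eq ((DivFam.const h hk).sub h0) (by
      simp only [map_sub, map_add, map_neg, degree_red]
      omega))
  have e1 : (fun s => riemannRochSpace (m + n - (n + D s))) =
      fun s => riemannRochSpace (m + -D s) := by
    funext s
    congr 1
    abel
  have e2 : C.red (m + n) - (C.red n + Db) = C.red m + -Db := by
    rw [map_add]
    abel
  rwa [e1, e2] at h1

theorem good_add (hD : C.GoodFam c T B R 𝒞 D Db) (hE : C.GoodFam c T B R 𝒞 E Eb) :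
    C.GoodFam c T B R 𝒞 (fun s => D s + E s) (Db + Eb) := by
  refine ⟨hD.1.add hE.1, fun m hm hdeg => ?_⟩
  rw [map_add] at hdeg
  obtain ⟨n, hn, hndeg⟩ := h.exists_large (|c| + |Divisor.degree m| + |Divisor.degree Db| +
    |Divisor.degree Eb| + 1)
  have a1 := neg_abs_le c
  have a2 := le_abs_self c
  have a3 := neg_abs_le (Divisor.degree m)
  have a4 := le_abs_self (Divisor.degree m)
  have a5 := neg_abs_le (Divisor.degree Db)
  have a6 := le_abs_self (Divisor.degree Db)
  have a7 := neg_abs_le (Divisor.degree Eb)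
  have a8 := le_abs_self (Divisor.degree Eb)
  have hnD := h.good_neg hD
  have h0 := (DivFam.const h hn).add hnD.1
  have hk : m + n ∈ 𝒞 := add_mem hm hn
  have h0' := (DivFam.const h hk).add hE.1
  have h1 := h.isRat_sub h0 h0' (hnD.2 n hn (by rw [map_neg]; omega)) (hE.2 _ hk (by
    rw [map_add]; omega)) (by rw [map_add, map_neg, degree_red]; omega)
    (h.ell_eq (h0'.sub h0) (by
      simp only [map_sub, map_add, map_neg, degree_red]
      omega))
  have e1 : (fun s => riemannRochSpace (m + n + E s - (n + -D s))) =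
      fun s => riemannRochSpace (m + (D s + E s)) := by
    funext s
    congr 1
    abel
  have e2 : C.red (m + n) + Eb - (C.red n + -Db) = C.red m + (Db + Eb) := by
    rw [map_add]
    abel
  rwa [e1, e2] at h1

theorem good_sub (hD : C.GoodFam c T B R 𝒞 D Db) (hE : C.GoodFam c T B R 𝒞 E Eb) :
    C.GoodFam c T B R 𝒞 (fun s => D s - E s) (Db - Eb) := by
  have := h.good_add hD (h.good_neg hE)
  simpa only [sub_eq_add_neg] using this

/-- small degrees -/
theorem isRat_of_good (hD : C.GoodFam c T B R 𝒞 D Db) (hell : ∀ s, ell (D s) = ell Db) :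
    C.IsRat T B R (fun s => riemannRochSpace (D s)) (riemannRochSpace Db) := by
  obtain ⟨n, hn, hndeg⟩ := h.exists_large (|c| + |Divisor.degree Db| + 1)
  have a1 := neg_abs_le c
  have a2 := le_abs_self c
  have a5 := neg_abs_le (Divisor.degree Db)
  have a6 := le_abs_self (Divisor.degree Db)
  have h0 := DivFam.const h hn
  have h0' := h0.add hD.1
  have h1 := h.isRat_sub h0 h0' (h.rat n hn (by omega)) (hD.2 n hn (by omega))
    (by rw [degree_red]; omega) (fun s => by
      rw [add_sub_cancel_left, add_sub_cancel_left]; exact hell s)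
  simpa only [add_sub_cancel_left] using h1

/-- principal families -/
theorem good_div {f : S → F} {fb : Fb} (hfb : fb ≠ 0) (hf : ∀ s, G.R (f s) fb)
    (hrat : C.RatFun T B R f) (hadm : ∀ s, C.Adm B (divisorOf (f s))) :
    C.GoodFam c T B R 𝒞 (fun s => divisorOf (f s)) (divisorOf fb) := by
  haveI := h.hS
  have hfam : C.DivFam B (fun s => divisorOf (f s)) (divisorOf fb) :=
    ⟨fun s => C.red_div (hf s) hfb, hadm⟩
  have hf0 : ∀ s, f s ≠ 0 := fun s => (hf s).ne_zero hfb
  obtain ⟨m, hm, hmdeg⟩ := h.exists_large (|c| + 1)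
  have a2 := le_abs_self c
  have hreg : ∀ s, C.Reg B (f s) := by
    intro s P hP
    rw [mem_iff_ord P (hf0 s)]
    exact (hadm s P hP).ge
  have key : C.GoodFam c T B R 𝒞 (fun s => -divisorOf (f s)) (-divisorOf fb) := by
    have hfam' := (DivFam.const h hm).add hfam.neg
    refine h.good_of_one hfam.neg hm (by
      rw [map_neg, degree_divisorOf, neg_zero, add_zero]
      omega) ?_
    obtain ⟨n, P, w, wb, hw⟩ := h.rat m hm (by omega)
    refine isRat_of_basis h.hT h.hB h.hR (hfam'.fam (h.ell_eq hfam' (by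
      rw [map_add, map_neg, degree_divisorOf, degree_red]; omega)))
      (f := fun i s => f s * w i s) (fb := fun i => fb * wb i) ?_ ?_ ?_ ?_ ?_ ?_
    · intro i s
      rw [← sub_eq_add_neg]
      exact (mul_mem_iff (hf0 s)).2 (hw.mem i s)
    · intro i s
      exact (hf s).mul (hw.hR i s)
    · intro i
      rw [← sub_eq_add_neg]
      exact (mul_mem_iff hfb).2 (hw.memb i)
    · rw [Fintype.linearIndependent_iff]
      intro z hz
      have h1 : ∑ i, z i • wb i = 0 := by
        apply mul_left_cancel₀ hfb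
        rw [mul_zero, ← hz, Finset.mul_sum]
        exact Finset.sum_congr rfl fun i _ => mul_smul_comm _ _ _
      exact fun i => congrFun (hw.eq_zero_of_sumb h1) i
    · rw [Fintype.card_fin, ← hw.finrank_eq]
      change ell (C.red m) = ell (C.red m + -divisorOf fb)
      rw [← sub_eq_add_neg, ell_sub_divisorOf _ hfb]
    · intro i P' hP' hP'B
      have h1 : (fun s => value P' (f s * w i s)) =
          (fun s => value P' (f s)) * fun s => value P' (w i s) := by
        funext s
        exact value_mul P' (hreg s P' hP'B) (hw.reg i s P' hP'B)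
      rw [h1]
      exact mul_mem (hrat P' hP' hP'B) (hw.rat i P' hP' hP'B)
  have h2 := h.good_neg key
  simpa only [neg_neg] using h2

/-- the effective family in a one-dimensional linear system -/
theorem good_effective (hD : C.GoodFam c T B R 𝒞 D Db) (hell : ∀ s, ell (D s) = 1)
    (hellb : ell Db = 1) {E : S → Divisor K F} {Eb : Divisor κ Fb} (hE : ∀ s, 0 ≤ E s)
    (hEf : ∀ s, ∃ f : F, f ≠ 0 ∧ E s = divisorOf f + D s)
    (hEb : 0 ≤ Eb) (hEbf : ∃ f : Fb, f ≠ 0 ∧ Eb = divisorOf f + Db)
    (hEbB : ∀ Q, Q ∉ B → Eb Q = 0) :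
    C.GoodFam c T B R 𝒞 E Eb := by
  haveI := h.hS
  obtain ⟨n, P, w, wb, hw⟩ := h.isRat_of_good hD (fun s => by rw [hell s, hellb])
  have hn : n = 1 := by
    rw [← hw.finrank_eq]
    exact hellb
  subst hn
  have hwb0 : wb 0 ≠ 0 := hw.indep.ne_zero 0
  have hw0 : ∀ s, w 0 s ≠ 0 := fun s => (hw.hR 0 s).ne_zero hwb0
  -- the divisors
  have hEw : ∀ s, E s = divisorOf (w 0 s) + D s := by
    intro s
    obtain ⟨f, hf0, hf⟩ := hEf s
    have h1 : f ∈ riemannRochSpace (D s) := (mem_iff_div hf0).2 (hf ▸ hE s)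
    have h2 := hw.eq_sum h1
    rw [Fin.sum_univ_one] at h2
    have hc : value (P 0) f ≠ 0 := by
      intro h0
      rw [h0, zero_smul] at h2
      exact hf0 h2
    have h3 : divisorOf (k := K) f = divisorOf (w 0 s) := by
      ext v
      rw [divisorOf_apply, divisorOf_apply, h2, Algebra.smul_def,
        v.ord_mul (by simpa using hc) (hw0 s), ord_algebraMap, zero_add]
    rw [hf, h3]
  have hEbw : Eb = divisorOf (wb 0) + Db := by
    obtain ⟨f, hf0, hf⟩ := hEbf
    have h1 : f ∈ riemannRochSpace Db := (mem_iff_div hf0).2 (hf ▸ hEb)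
    have h2 := hw.eq_sumb h1
    rw [Fin.sum_univ_one] at h2
    have hc : value (C.rd (P 0)) f ≠ 0 := by
      intro h0
      rw [h0, zero_smul] at h2
      exact hf0 h2
    have h3 : divisorOf (k := κ) f = divisorOf (wb 0) := by
      ext v
      rw [divisorOf_apply, divisorOf_apply, h2, Algebra.smul_def,
        v.ord_mul (by simpa using hc) hwb0, ord_algebraMap, zero_add]
    rw [hf, h3]
  have hredE : ∀ s, C.red (E s) = Eb := by
    intro s
    rw [hEw s, map_add, C.red_div (hw.hR 0 s) hwb0, hD.1.red s, ← hEbw]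
  have hadmE : ∀ s, C.Adm B (E s) := by
    intro s P hP
    have h1 := C.le_red_apply (D := E s) (P := P) fun P' _ => hE s P'
    rw [hredE s, hEbB _ hP] at h1
    exact le_antisymm h1 (hE s P)
  have hadmw : ∀ s, C.Adm B (divisorOf (w 0 s)) := by
    intro s
    have : divisorOf (w 0 s) = E s - D s := by rw [hEw s, add_sub_cancel_right]
    rw [this]
    exact (hadmE s).sub (hD.1.adm s)
  have h1 := h.good_add (h.good_div hwb0 (fun s => hw.hR 0 s) (hw.rat 0) hadmw) hD
  rw [← hEbw] at h1
  have e1 : E = fun s => divisorOf (w 0 s) + D s := funext hEw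
  rw [e1]
  exact h1

end Setup

end RedCurve

end Fermat.Agent.PicFlat
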