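import Mathlib

/-!
# Rationality of unique solutions of linear systems
-/

set_option autoImplicit false
set_option linter.unusedSectionVars false

noncomputable section

namespace Fermat.Agent.PicFlat

open Matrix Module

variable {K κ S : Type*} [Field K] [Field κ] {A : ValuationSubring K} {π : A →+* κ}

/-- `r` is an element of `R` with constant residue `c` -/
def RRes (π : A →+* κ) (R : Subring (S → K)) (r : S → K) (c : κ) : Prop :=
  r ∈ R ∧ ∀ s, ∃ a : A, (a : K) = r s ∧ π a = c

/-- local rings of functions with constant residue -/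
structure ResRing (π : A →+* κ) (R : Subring (S → K)) : Prop where
  res : ∀ r ∈ R, ∃ c, RRes π R r c
  unit : ∀ r c, RRes π R r c → c ≠ 0 → ∃ r' ∈ R, r * r' = 1

namespace RRes

variable {R : Subring (S → K)}

theorem unique [Nonempty S] {r : S → K} {c c' : κ} (h : RRes π R r c) (h' : RRes π R r c') :
    c = c' := by
  obtain ⟨s⟩ := (inferInstance : Nonempty S)
  obtain ⟨a, ha, hac⟩ := h.2 s
  obtain ⟨a', ha', hac'⟩ := h'.2 s
  rw [← hac, ← hac', Subtype.ext (ha.trans ha'.symm)]

theorem add {r r' : S → K} {c c' : κ} (h : RRes π R r c) (h' : RRes π R r' c') :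
    RRes π R (r + r') (c + c') := by
  refine ⟨add_mem h.1 h'.1, fun s => ?_⟩
  obtain ⟨a, ha, hac⟩ := h.2 s
  obtain ⟨a', ha', hac'⟩ := h'.2 s
  exact ⟨a + a', by rw [Pi.add_apply, ← ha, ← ha']; rfl, by rw [map_add, hac, hac']⟩

theorem mul {r r' : S → K} {c c' : κ} (h : RRes π R r c) (h' : RRes π R r' c') :
    RRes π R (r * r') (c * c') := by
  refine ⟨mul_mem h.1 h'.1, fun s => ?_⟩
  obtain ⟨a, ha, hac⟩ := h.2 s
  obtain ⟨a', ha', hac'⟩ := h'.2 s
  exact ⟨a * a', by rw [Pi.mul_apply, ← ha, ← ha']; rfl, by rw [map_mul, hac, hac']⟩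

theorem neg {r : S → K} {c : κ} (h : RRes π R r c) : RRes π R (-r) (-c) := by
  refine ⟨neg_mem h.1, fun s => ?_⟩
  obtain ⟨a, ha, hac⟩ := h.2 s
  exact ⟨-a, by rw [Pi.neg_apply, ← ha]; rfl, by rw [map_neg, hac]⟩

theorem sub {r r' : S → K} {c c' : κ} (h : RRes π R r c) (h' : RRes π R r' c') :
    RRes π R (r - r') (c - c') := by
  rw [sub_eq_add_neg, sub_eq_add_neg]
  exact h.add h'.neg

theorem zero : RRes π R 0 0 := ⟨zero_mem _, fun _ => ⟨0, rfl, map_zero π⟩⟩

theorem one : RRes π R 1 1 := ⟨one_mem _, fun _ => ⟨1, rfl, map_one π⟩⟩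

theorem sum {ι : Type*} (t : Finset ι) {r : ι → S → K} {c : ι → κ}
    (h : ∀ i ∈ t, RRes π R (r i) (c i)) : RRes π R (∑ i ∈ t, r i) (∑ i ∈ t, c i) := by
  classical
  induction t using Finset.induction_on with
  | empty => simpa using zero
  | insert i t hi ih =>
    rw [Finset.sum_insert hi, Finset.sum_insert hi]
    exact (h i (Finset.mem_insert_self i t)).add (ih fun j hj => h j (Finset.mem_insert_of_mem hj))

end RRes

/-- a spanning family of rows contains an invertible square matrix -/
theorem exists_rows {ι ρ : Type*} [Fintype ι] [DecidableEq ι] (M : ρ → ι → κ)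
    (h : ∀ y : ι → κ, (∀ r, ∑ i, M r i * y i = 0) → y = 0) :
    ∃ e : ι → ρ, (Matrix.of fun i j => M (e i) j).det ≠ 0 := by
  -- the rows span
  have hspan : Submodule.span κ (Set.range M) = ⊤ := by
    by_contra hne
    obtain ⟨f, hf0, hf⟩ := Submodule.exists_le_ker_of_lt_top _ (lt_top_iff_ne_top.2 hne)
    apply hf0
    have h1 : (fun i => f (Pi.single i 1)) = 0 := by
      apply h
      intro r
      have h2 : f (M r) = 0 := hf (Submodule.subset_span ⟨r, rfl⟩)
      have h3 : M r = ∑ i, M r i • (Pi.single i (1 : κ) : ι → κ) := by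
        rw [← pi_eq_sum_univ' (M r)]
      rw [h3, map_sum] at h2
      rw [← h2]
      refine Finset.sum_congr rfl fun i _ => ?_
      rw [map_smul, smul_eq_mul]
    refine LinearMap.pi_ext' fun i => ?_
    ext
    exact congrFun h1 i
  obtain ⟨b, hb, hspanb, hind⟩ := exists_linearIndependent κ (Set.range M)
  rw [hspan] at hspanb
  let B : Basis b κ (ι → κ) := Basis.mk hind (by
    rw [Subtype.range_coe, hspanb])
  have hBval : ∀ x : b, B x = x.1 := fun x => by simp [B, Basis.mk_apply]
  haveI : Fintype b := FiniteDimensional.fintypeBasisIndex B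
  have hcard : Fintype.card ι = Fintype.card b := by
    have h1 := Module.finrank_eq_card_basis B
    rwa [Module.finrank_fintype_fun_eq_card] at h1
  let e₀ : ι ≃ b := Fintype.equivOfCardEq hcard
  choose f hf using fun x : b => hb x.2
  refine ⟨fun i => f (e₀ i), ?_⟩
  have h2 : LinearIndependent κ fun i => (e₀ i).1 := hind.comp e₀ e₀.injective
  have h3 : (Matrix.of fun i j => M (f (e₀ i)) j).row = fun i => (e₀ i).1 := by
    funext i
    exact hf (e₀ i)
  have h4 : LinearIndependent κ (Matrix.of fun i j => M (f (e₀ i)) j).row := by rwa [h3]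
  rw [Matrix.linearIndependent_rows_iff_isUnit, Matrix.isUnit_iff_isUnit_det] at h4
  exact h4.ne_zero

theorem det_mem {ι : Type*} [Fintype ι] [DecidableEq ι] {R : Subring (S → K)}
    {M : Matrix ι ι (S → K)} {Mb : Matrix ι ι κ} (h : ∀ i j, RRes π R (M i j) (Mb i j)) :
    RRes π R M.det Mb.det := by
  rw [Matrix.det_apply, Matrix.det_apply]
  refine RRes.sum _ fun σ _ => ?_
  have hprod : RRes π R (∏ i, M (σ i) i) (∏ i, Mb (σ i) i) := by
    have : ∀ t : Finset ι, RRes π R (∏ i ∈ t, M (σ i) i) (∏ i ∈ t, Mb (σ i) i) := by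
      intro t
      induction t using Finset.induction_on with
      | empty => simpa using RRes.one
      | insert i t hi ih =>
        rw [Finset.prod_insert hi, Finset.prod_insert hi]
        exact (h _ _).mul ih
    exact this _
  rcases Int.units_eq_one_or (Equiv.Perm.sign σ) with hs | hs
  · rw [hs, one_smul, one_smul]
    exact hprod
  · rw [hs, Units.neg_smul, Units.neg_smul, one_smul, one_smul]
    exact hprod.neg

/-- **Unique solutions are rational.** -/
theorem solve_mem {ι ρ : Type*} [Fintype ι] {R : Subring (S → K)} (hR : ResRing π R)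
    (M : ρ → ι → S → K) (Mb : ρ → ι → κ) (hM : ∀ r i, RRes π R (M r i) (Mb r i))
    (c : ρ → S → K) (hc : ∀ r, c r ∈ R) (x : ι → S → K) (hx : ∀ r, ∑ i, M r i * x i = c r)
    (hinj : ∀ y : ι → κ, (∀ r, ∑ i, Mb r i * y i = 0) → y = 0) : ∀ i, x i ∈ R := by
  classical
  obtain ⟨e, he⟩ := exists_rows Mb hinj
  let N : Matrix ι ι R := Matrix.of fun i j => ⟨M (e i) j, (hM _ _).1⟩
  let N' : Matrix ι ι (S → K) := Matrix.of fun i j => M (e i) j
  have hN' : N' = N.map R.subtype := rfl
  have hdet := det_mem (π := π) (R := R) (M := N') (Mb := Matrix.of fun i j => Mb (e i) j)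
    fun i j => hM _ _
  obtain ⟨u, hu, hdu⟩ := hR.unit _ _ hdet he
  have h1 : N'.mulVec x = fun i => c (e i) := by
    funext i
    exact hx (e i)
  have h2 : N'.det • x = N'.adjugate.mulVec fun i => c (e i) := by
    rw [← h1, Matrix.mulVec_mulVec, Matrix.adjugate_mul, Matrix.smul_mulVec, Matrix.one_mulVec]
  intro i
  have h3 := congrFun h2 i
  rw [Pi.smul_apply, smul_eq_mul] at h3
  have h4 : x i = u * (N'.adjugate.mulVec fun i => c (e i)) i := by
    rw [← h3, ← mul_assoc, mul_comm u, hdu, one_mul]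
  rw [h4]
  refine mul_mem hu (sum_mem fun j _ => mul_mem ?_ (hc _))
  have h5 : N'.adjugate = N.adjugate.map R.subtype := by
    rw [hN']
    exact (RingHom.map_adjugate R.subtype N).symm
  rw [h5]
  exact (N.adjugate i j).2

end Fermat.Agent.PicFlat
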