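import Fermat.Agent.PicFlat.Spec
import Fermat.Agent.PicFlat.Solve

/-!
# Rational families of spaces of functions
-/

set_option autoImplicit false
set_option linter.unusedSectionVars false
set_option linter.unusedDecidableInType false
set_option linter.style.haveILetI false

noncomputable section

namespace Fermat.Agent.PicFlat

open Polynomial AlgebraicCurve Fermat.Agent.Curves Module IntermediateField WithZero
open Fermat.Agent.GoodRed

variable {K κ : Type*} [Field K] [Field κ] [IsAlgClosed K] [IsAlgClosed κ] {A : ValuationSubring K}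
  {π : A →+* κ} [IsLocalHom π]
  {F Fb : Type*} [Field F] [Field Fb] [Algebra K F] [Algebra κ Fb]
  [IsFunctionField K F] [IsFunctionField κ Fb]
  {G : GaussRed A π F Fb}

section Value

variable {k E : Type*} [Field k] [Field E] [Algebra k E] [IsFunctionField k E] [IsAlgClosed k]

theorem value_smul (Q : Place k E) (c : k) {f : E} (hf : f ∈ Q.toValuationSubring) :
    value Q (c • f) = c * value Q f := by
  rw [Algebra.smul_def, value_mul_const Q c hf]

theorem value_sum (Q : Place k E) {ι : Type*} (s : Finset ι) {f : ι → E}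
    (hf : ∀ i ∈ s, f i ∈ Q.toValuationSubring) : value Q (∑ i ∈ s, f i) = ∑ i ∈ s, value Q (f i) := by
  classical
  induction s using Finset.induction_on with
  | empty => simpa using value_zero Q
  | insert i s hi ih =>
    rw [Finset.sum_insert hi, Finset.sum_insert hi,
      value_add Q (hf i (Finset.mem_insert_self _ _))
        (sum_mem fun j hj => hf j (Finset.mem_insert_of_mem hj)),
      ih fun j hj => hf j (Finset.mem_insert_of_mem hj)]

theorem smul_mem_place (Q : Place k E) (c : k) {f : E} (hf : f ∈ Q.toValuationSubring) :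
    c • f ∈ Q.toValuationSubring := by
  rw [Algebra.smul_def]
  exact mul_mem (Q.algebraMap_mem' c) hf

theorem value_sum_smul (Q : Place k E) {ι : Type*} (s : Finset ι) {f : ι → E} (c : ι → k)
    (hf : ∀ i ∈ s, f i ∈ Q.toValuationSubring) :
    value Q (∑ i ∈ s, c i • f i) = ∑ i ∈ s, c i * value Q (f i) := by
  rw [value_sum Q s fun i hi => smul_mem_place Q (c i) (hf i hi)]
  exact Finset.sum_congr rfl fun i hi => value_smul Q (c i) (hf i hi)

end Value

namespace RedCurve

variable (C : RedCurve G)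

theorem _root_.Fermat.Agent.GoodRed.GaussRed.R.smul {f : F} {fb : Fb} (h : G.R f fb) (a : A) :
    G.R ((a : K) • f) (π a • fb) := by
  rw [Algebra.smul_def, Algebra.smul_def]
  exact (GaussRed.R.const G a).mul h

/-- dual bases for test points -/
theorem exists_dualb {T : Set (Place K F)} {B : Set (Place κ Fb)} {Wb : Submodule κ Fb}
    [FiniteDimensional κ Wb] (hreg : ∀ fb ∈ Wb, ∀ Q, Q ∉ B → fb ∈ Q.toValuationSubring)
    {n : ℕ} (hn : finrank κ Wb = n) {P : Fin n → Place K F} (hP : C.Pivots T B Wb P) :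
    ∃ wb : Fin n → Fb, (∀ i, wb i ∈ Wb) ∧
      ∀ i j, value (C.rd (P j)) (wb i) = if i = j then 1 else 0 := by
  let φ : Wb →ₗ[κ] (Fin n → κ) :=
    LinearMap.pi fun i => evL (C.rd (P i)) Wb fun f hf => hreg f hf _ (hP.out i)
  have hφ : Function.Injective φ := by
    rw [injective_iff_map_eq_zero]
    intro f hf
    apply Subtype.ext
    exact hP.inj f f.2 fun i => congrFun hf i
  have hφ' : Function.Surjective φ := by
    rw [← LinearMap.injective_iff_surjective_of_finrank_eq_finrank]
    · exact hφ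
    · rw [hn, finrank_fin_fun]
  choose wb hwb using fun i : Fin n => hφ' (Pi.single i 1)
  refine ⟨fun i => wb i, fun i => (wb i).2, fun i j => ?_⟩
  have := congrFun (hwb i) j
  rw [Pi.single_apply] at this
  simp only [eq_comm (a := i) (b := j)]
  exact this

theorem exists_dual {T : Set (Place K F)} {B : Set (Place κ Fb)} {W : Submodule K F}
    {Wb : Submodule κ Fb} [FiniteDimensional K W] (h : C.RedIn B W Wb)
    {n : ℕ} (hn : finrank K W = n) {P : Fin n → Place K F} (hP : C.Pivots T B Wb P)
    {wb : Fin n → Fb} (hwb : ∀ i, wb i ∈ Wb)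
    (hwbv : ∀ i j, value (C.rd (P j)) (wb i) = if i = j then 1 else 0)
    (hreg : ∀ fb ∈ Wb, ∀ Q, Q ∉ B → fb ∈ Q.toValuationSubring) :
    ∃ w : Fin n → F, (∀ i, w i ∈ W) ∧ (∀ i j, value (P j) (w i) = if i = j then 1 else 0) ∧
      ∀ i, G.R (w i) (wb i) := by
  let φ : W →ₗ[K] (Fin n → K) := LinearMap.pi fun i => evL (P i) W fun f hf => h.reg f hf _ (hP.out i)
  have hφ : Function.Injective φ := by
    rw [injective_iff_map_eq_zero]
    intro f hf
    apply Subtype.ext
    exact C.eq_zero_of_pivots h hP f.2 fun i => congrFun hf i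
  have hφ' : Function.Surjective φ := by
    rw [← LinearMap.injective_iff_surjective_of_finrank_eq_finrank]
    · exact hφ
    · rw [hn, finrank_fin_fun]
  choose w hw using fun i : Fin n => hφ' (Pi.single i 1)
  have hval : ∀ i j, value (P j) (w i : F) = if i = j then 1 else 0 := by
    intro i j
    have := congrFun (hw i) j
    rw [Pi.single_apply] at this
    simp only [eq_comm (a := i) (b := j)]
    exact this
  refine ⟨fun i => w i, fun i => (w i).2, hval, fun i => ?_⟩
  have hw0 : (w i : F) ≠ 0 := by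
    intro h0
    have := hval i i
    rw [h0, value_zero, if_pos rfl] at this
    exact zero_ne_one this
  obtain ⟨c, hc, hm, hne⟩ := G.scale (w i : F) hw0
  set gb := G.red ⟨_, hm⟩ with hgb
  have hR : G.R (algebraMap K F c * (w i : F)) gb := ⟨hm, rfl⟩
  have hcW : algebraMap K F c * (w i : F) ∈ W := by
    rw [← Algebra.smul_def]; exact W.smul_mem c (w i).2
  have hgbW : gb ∈ Wb := h.red _ hcW _ hR
  have hspec : ∀ j, ∃ a : A, (a : K) = c * (if i = j then 1 else 0) ∧
      π a = value (C.rd (P j)) gb := by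
    intro j
    obtain ⟨-, a, ha, ha'⟩ := (h.reg _ hcW).value_spec hR (hP.out j)
    rw [value_mul_const (P j) c (h.reg _ (w i).2 _ (hP.out j)), hval] at ha
    exact ⟨a, ha, ha'⟩
  obtain ⟨a, ha, ha'⟩ := hspec i
  rw [if_pos rfl, mul_one] at ha
  have hπa : π a ≠ 0 := by
    intro h0
    apply hne
    refine hP.inj _ hgbW fun j => ?_
    by_cases hij : i = j
    · rw [← hij, ← ha', h0]
    · obtain ⟨a', h1, h2⟩ := hspec j
      rw [if_neg hij, mul_zero] at h1
      rw [← h2, show a' = 0 from Subtype.ext h1, map_zero]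
  have hau : IsUnit a := isUnit_of_map_unit π a (isUnit_iff_ne_zero.2 hπa)
  obtain ⟨u, hu⟩ := hau
  have h1 : (((u⁻¹ : Aˣ) : A) : K) * c = 1 := by
    rw [← ha, ← hu]
    exact congrArg Subtype.val u.inv_mul
  have hR2 : G.R (w i : F) (π ((u⁻¹ : Aˣ) : A) • gb) := by
    have := hR.smul ((u⁻¹ : Aˣ) : A)
    rwa [Algebra.smul_def, ← mul_assoc, ← map_mul, h1, map_one, one_mul] at this
  have hg' : π ((u⁻¹ : Aˣ) : A) • gb = wb i := by
    rw [← sub_eq_zero]
    refine hP.inj _ (Wb.sub_mem (Wb.smul_mem _ hgbW) (hwb i)) fun j => ?_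
    have hj := hP.out j
    rw [value_sub _ (smul_mem_place _ _ (hreg _ hgbW _ hj)) (hreg _ (hwb i) _ hj),
      value_smul _ _ (hreg _ hgbW _ hj), hwbv]
    obtain ⟨a', h2, h3⟩ := hspec j
    rw [← h3, ← map_mul]
    by_cases hij : i = j
    · rw [if_pos hij] at h2 ⊢
      have : ((u⁻¹ : Aˣ) : A) * a' = 1 := by
        apply Subtype.ext
        change (((u⁻¹ : Aˣ) : A) : K) * (a' : K) = 1
        rw [h2, mul_one, h1]
      rw [this, map_one, sub_self]
    · rw [if_neg hij] at h2 ⊢
      have : ((u⁻¹ : Aˣ) : A) * a' = 0 := by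
        apply Subtype.ext
        change (((u⁻¹ : Aˣ) : A) : K) * (a' : K) = 0
        rw [h2, mul_zero, mul_zero]
      rw [this, map_zero, sub_self]
  rwa [hg'] at hR2

variable {S : Type*}

/-- a family of functions with rational values -/
def RatFun (T : Set (Place K F)) (B : Set (Place κ Fb)) (R : Subring (S → K)) (w : S → F) : Prop :=
  ∀ P ∈ T, C.rd P ∉ B → (fun s => value P (w s)) ∈ R

/-- families of spaces of functions with constant reduction -/
structure Fam (B : Set (Place κ Fb)) (W : S → Submodule K F) (Wb : Submodule κ Fb) : Prop where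
  redIn : ∀ s, C.RedIn B (W s) Wb
  regb : ∀ fb ∈ Wb, ∀ Q, Q ∉ B → fb ∈ Q.toValuationSubring
  fin : ∀ s, FiniteDimensional K (W s)
  finb : FiniteDimensional κ Wb
  dim : ∀ s, finrank K (W s) = finrank κ Wb

/-- rational families: rational dual bases for test points -/
structure RatBasis (T : Set (Place K F)) (B : Set (Place κ Fb)) (R : Subring (S → K))
    (W : S → Submodule K F) (Wb : Submodule κ Fb) (n : ℕ) (P : Fin n → Place K F)
    (w : Fin n → S → F) (wb : Fin n → Fb) : Prop where
  fam : C.Fam B W Wb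
  piv : C.Pivots T B Wb P
  mem : ∀ i s, w i s ∈ W s
  memb : ∀ i, wb i ∈ Wb
  val : ∀ i j s, value (P j) (w i s) = if i = j then 1 else 0
  valb : ∀ i j, value (C.rd (P j)) (wb i) = if i = j then 1 else 0
  hR : ∀ i s, G.R (w i s) (wb i)
  rat : ∀ i, C.RatFun T B R (w i)

/-- existence of a rational basis -/
def IsRat (T : Set (Place K F)) (B : Set (Place κ Fb)) (R : Subring (S → K))
    (W : S → Submodule K F) (Wb : Submodule κ Fb) : Prop :=
  ∃ n P w wb, C.RatBasis T B R W Wb n P w wb

variable {C} {T : Set (Place K F)} {B : Set (Place κ Fb)} {R : Subring (S → K)}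
  {W : S → Submodule K F} {Wb : Submodule κ Fb}

namespace RatBasis

variable {n : ℕ} {P : Fin n → Place K F} {w : Fin n → S → F} {wb : Fin n → Fb}

theorem reg (h : C.RatBasis T B R W Wb n P w wb) (i : Fin n) (s : S) : C.Reg B (w i s) :=
  (h.fam.redIn s).reg _ (h.mem i s)

theorem eq_sum (h : C.RatBasis T B R W Wb n P w wb) {s : S} {f : F} (hf : f ∈ W s) :
    f = ∑ i, value (P i) f • w i s := by
  rw [← sub_eq_zero]
  refine C.eq_zero_of_pivots (h.fam.redIn s) h.piv
    ((W s).sub_mem hf (Submodule.sum_mem _ fun i _ => (W s).smul_mem _ (h.mem i s))) fun j => ?_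
  have hj := h.piv.out j
  rw [value_sub _ ((h.fam.redIn s).reg _ hf _ hj)
    (sum_mem fun i _ => smul_mem_place _ _ (h.reg i s _ hj)),
    value_sum_smul _ _ _ fun i _ => h.reg i s _ hj]
  simp only [h.val, mul_ite, mul_one, mul_zero, Finset.sum_ite_eq', Finset.mem_univ, if_true,
    sub_self]

theorem eq_sumb (h : C.RatBasis T B R W Wb n P w wb) {f : Fb} (hf : f ∈ Wb) :
    f = ∑ i, value (C.rd (P i)) f • wb i := by
  rw [← sub_eq_zero]
  refine h.piv.inj _ (Wb.sub_mem hf (Submodule.sum_mem _ fun i _ => Wb.smul_mem _ (h.memb i)))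
    fun j => ?_
  have hj := h.piv.out j
  rw [value_sub _ (h.fam.regb _ hf _ hj)
    (sum_mem fun i _ => smul_mem_place _ _ (h.fam.regb _ (h.memb i) _ hj)),
    value_sum_smul _ _ _ fun i _ => h.fam.regb _ (h.memb i) _ hj]
  simp only [h.valb, mul_ite, mul_one, mul_zero, Finset.sum_ite_eq', Finset.mem_univ, if_true,
    sub_self]

theorem eq_zero_of_sumb (h : C.RatBasis T B R W Wb n P w wb) {c : Fin n → κ}
    (hc : ∑ i, c i • wb i = 0) : c = 0 := by
  funext j
  have hj := h.piv.out j
  have h1 := congrArg (value (C.rd (P j))) hc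
  rw [value_sum_smul _ _ _ fun i _ => h.fam.regb _ (h.memb i) _ hj, value_zero] at h1
  simpa only [h.valb, mul_ite, mul_one, mul_zero, Finset.sum_ite_eq', Finset.mem_univ, if_true,
    Pi.zero_apply] using h1

theorem indep (h : C.RatBasis T B R W Wb n P w wb) : LinearIndependent κ wb := by
  rw [Fintype.linearIndependent_iff]
  exact fun c hc i => congrFun (h.eq_zero_of_sumb hc) i

theorem finrank_eq (h : C.RatBasis T B R W Wb n P w wb) : finrank κ Wb = n := by
  haveI := h.fam.finb
  have h1 : Submodule.span κ (Set.range wb) = Wb := by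
    apply le_antisymm
    · rw [Submodule.span_le]
      rintro _ ⟨i, rfl⟩
      exact h.memb i
    · intro f hf
      rw [h.eq_sumb hf]
      exact Submodule.sum_mem _ fun i _ => Submodule.smul_mem _ _ (Submodule.subset_span ⟨i, rfl⟩)
  rw [← h1, finrank_span_eq_card h.indep, Fintype.card_fin]

/-- values of basis elements are elements of `R` with the right residue -/
theorem rres (h : C.RatBasis T B R W Wb n P w wb) (i : Fin n) {P' : Place K F} (hP' : P' ∈ T)
    (hB : C.rd P' ∉ B) : RRes π R (fun s => value P' (w i s)) (value (C.rd P') (wb i)) := by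
  refine ⟨h.rat i P' hP' hB, fun s => ?_⟩
  exact ((h.reg i s).value_spec (h.hR i s) hB).2

end RatBasis

/-- functions vanishing at all test points vanish -/
theorem eq_zero_of_values (hT : ∀ S : Set (Place κ Fb), S.Finite → ∃ P ∈ T, C.rd P ∉ S)
    (hB : B.Finite) {fb : Fb} (h : ∀ P ∈ T, C.rd P ∉ B → value (C.rd P) fb = 0) : fb = 0 := by
  by_contra hfb0
  obtain ⟨P, hPT, hP⟩ := hT (B ∪ Function.support fun w : Place κ Fb => w.ord fb)
    (hB.union (finite_support fb))
  rw [Set.mem_union, not_or, Function.notMem_support] at hP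
  exact value_ne_zero_of_ord hfb0 hP.2 (h P hPT hP.1)

/-- criterion for rationality -/
theorem isRat_of_fam (hT : ∀ S : Set (Place κ Fb), S.Finite → ∃ P ∈ T, C.rd P ∉ S) (hB : B.Finite)
    (hfam : C.Fam B W Wb)
    (h : ∀ (n : ℕ) (P : Fin n → Place K F) (w : Fin n → S → F) (wb : Fin n → Fb),
      finrank κ Wb = n → C.Pivots T B Wb P → (∀ i s, w i s ∈ W s) → (∀ i, wb i ∈ Wb) →
      (∀ i j s, value (P j) (w i s) = if i = j then 1 else 0) →
      (∀ i j, value (C.rd (P j)) (wb i) = if i = j then 1 else 0) →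
      (∀ i s, G.R (w i s) (wb i)) → ∀ i, C.RatFun T B R (w i)) :
    C.IsRat T B R W Wb := by
  haveI := hfam.finb
  haveI := hfam.fin
  obtain ⟨P, hP⟩ := C.exists_pivots hT hB _ Wb rfl hfam.regb
  obtain ⟨wb, hwb, hwbv⟩ := C.exists_dualb hfam.regb rfl hP
  choose w hw hwv hwR using fun s => C.exists_dual (hfam.redIn s) (hfam.dim s) hP hwb hwbv hfam.regb
  exact ⟨_, P, fun i s => w s i, wb, hfam, hP, fun i s => hw s i, hwb, fun i j s => hwv s i j, hwbv,
    fun i s => hwR s i, h _ P (fun i s => w s i) wb rfl hP (fun i s => hw s i) hwb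
      (fun i j s => hwv s i j) hwbv (fun i s => hwR s i)⟩

/-- a rational family of bases -/
theorem isRat_of_basis (hT : ∀ S : Set (Place κ Fb), S.Finite → ∃ P ∈ T, C.rd P ∉ S)
    (hB : B.Finite) (hRR : ResRing π R) (hfam : C.Fam B W Wb) {ι : Type*} [Fintype ι]
    {f : ι → S → F} {fb : ι → Fb} (hf : ∀ i s, f i s ∈ W s) (hfR : ∀ i s, G.R (f i s) (fb i))
    (hfb : ∀ i, fb i ∈ Wb)
    (hind : LinearIndependent κ fb) (hcard : Fintype.card ι = finrank κ Wb)
    (hrat : ∀ i, C.RatFun T B R (f i)) : C.IsRat T B R W Wb := by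
  refine isRat_of_fam hT hB hfam fun n P w wb hn hP hw hwb hwv hwbv hwR j => ?_
  haveI := hfam.finb
  haveI := hfam.fin
  -- coordinates
  have hex : ∀ s, ∃ y : ι → K, w j s = ∑ i, y i • f i s := by
    intro s
    have h1 := linearIndependent_of_R (G := G) (fun i => hfR i s) hind
    have h2 : Submodule.span K (Set.range fun i => f i s) = W s := by
      apply Submodule.eq_of_le_of_finrank_eq
      · rw [Submodule.span_le]
        rintro _ ⟨i, rfl⟩
        exact hf i s
      · rw [finrank_span_eq_card h1, hcard, hfam.dim s]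
    have h3 := hw j s
    rw [← h2, Submodule.mem_span_range_iff_exists_fun] at h3
    obtain ⟨y, hy⟩ := h3
    exact ⟨y, hy.symm⟩
  choose y hy using hex
  have hyR : ∀ i, (fun s => y s i) ∈ R := by
    refine solve_mem hRR (fun (k : Fin n) i s => value (P k) (f i s))
      (fun k i => value (C.rd (P k)) (fb i)) (fun k i => ⟨hrat i _ (hP.mem k) (hP.out k), fun s => ?_⟩)
      (fun k _ => if j = k then 1 else 0) (fun k => ?_) (fun i s => y s i) (fun k => ?_) ?_
    · exact (((hfam.redIn s).reg _ (hf i s)).value_spec (hfR i s) (hP.out k)).2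
    · by_cases hjk : j = k
      · simp only [if_pos hjk]; exact one_mem _
      · simp only [if_neg hjk]; exact zero_mem _
    · funext s
      rw [Finset.sum_apply, ← hwv j k s, hy s,
        value_sum_smul _ _ _ fun i _ => (hfam.redIn s).reg _ (hf i s) _ (hP.out k)]
      exact Finset.sum_congr rfl fun i _ => mul_comm _ _
    · intro z hz
      have h1 : ∑ i, z i • fb i = 0 := by
        refine hP.inj _ (Submodule.sum_mem _ fun i _ => Wb.smul_mem _ (hfb i)) fun k => ?_
        rw [value_sum_smul _ _ _ fun i _ => hfam.regb _ (hfb i) _ (hP.out k)]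
        rw [← hz k]
        exact Finset.sum_congr rfl fun i _ => mul_comm _ _
      funext i
      exact Fintype.linearIndependent_iff.1 hind z h1 i
  intro P' hP' hP'B
  have h1 : (fun s => value P' (w j s)) = ∑ i, (fun s => y s i) * fun s => value P' (f i s) := by
    funext s
    rw [Finset.sum_apply, hy s,
      value_sum_smul _ _ _ fun i _ => (hfam.redIn s).reg _ (hf i s) _ hP'B]
    rfl
  rw [h1]
  exact sum_mem fun i _ => mul_mem (hyR i) (hrat i P' hP' hP'B)

end RedCurve

end Fermat.Agent.PicFlat
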