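import Fermat.Agent.PicFlat.Equal

/-!
# Reduction of curves: values, semicontinuity, equality of genera
-/

set_option autoImplicit false
set_option linter.unusedSectionVars false

noncomputable section

namespace Fermat.Agent.PicFlat

open Polynomial AlgebraicCurve Fermat.Agent.Curves Module IntermediateField WithZero
open Fermat.Agent.GoodRed

section Value

variable {k E : Type*} [Field k] [Field E] [Algebra k E] [IsFunctionField k E] [IsAlgClosed k]

/-- evaluation at a place as a linear map -/
def evL (Q : Place k E) (W : Submodule k E) (h : ∀ f ∈ W, f ∈ Q.toValuationSubring) : W →ₗ[k] k where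
  toFun f := value Q (f : E)
  map_add' f g := value_add Q (h f f.2) (h g g.2)
  map_smul' c f := by
    change value Q (c • (f : E)) = c * value Q (f : E)
    rw [Algebra.smul_def, value_mul_const Q c (h f f.2)]

theorem evL_apply (Q : Place k E) (W : Submodule k E) (h : ∀ f ∈ W, f ∈ Q.toValuationSubring)
    (f : W) : evL Q W h f = value Q (f : E) := rfl

theorem value_ne_zero_of_ord {Q : Place k E} {x : E} (hx0 : x ≠ 0) (hx : Q.ord x = 0) :
    value Q x ≠ 0 :=
  (value_ne_zero_iff_ord ((mem_iff_ord Q hx0).2 hx.ge)).2 ⟨hx0, hx⟩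

theorem value_eq_zero_of_ord {Q : Place k E} {x : E} (hx : 0 < Q.ord x) : value Q x = 0 := by
  have hx0 : x ≠ 0 := by rintro rfl; simp at hx
  by_contra hne
  have := ((value_ne_zero_iff_ord ((mem_iff_ord Q hx0).2 hx.le)).1 hne).2
  omega

theorem ord_pos_of_value {Q : Place k E} {x : E} (hx0 : x ≠ 0) (hx : x ∈ Q.toValuationSubring)
    (h : value Q x = 0) : 0 < Q.ord x := by
  have h1 := (mem_iff_ord Q hx0).1 hx
  rcases h1.eq_or_lt with h2 | h2
  · exact absurd h (value_ne_zero_of_ord hx0 h2.symm)
  · exact h2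

end Value

variable {K κ : Type*} [Field K] [Field κ] [IsAlgClosed K] [IsAlgClosed κ] {A : ValuationSubring K}
  {π : A →+* κ} [IsLocalHom π]
  {F Fb : Type*} [Field F] [Field Fb] [Algebra K F] [Algebra κ Fb]
  [IsFunctionField K F] [IsFunctionField κ Fb]
  {G : GaussRed A π F Fb}

/-- reduction of places compatible with the reduction of functions -/
structure RedCurve (G : GaussRed A π F Fb) where
  rd : Place K F → Place κ Fb
  rd_div : ∀ {f : F} {fb : Fb}, G.R f fb → fb ≠ 0 →
    Finsupp.mapDomain rd (divisorOf (k := K) f) = divisorOf (k := κ) fb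

namespace RedCurve

variable (C : RedCurve G)

/-- the reduction of divisors -/
def red : Divisor K F →+ Divisor κ Fb := Finsupp.mapDomain.addMonoidHom C.rd

theorem red_single (P : Place K F) (n : ℤ) :
    C.red (Finsupp.single P n) = Finsupp.single (C.rd P) n :=
  Finsupp.mapDomain_single

theorem red_div {f : F} {fb : Fb} (h : G.R f fb) (hfb : fb ≠ 0) :
    C.red (divisorOf f) = divisorOf fb := C.rd_div h hfb

open Classical in
theorem red_apply (D : Divisor K F) (Q : Place κ Fb) : C.red D Q =
    ∑ P ∈ D.support.filter (fun P => C.rd P = Q), D P := by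
  change (Finsupp.mapDomain C.rd D) Q = _
  rw [Finsupp.mapDomain, Finsupp.sum_apply, Finsupp.sum, Finset.sum_filter]
  refine Finset.sum_congr rfl fun P _ => ?_
  rw [Finsupp.single_apply]

theorem red_apply_nonneg {D : Divisor K F} {Q : Place κ Fb} (h : ∀ P, C.rd P = Q → 0 ≤ D P) :
    0 ≤ C.red D Q := by
  classical
  rw [red_apply]
  exact Finset.sum_nonneg fun P hP => h P (Finset.mem_filter.1 hP).2

theorem le_red_apply {D : Divisor K F} {P : Place K F}
    (h : ∀ P', C.rd P' = C.rd P → 0 ≤ D P') : D P ≤ C.red D (C.rd P) := by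
  classical
  rw [red_apply]
  by_cases hP : P ∈ D.support
  · exact Finset.single_le_sum (f := fun P => D P) (fun P' hP' => h P' (Finset.mem_filter.1 hP').2)
      (Finset.mem_filter.2 ⟨hP, rfl⟩)
  · rw [Finsupp.notMem_support_iff] at hP
    rw [hP]
    exact Finset.sum_nonneg fun P hP => h P (Finset.mem_filter.1 hP).2

theorem red_nonneg {D : Divisor K F} (h : 0 ≤ D) : 0 ≤ C.red D := fun _ =>
  C.red_apply_nonneg fun P _ => h P

theorem degree_red (D : Divisor K F) : Divisor.degree (C.red D) = Divisor.degree D := by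
  induction D using Finsupp.induction_linear with
  | zero => rw [map_zero, map_zero, map_zero]
  | add D E hD hE => rw [map_add, map_add, map_add, hD, hE]
  | single P n =>
    rw [red_single, Divisor.degree_single, Divisor.degree_single, deg_eq_one, deg_eq_one]

theorem red_eq_zero {D : Divisor K F} {Q : Place κ Fb} (h : ∀ P, C.rd P = Q → D P = 0) :
    C.red D Q = 0 := by
  classical
  rw [red_apply]
  exact Finset.sum_eq_zero fun P hP => h P (Finset.mem_filter.1 hP).2

/-- specialisation of values -/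
theorem value_spec {f : F} {fb : Fb} (hR : G.R f fb) {P : Place K F}
    (hreg : ∀ P', C.rd P' = C.rd P → f ∈ P'.toValuationSubring) :
    fb ∈ (C.rd P).toValuationSubring ∧ ∃ a : A, (a : K) = value P f ∧ π a = value (C.rd P) fb := by
  set Q := C.rd P with hQ
  set c := value P f with hc
  have hfP : f ∈ P.toValuationSubring := hreg P rfl
  -- key
  have key : ∀ {g : F} {gb : Fb}, G.R g gb → gb ≠ 0 → value P g = 0 →
      (∀ P', C.rd P' = Q → g ∈ P'.toValuationSubring) → 0 < Q.ord gb := by
    intro g gb hg hgb hv hgreg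
    have hg0 : g ≠ 0 := hg.ne_zero hgb
    have h1 : 0 < P.ord g := ord_pos_of_value hg0 (hgreg P rfl) hv
    have h2 := C.le_red_apply (D := divisorOf g) (P := P) fun P' hP' => by
      rw [divisorOf_apply]
      exact (mem_iff_ord P' hg0).1 (hgreg P' hP')
    rw [C.red_div hg hgb, divisorOf_apply, divisorOf_apply, ← hQ] at h2
    omega
  by_cases hcA : c ∈ A
  · set a : A := ⟨c, hcA⟩ with ha
    have hg : G.R (f - algebraMap K F a) (fb - algebraMap κ Fb (π a)) :=
      hR.sub (GaussRed.R.const G a)
    have hv : value P (f - algebraMap K F a) = 0 := by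
      rw [value_sub P hfP (P.algebraMap_mem' _), value_algebraMap, ← hc]
      exact sub_self _
    by_cases h0 : fb - algebraMap κ Fb (π a) = 0
    · rw [sub_eq_zero] at h0
      rw [h0]
      exact ⟨Q.algebraMap_mem' _, a, rfl, (value_algebraMap Q _).symm⟩
    · have h1 := key hg h0 hv fun P' hP' => sub_mem (hreg P' hP') (P'.algebraMap_mem' _)
      have h2 : fb - algebraMap κ Fb (π a) ∈ Q.toValuationSubring := (mem_iff_ord Q h0).2 h1.le
      have h3 : fb ∈ Q.toValuationSubring := by
        have := add_mem h2 (Q.algebraMap_mem' (π a))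
        rwa [sub_add_cancel] at this
      refine ⟨h3, a, rfl, ?_⟩
      have h4 := value_eq_zero_of_ord h1
      rw [value_sub Q h3 (Q.algebraMap_mem' _), value_algebraMap, sub_eq_zero] at h4
      exact h4.symm
  · exfalso
    have hc0 : c ≠ 0 := by rintro h0; rw [h0] at hcA; exact hcA (zero_mem _)
    have hg : G.R (algebraMap K F c⁻¹ * f - 1) (-1) := by
      have h1 := ((GaussRed.R.const G ⟨c⁻¹, GaussRed.inv_mem_of_not_mem hcA⟩).mul hR).sub
        (GaussRed.R.one G)
      rwa [GaussRed.π_inv_eq_zero hcA, map_zero, zero_mul, zero_sub] at h1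
    have hv : value P (algebraMap K F c⁻¹ * f - 1) = 0 := by
      rw [value_sub P (mul_mem (P.algebraMap_mem' _) hfP) (one_mem _), value_mul_const P _ hfP,
        value_one, ← hc, inv_mul_cancel₀ hc0, sub_self]
    have h1 := key hg (neg_ne_zero.2 one_ne_zero) hv fun P' hP' =>
      sub_mem (mul_mem (P'.algebraMap_mem' _) (hreg P' hP')) (one_mem _)
    rw [ord_neg, Place.ord_one] at h1
    exact lt_irrefl _ h1

theorem exists_div_support {f : F} {fb : Fb} (h : G.R f fb) (hfb : fb ≠ 0) {Q : Place κ Fb}
    (hQ : Q.ord fb ≠ 0) : ∃ P, C.rd P = Q := by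
  classical
  by_contra hcon
  push Not at hcon
  apply hQ
  rw [← divisorOf_apply, ← C.red_div h hfb]
  exact C.red_eq_zero fun P hP => absurd hP (hcon P)

theorem rd_surjective : Function.Surjective C.rd := by
  intro Q
  obtain ⟨fb, hfb0, hfb⟩ := exists_ord_eq Q 1
  obtain ⟨f, hf⟩ := G.surj fb
  exact C.exists_div_support (f := (f : F)) ⟨f.2, hf⟩ hfb0 (by omega)

/-- `P` is a system of test points for `Wb` -/
structure Pivots (T : Set (Place K F)) (B : Set (Place κ Fb)) (Wb : Submodule κ Fb) {n : ℕ}
    (P : Fin n → Place K F) : Prop where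
  mem : ∀ i, P i ∈ T
  out : ∀ i, C.rd (P i) ∉ B
  inj : ∀ fb ∈ Wb, (∀ i, value (C.rd (P i)) fb = 0) → fb = 0

theorem exists_pivots {T : Set (Place K F)} (hT : ∀ S : Set (Place κ Fb), S.Finite →
    ∃ P ∈ T, C.rd P ∉ S) {B : Set (Place κ Fb)} (hB : B.Finite) :
    ∀ (n : ℕ) (Wb : Submodule κ Fb) [FiniteDimensional κ Wb], finrank κ Wb = n →
      (∀ fb ∈ Wb, ∀ Q, Q ∉ B → fb ∈ Q.toValuationSubring) →
      ∃ P : Fin n → Place K F, C.Pivots T B Wb P := by
  intro n
  induction n with
  | zero =>
    intro Wb _ hn _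
    refine ⟨Fin.elim0, fun i => i.elim0, fun i => i.elim0, fun fb hfb _ => ?_⟩
    rw [Submodule.finrank_eq_zero] at hn
    rw [hn] at hfb
    exact (Submodule.mem_bot κ).1 hfb
  | succ n ih =>
    intro Wb _ hn hreg
    obtain ⟨fb, hfb, hfb0⟩ := Submodule.exists_mem_ne_zero_of_ne_bot
      (fun h : Wb = ⊥ => by rw [h, finrank_bot] at hn; omega)
    obtain ⟨P, hPT, hP⟩ := hT (B ∪ Function.support fun w : Place κ Fb => w.ord fb)
      (hB.union (finite_support fb))
    rw [Set.mem_union, not_or, Function.notMem_support] at hP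
    have hreg' : ∀ f ∈ Wb, f ∈ (C.rd P).toValuationSubring := fun f hf => hreg f hf _ hP.1
    let φ := evL (C.rd P) Wb hreg'
    have hφ : φ ≠ 0 := by
      intro h0
      have h1 : φ ⟨fb, hfb⟩ = 0 := by rw [h0]; rfl
      exact value_ne_zero_of_ord hfb0 hP.2 h1
    have hker : finrank κ φ.ker = n := by
      have h1 := LinearMap.finrank_range_add_finrank_ker φ
      have h2 : φ.range = ⊤ := by
        rcases LinearMap.surjective_or_eq_zero φ with h | h
        · exact LinearMap.range_eq_top.2 h
        · exact absurd h hφ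
      rw [h2, finrank_top, finrank_self, hn] at h1
      omega
    let W' : Submodule κ Fb := φ.ker.map Wb.subtype
    have hW' : finrank κ W' = n := by
      rw [← hker]
      exact LinearEquiv.finrank_eq (Submodule.equivMapOfInjective _ Wb.injective_subtype _).symm
    have hW'le : ∀ f ∈ W', f ∈ Wb ∧ value (C.rd P) f = 0 := by
      rintro _ ⟨g, hg, rfl⟩
      exact ⟨g.2, hg⟩
    obtain ⟨Ps, hPs⟩ := ih W' hW' fun f hf Q hQ => hreg f (hW'le f hf).1 Q hQ
    refine ⟨Fin.cons P Ps, ?_, ?_, ?_⟩
    · intro i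
      refine Fin.cases ?_ (fun i => ?_) i
      · exact hPT
      · exact hPs.mem i
    · intro i
      refine Fin.cases ?_ (fun i => ?_) i
      · exact hP.1
      · exact hPs.out i
    · intro f hf h
      refine hPs.inj f ⟨⟨f, hf⟩, ?_, rfl⟩ fun i => ?_
      · exact h 0
      · exact h i.succ

/-- a function is regular outside `B` -/
def Reg (B : Set (Place κ Fb)) (f : F) : Prop := ∀ P, C.rd P ∉ B → f ∈ P.toValuationSubring

variable {C} in
theorem Reg.value_spec {B : Set (Place κ Fb)} {f : F} (h : C.Reg B f) {fb : Fb} (hR : G.R f fb)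
    {P : Place K F} (hP : C.rd P ∉ B) : fb ∈ (C.rd P).toValuationSubring ∧
      ∃ a : A, (a : K) = value P f ∧ π a = value (C.rd P) fb :=
  C.value_spec hR fun P' hP' => h P' (by rwa [hP'])

/-- the family `W` reduces into `Wb` -/
structure RedIn (B : Set (Place κ Fb)) (W : Submodule K F) (Wb : Submodule κ Fb) : Prop where
  red : ∀ f ∈ W, ∀ fb, G.R f fb → fb ∈ Wb
  reg : ∀ f ∈ W, C.Reg B f

theorem eq_zero_of_pivots {B : Set (Place κ Fb)} {W : Submodule K F} {Wb : Submodule κ Fb}
    (h : C.RedIn B W Wb) {T : Set (Place K F)} {n : ℕ} {P : Fin n → Place K F}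
    (hP : C.Pivots T B Wb P) {f : F} (hf : f ∈ W) (h0 : ∀ i, value (P i) f = 0) : f = 0 := by
  by_contra hf0
  obtain ⟨c, hc, hm, hne⟩ := G.scale f hf0
  have hR : G.R (algebraMap K F c * f) (G.red ⟨_, hm⟩) := ⟨hm, rfl⟩
  have hcf : algebraMap K F c * f ∈ W := by
    rw [← Algebra.smul_def]
    exact W.smul_mem c hf
  apply hne
  refine hP.inj _ (h.red _ hcf _ hR) fun i => ?_
  obtain ⟨-, a, ha, ha'⟩ := (h.reg _ hcf).value_spec hR (hP.out i)
  rw [value_mul_const (P i) c (h.reg f hf _ (hP.out i)), h0 i, mul_zero] at ha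
  rw [← ha', show a = 0 from Subtype.ext ha, map_zero]

theorem finrank_le {B : Set (Place κ Fb)} {W : Submodule K F} {Wb : Submodule κ Fb}
    [FiniteDimensional K W] (h : C.RedIn B W Wb) {T : Set (Place K F)} {n : ℕ}
    {P : Fin n → Place K F} (hP : C.Pivots T B Wb P) : finrank K W ≤ n := by
  let φ : W →ₗ[K] (Fin n → K) := LinearMap.pi fun i => evL (P i) W fun f hf => h.reg f hf _ (hP.out i)
  have hφ : Function.Injective φ := by
    rw [injective_iff_map_eq_zero]
    intro f hf
    apply Subtype.ext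
    exact C.eq_zero_of_pivots h hP f.2 fun i => congrFun hf i
  have := LinearMap.finrank_le_finrank_of_injective hφ
  rwa [finrank_fin_fun] at this

/-- divisors supported (up to reduction) in `B` -/
def Adm (B : Set (Place κ Fb)) (D : Divisor K F) : Prop := ∀ P, C.rd P ∉ B → D P = 0

theorem redIn_riemannRoch {B : Set (Place κ Fb)} {D : Divisor K F} (hD : C.Adm B D) :
    C.RedIn B (riemannRochSpace D) (riemannRochSpace (C.red D)) where
  red f hf fb hR := by
    rcases eq_or_ne fb 0 with rfl | hfb
    · exact Submodule.zero_mem _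
    have hf0 : f ≠ 0 := hR.ne_zero hfb
    rw [mem_iff_div hfb, ← C.red_div hR hfb, ← map_add]
    exact C.red_nonneg ((mem_iff_div hf0).1 hf)
  reg f hf P hP := by
    rcases eq_or_ne f 0 with rfl | hf0
    · exact zero_mem _
    rw [mem_iff_ord P hf0]
    have := (mem_iff_of_ne hf0).1 hf P
    rwa [hD P hP, add_zero] at this

theorem adm_of_image {B : Set (Place κ Fb)} {D : Divisor K F} (h : ∀ P ∈ D.support, C.rd P ∈ B) :
    C.Adm B D := by
  intro P hP
  by_contra hne
  exact hP (h P (Finsupp.mem_support_iff.2 hne))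

theorem regb_riemannRoch {B : Set (Place κ Fb)} {D : Divisor K F} (hD : C.Adm B D) :
    ∀ fb ∈ riemannRochSpace (C.red D), ∀ Q, Q ∉ B → fb ∈ Q.toValuationSubring := by
  intro fb hfb Q hQ
  rcases eq_or_ne fb 0 with rfl | hf0
  · exact zero_mem _
  rw [mem_iff_ord Q hf0]
  have := (mem_iff_of_ne hf0).1 hfb Q
  rwa [C.red_eq_zero fun P hP => hD P (by rwa [hP]), add_zero] at this

/-- infinitely many places -/
theorem exists_place_notMem {k E : Type*} [Field k] [Field E] [Algebra k E] [IsFunctionField k E]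
    [IsAlgClosed k] (S : Set (Place k E)) (hS : S.Finite) : ∃ P : Place k E, P ∉ S := by
  classical
  obtain ⟨x, hx, -⟩ := (inferInstance : IsFunctionField k E).1
  have hx : Transcendental k x := hx
  have : Infinite k := IsAlgClosed.instInfinite
  by_contra hcon
  push Not at hcon
  -- the values of `x`
  have hinj : (Set.univ : Set k) ⊆ (fun P : Place k E => value P x) '' S := by
    intro c _
    have h1 : Transcendental k (x - algebraMap k E c) := by
      intro h
      apply hx
      have := h.add (isAlgebraic_algebraMap c)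
      rwa [sub_add_cancel] at this
    obtain ⟨P, hP⟩ := exists_ord_pos_of_transcendental h1
    refine ⟨P, hcon P, ?_⟩
    have h2 := value_eq_zero_of_ord hP
    have h3 : x - algebraMap k E c ≠ 0 := by rintro h0; rw [h0] at hP; simp at hP
    have h4 : x - algebraMap k E c ∈ P.toValuationSubring := (mem_iff_ord P h3).2 hP.le
    have h5 : x ∈ P.toValuationSubring := by
      have := add_mem h4 (P.algebraMap_mem' c)
      rwa [sub_add_cancel] at this
    rw [value_sub P h5 (P.algebraMap_mem' c), value_algebraMap, sub_eq_zero] at h2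
    exact h2
  exact Set.infinite_univ ((hS.image _).subset hinj)

/-- semicontinuity -/
theorem ell_le (D : Divisor K F) : ell D ≤ ell (C.red D) := by
  classical
  set B : Set (Place κ Fb) := C.rd '' (D.support : Set (Place K F)) with hB
  have hD : C.Adm B D := C.adm_of_image fun P hP => ⟨P, hP, rfl⟩
  obtain ⟨P, hP⟩ := C.exists_pivots (T := Set.univ) (fun S hS => by
    obtain ⟨Q, hQ⟩ := exists_place_notMem S hS
    obtain ⟨P, rfl⟩ := C.rd_surjective Q
    exact ⟨P, trivial, hQ⟩) (D.support.finite_toSet.image C.rd) _ (riemannRochSpace (C.red D)) rfl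
    (C.regb_riemannRoch hD)
  exact C.finrank_le (C.redIn_riemannRoch hD) hP

end RedCurve

variable {t : F} {tb : Fb}

/-- the reduction data given by good charts -/
def ofCharts (h1 : GoodChart G t tb) (h2 : GoodChart G t⁻¹ tb⁻¹) : RedCurve G where
  rd := redPlace h1 h2
  rd_div h hfb := redDiv_divisorOf h1 h2 h hfb

/-- equality of the genera -/
theorem exists_RR_both (h1 : GoodChart G t tb) (h2 : GoodChart G t⁻¹ tb⁻¹) (hr : RankOne π) :
    ∃ g c : ℤ, RR K F g c ∧ RR κ Fb g c := by
  obtain ⟨g, c, hK⟩ := exists_RR (k := K) (F := F)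
  obtain ⟨g', c', hκ⟩ := exists_RR (k := κ) (F := Fb)
  obtain ⟨m₀, hm₀⟩ := lift_large h1 h2 hr
  have hdeg1 : Divisor.degree (poleDivisor (k := K) t) = Divisor.degree (poleDivisor (k := κ) tb) := by
    rw [degree_poleDivisor h1.tr, degree_poleDivisor h1.trb, h1.finrank_eq]
  have hpos : 0 < Divisor.degree (poleDivisor (k := K) t) := by
    have := finiteDimensional_adjoin_simple (k := K) h1.tr
    rw [degree_poleDivisor h1.tr]
    exact_mod_cast Module.finrank_pos (R := K⟮t⟯) (M := F)
  set d := Divisor.degree (poleDivisor (k := K) t) with hd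
  obtain ⟨m, hm0, hm1⟩ : ∃ m : ℕ, m₀ ≤ m ∧ max c c' ≤ m * d := by
    refine ⟨m₀ + (max c c').toNat, by omega, ?_⟩
    have h3 := Int.self_le_toNat (max c c')
    push_cast
    nlinarith [Int.natCast_nonneg m₀, Int.natCast_nonneg (max c c').toNat]
  have e1 : Divisor.degree (m • poleDivisor (k := K) t) = m * d := by
    rw [map_nsmul, nsmul_eq_mul]
  have e2 : Divisor.degree (m • poleDivisor (k := κ) tb) = m * d := by
    rw [map_nsmul, nsmul_eq_mul, ← hdeg1]
  have h3 := hK.eq (m • poleDivisor t) (by rw [e1]; exact (le_max_left _ _).trans hm1)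
  have h4 := hκ.eq (m • poleDivisor tb) (by rw [e2]; exact (le_max_right _ _).trans hm1)
  rw [e1] at h3
  rw [e2] at h4
  have h5 := finrank_le_of_lift (G := G) (W := riemannRochSpace (m • poleDivisor (k := K) t))
    (Wb := riemannRochSpace (m • poleDivisor (k := κ) tb)) fun fb hfb => by
      obtain ⟨f, hf, hR⟩ := hm₀ m hm0 fb hfb
      exact ⟨f, hf, hR⟩
  change ell (m • poleDivisor (k := κ) tb) ≤ ell (m • poleDivisor (k := K) t) at h5
  have h6 := (ofCharts h1 h2).ell_le (m • poleDivisor (k := K) t)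
  have h7 := hκ.eq ((ofCharts h1 h2).red (m • poleDivisor (k := K) t)) (by
    rw [RedCurve.degree_red, e1]; exact (le_max_right _ _).trans hm1)
  rw [RedCurve.degree_red, e1] at h7
  have hgg : g = g' := by omega
  subst hgg
  exact ⟨g, max c c', hK.mono (le_max_left _ _), hκ.mono (le_max_right _ _)⟩

end Fermat.Agent.PicFlat
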