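import Fermat.Agent.PicFlat.LocOrd

/-!
# The local Hopf order of a finite group of divisor classes
-/

set_option autoImplicit false
set_option linter.unusedSectionVars false
set_option linter.unusedDecidableInType false
set_option linter.style.haveILetI false

noncomputable section

namespace Fermat.Agent.PicFlat

open Polynomial AlgebraicCurve Fermat.Agent.Curves Module IntermediateField WithZero
open Fermat.Agent.GoodRed
open scoped Pointwise

variable {K κ : Type*} [Field K] [Field κ] [IsAlgClosed K] [IsAlgClosed κ] {A : ValuationSubring K}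
  {π : A →+* κ} [IsLocalHom π]
  {F Fb : Type*} [Field F] [Field Fb] [Algebra K F] [Algebra κ Fb]
  [IsFunctionField K F] [IsFunctionField κ Fb]
  {G : GaussRed A π F Fb}

theorem Lin.red (C : RedCurve G) {D D' : Divisor K F} (h : Lin D D') :
    Lin (C.red D) (C.red D') := by
  obtain ⟨f, hf, rfl⟩ := h
  obtain ⟨c, hc, hm, hne⟩ := G.scale f hf
  have hR : G.R (algebraMap K F c * f) (G.red ⟨_, hm⟩) := ⟨hm, rfl⟩
  have hdiv : divisorOf (k := K) f = divisorOf (algebraMap K F c * f) := by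
    ext v
    rw [divisorOf_apply, divisorOf_apply, v.ord_mul (by simpa using hc) hf, ord_algebraMap,
      zero_add]
  exact ⟨_, hne, by rw [map_add, hdiv, C.red_div hR hne]⟩

/-- a finite group of divisor classes with a group action, and a nonspecial divisor -/
structure TorData (C : RedCurve G) {Γ : Type*} [Group Γ] (M : GalAct G Γ) (g c : ℤ)
    (X : Type*) [AddCommGroup X] [MulAction Γ X] where
  rep : X → Divisor K F
  deg : ∀ x, Divisor.degree (rep x) = 0
  add : ∀ x y, Lin (rep (x + y)) (rep x + rep y)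
  inj : ∀ x y, Lin (rep x) (rep y) → x = y
  act : ∀ γ x, Lin (rep (γ • x)) (M.ρ γ • rep x)
  hK : RR K F g c
  hκ : RR κ Fb g c
  hT : ∀ S : Set (Place κ Fb), S.Finite → ∃ P ∈ M.fixPl, C.rd P ∉ S
  e : Divisor K F
  e_fix : ∀ γ, M.ρ γ • e = e
  e_deg : Divisor.degree e = g
  e_ell : ∀ x, ell (C.red (rep x) + C.red e) = 1
  m : Divisor K F
  m_fix : ∀ γ, M.ρ γ • m = m
  m_deg : max (c + 1 + g) 1 ≤ Divisor.degree m

namespace TorData

variable {C : RedCurve G} {Γ : Type*} [Group Γ] {M : GalAct G Γ} {g c : ℤ}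
  {X : Type*} [AddCommGroup X] [MulAction Γ X] (t : TorData C M g c X)

theorem ell_rep (x : X) : ell (t.rep x + t.e) = 1 := by
  have h1 := t.hK.le (t.rep x + t.e)
  rw [map_add, t.deg, t.e_deg] at h1
  have h2 := C.ell_le (t.rep x + t.e)
  rw [map_add, t.e_ell] at h2
  omega

theorem exists_eff (x : X) : ∃ E : Divisor K F, 0 ≤ E ∧ Lin E (t.rep x + t.e) := by
  have h1 : 0 < ell (t.rep x + t.e) := by rw [t.ell_rep]; exact one_pos
  obtain ⟨f, hf0, hf⟩ := exists_mem_of_finrank_pos h1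
  exact ⟨divisorOf f + (t.rep x + t.e), hf, f, hf0, rfl⟩

/-- the effective divisor in the class of `x + e` -/
def E (x : X) : Divisor K F := (t.exists_eff x).choose

theorem E_nonneg (x : X) : 0 ≤ t.E x := (t.exists_eff x).choose_spec.1

theorem E_lin (x : X) : Lin (t.E x) (t.rep x + t.e) := (t.exists_eff x).choose_spec.2

theorem E_unique {x : X} {D : Divisor K F} (hD : 0 ≤ D) (h : Lin D (t.rep x + t.e)) :
    D = t.E x := eff_unique (t.ell_rep x) hD (t.E_nonneg x) h (t.E_lin x)

theorem E_smul (γ : Γ) (x : X) : t.E (γ • x) = M.ρ γ • t.E x := by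
  refine (t.E_unique (nonneg_smul _ (t.E_nonneg x)) ?_).symm
  refine ((t.E_lin x).smul (M.ρ γ)).trans ?_
  rw [smul_add, t.e_fix]
  exact (t.act γ x).symm.add (Lin.refl _)

theorem E_inj {x y : X} (h : t.E x = t.E y) : x = y := by
  apply t.inj
  have h1 := (t.E_lin x).symm.trans (h ▸ t.E_lin y)
  have h2 := h1.sub (Lin.refl t.e)
  rwa [add_sub_cancel_right, add_sub_cancel_right] at h2

/-- the reduction -/
def Eb (x : X) : Divisor κ Fb := C.red (t.E x)

theorem Eb_nonneg (x : X) : 0 ≤ t.Eb x := C.red_nonneg (t.E_nonneg x)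

theorem Eb_lin (x : X) : Lin (t.Eb x) (C.red (t.rep x) + C.red t.e) := by
  have := (t.E_lin x).red C
  rwa [map_add] at this

theorem Eb_smul (γ : Γ) (x : X) : t.Eb (γ • x) = t.Eb x := by
  rw [Eb, t.E_smul, M.red_smul' C]
  rfl

theorem degree_E (x : X) : Divisor.degree (t.E x) = g := by
  rw [(t.E_lin x).degree_eq, map_add, t.deg, t.e_deg, zero_add]

/-- the divisor family of sums -/
theorem E_add_lin (x y : X) : Lin (t.E (x + y)) (t.E x + t.E y - t.e) := by
  refine (t.E_lin (x + y)).trans ?_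
  have h1 := ((t.E_lin x).add (t.E_lin y)).sub (Lin.refl t.e)
  have h2 : t.rep x + t.e + (t.rep y + t.e) - t.e = t.rep x + t.rep y + t.e := by abel
  rw [h2] at h1
  exact ((t.add x y).add (Lin.refl _)).trans h1.symm

theorem Eb_add_lin (x y : X) : Lin (t.Eb (x + y)) (t.Eb x + t.Eb y - C.red t.e) := by
  have := (t.E_add_lin x y).red C
  rwa [map_sub, map_add] at this

theorem ell_Eb_add (x y : X) : ell (t.Eb x + t.Eb y - C.red t.e) = 1 := by
  rw [← (t.Eb_add_lin x y).ell_eq, (t.Eb_lin _).ell_eq]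
  exact t.e_ell _

theorem ell_E_add (x y : X) : ell (t.E x + t.E y - t.e) = 1 := by
  rw [← (t.E_add_lin x y).ell_eq, (t.E_lin _).ell_eq]
  exact t.ell_rep _

theorem Eb_add {x y x' y' : X} (hx : t.Eb x = t.Eb x') (hy : t.Eb y = t.Eb y') :
    t.Eb (x + y) = t.Eb (x' + y') := by
  refine eff_unique (t.ell_Eb_add x y) (t.Eb_nonneg _) (t.Eb_nonneg _) (t.Eb_add_lin x y) ?_
  rw [hx, hy]
  exact t.Eb_add_lin x' y'

/-- the bad places -/
def B : Set (Place κ Fb) := (⋃ x, ((t.Eb x).support : Set (Place κ Fb))) ∪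
  (C.rd '' (t.e.support : Set (Place K F))) ∪ (C.rd '' (t.m.support : Set (Place K F)))

theorem B_finite [Finite X] : t.B.Finite :=
  ((Set.finite_iUnion fun _ => Finset.finite_toSet _).union
    ((Finset.finite_toSet _).image _)).union ((Finset.finite_toSet _).image _)

theorem Eb_B (x : X) {Q : Place κ Fb} (hQ : Q ∉ t.B) : t.Eb x Q = 0 := by
  by_contra hne
  exact hQ (Or.inl (Or.inl (Set.mem_iUnion.2 ⟨x, Finsupp.mem_support_iff.2 hne⟩)))

theorem E_adm (x : X) : C.Adm t.B (t.E x) := by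
  intro P hP
  have h1 := C.le_red_apply (D := t.E x) (P := P) fun P' _ => t.E_nonneg x P'
  have h2 := t.Eb_B x hP
  rw [Eb] at h2
  rw [h2] at h1
  exact le_antisymm h1 (t.E_nonneg x P)

theorem e_adm : C.Adm t.B t.e :=
  C.adm_of_image fun P hP => Or.inl (Or.inr ⟨P, hP, rfl⟩)

theorem m_adm : C.Adm t.B t.m :=
  C.adm_of_image fun P hP => Or.inr ⟨P, hP, rfl⟩

theorem e_mem : t.e ∈ M.fixDiv C t.B := ⟨t.e_fix, t.e_adm⟩

theorem m_mem : t.m ∈ M.fixDiv C t.B := ⟨t.m_fix, t.m_adm⟩

theorem m_pos : 0 < Divisor.degree t.m := by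
  have := t.m_deg
  have h2 := le_max_right (c + 1 + g) 1
  omega

theorem m_deg' : c + 1 + g ≤ Divisor.degree t.m := (le_max_left _ _).trans t.m_deg

/-- the space `L(m - E x)` -/
def W (x : X) : Submodule K F := riemannRochSpace (t.m + -t.E x)

/-- its reduction -/
def Wb (d : Divisor κ Fb) : Submodule κ Fb := riemannRochSpace (C.red t.m + -d)

theorem ell_W (x : X) : ell (t.m + -t.E x) = ell (C.red t.m + -t.Eb x) := by
  have h1 := t.hK.eq (t.m + -t.E x) (by
    rw [map_add, map_neg, t.degree_E]; have := t.m_deg'; omega)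
  have h2 := t.hκ.eq (C.red t.m + -t.Eb x) (by
    rw [map_add, map_neg, Eb, C.degree_red, C.degree_red, t.degree_E]; have := t.m_deg'; omega)
  rw [map_add, map_neg] at h1 h2
  rw [Eb, C.degree_red, C.degree_red] at h2
  rw [← Eb] at h2
  omega

theorem redIn_W (x : X) : C.RedIn t.B (t.W x) (t.Wb (t.Eb x)) := by
  have := C.redIn_riemannRoch (t.m_adm.add (t.E_adm x).neg)
  rw [map_add, map_neg] at this
  exact this

theorem regb_W (x : X) : ∀ fb ∈ t.Wb (t.Eb x), ∀ Q, Q ∉ t.B → fb ∈ Q.toValuationSubring := by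
  have := C.regb_riemannRoch (t.m_adm.add (t.E_adm x).neg)
  rw [map_add, map_neg] at this
  exact this

open Classical in
/-- the generating functions -/
def Gen : Set (X → K) := {h | ∃ (d : Divisor κ Fb) (n : ℕ) (P : Fin n → Place K F)
    (w : Fin n → X → F) (wb : Fin n → Fb) (i : Fin n) (P' : Place K F),
    C.Pivots M.fixPl t.B (t.Wb d) P ∧
    (∀ x, t.Eb x = d → ∀ i, w i x ∈ t.W x) ∧
    (∀ x, t.Eb x = d → ∀ i j, value (P j) (w i x) = if i = j then 1 else 0) ∧
    (∀ x, t.Eb x = d → ∀ i, G.R (w i x) (wb i)) ∧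
    P' ∈ M.fixPl ∧ C.rd P' ∉ t.B ∧ h = fun x => if t.Eb x = d then value P' (w i x) else 0}

open Classical in
/-- the idempotents -/
def idem (d : Divisor κ Fb) : X → K := fun x => if t.Eb x = d then 1 else 0

/-- the generators -/
def gens : Set (X → K) := {h | ∃ a, M.Fix a ∧ h = fun _ => a} ∪ Set.range t.idem ∪ t.Gen

/-- **the local order** -/
def H : Subring (X → K) := Subring.closure t.gens

theorem const_mem {a : K} (ha : M.Fix a) : (fun _ => a) ∈ t.H :=
  Subring.subset_closure (Or.inl (Or.inl ⟨a, ha, rfl⟩))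

theorem idem_mem (d : Divisor κ Fb) : t.idem d ∈ t.H :=
  Subring.subset_closure (Or.inl (Or.inr ⟨d, rfl⟩))

theorem gen_mem {h : X → K} (hh : h ∈ t.Gen) : h ∈ t.H := Subring.subset_closure (Or.inr hh)

/-- constant residues on residue classes -/
theorem exists_res {h : X → K} (hh : h ∈ t.H) (d : Divisor κ Fb) :
    ∃ c : κ, ∀ x, t.Eb x = d → ∃ a : A, (a : K) = h x ∧ π a = c := by
  classical
  unfold H at hh
  induction hh using Subring.closure_induction with
  | mem h hh =>
    rcases hh with (⟨a, ha, rfl⟩ | ⟨d', rfl⟩) | ⟨d', n, P, w, wb, i, P', hP, hw, hwv, hwR, hP', hB, rfl⟩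
    · exact ⟨π ⟨a, ha.1⟩, fun x _ => ⟨⟨a, ha.1⟩, rfl, rfl⟩⟩
    · refine ⟨if d = d' then 1 else 0, fun x hx => ?_⟩
      by_cases hdd : d = d'
      · exact ⟨1, by rw [idem, if_pos (hx.trans hdd)]; rfl, by rw [if_pos hdd, map_one]⟩
      · exact ⟨0, by rw [idem, if_neg (fun h => hdd (hx.symm.trans h))]; rfl, by
          rw [if_neg hdd, map_zero]⟩
    · by_cases hdd : d = d'
      · subst hdd
        refine ⟨value (C.rd P') (wb i), fun x hx => ?_⟩
        simp only [if_pos hx]
        exact (((t.redIn_W x).reg _ (hw x hx i)).value_spec (hwR x hx i) hB).2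
      · refine ⟨0, fun x hx => ⟨0, ?_, map_zero π⟩⟩
        simp only [if_neg (fun h => hdd (hx.symm.trans h) : ¬ t.Eb x = d')]
        rfl
  | zero => exact ⟨0, fun x _ => ⟨0, rfl, map_zero π⟩⟩
  | one => exact ⟨1, fun x _ => ⟨1, rfl, map_one π⟩⟩
  | add h h' _ _ ih ih' =>
    obtain ⟨c, hc⟩ := ih
    obtain ⟨c', hc'⟩ := ih'
    refine ⟨c + c', fun x hx => ?_⟩
    obtain ⟨a, ha, hac⟩ := hc x hx
    obtain ⟨a', ha', hac'⟩ := hc' x hx
    exact ⟨a + a', by rw [Pi.add_apply, ← ha, ← ha']; rfl, by rw [map_add, hac, hac']⟩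
  | neg h _ ih =>
    obtain ⟨c, hc⟩ := ih
    refine ⟨-c, fun x hx => ?_⟩
    obtain ⟨a, ha, hac⟩ := hc x hx
    exact ⟨-a, by rw [Pi.neg_apply, ← ha]; rfl, by rw [map_neg, hac]⟩
  | mul h h' _ _ ih ih' =>
    obtain ⟨c, hc⟩ := ih
    obtain ⟨c', hc'⟩ := ih'
    refine ⟨c * c', fun x hx => ?_⟩
    obtain ⟨a, ha, hac⟩ := hc x hx
    obtain ⟨a', ha', hac'⟩ := hc' x hx
    exact ⟨a * a', by rw [Pi.mul_apply, ← ha, ← ha']; rfl, by rw [map_mul, hac, hac']⟩

theorem val_mem {h : X → K} (hh : h ∈ t.H) (x : X) : h x ∈ A := by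
  obtain ⟨c, hc⟩ := t.exists_res hh (t.Eb x)
  obtain ⟨a, ha, -⟩ := hc x rfl
  rw [← ha]
  exact a.2

/-- equivariance -/
theorem equiv {h : X → K} (hh : h ∈ t.H) (γ : Γ) (x : X) :
    h (γ • x) = SemilinearAut.baseAut (M.ρ γ) (h x) := by
  classical
  unfold H at hh
  induction hh using Subring.closure_induction with
  | mem h hh =>
    rcases hh with (⟨a, ha, rfl⟩ | ⟨d', rfl⟩) | ⟨d', n, P, w, wb, i, P', hP, hw, hwv, hwR, hP', hB, rfl⟩
    · exact (ha.2 γ).symm
    · rw [idem, idem, t.Eb_smul]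
      by_cases hd : t.Eb x = d'
      · rw [if_pos hd, map_one]
      · rw [if_neg hd, map_zero]
    · change (if t.Eb (γ • x) = d' then value P' (w i (γ • x)) else 0) =
        SemilinearAut.baseAut (M.ρ γ) (if t.Eb x = d' then value P' (w i x) else 0)
      rw [t.Eb_smul]
      by_cases hd : t.Eb x = d'
      · rw [if_pos hd, if_pos hd]
        have hd' : t.Eb (γ • x) = d' := by rw [t.Eb_smul, hd]
        have hreg := (t.redIn_W x).reg _ (hw x hd i)
        have hred := t.redIn_W (γ • x)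
        rw [hd'] at hred
        have h1 : M.ρ γ • w i x ∈ t.W (γ • x) := by
          have h2 := smul_mem_riemannRoch (M.ρ γ) (hw x hd i)
          rw [smul_add, smul_neg, t.m_fix, ← t.E_smul] at h2
          exact h2
        have h2 : M.ρ γ • w i x = w i (γ • x) := by
          rw [← sub_eq_zero]
          refine C.eq_zero_of_pivots hred hP (Submodule.sub_mem _ h1 (hw _ hd' i)) fun j => ?_
          rw [value_sub _ (hred.reg _ h1 _ (hP.out j)) (hred.reg _ (hw _ hd' i) _ (hP.out j)),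
            hwv _ hd']
          have h3 := value_smul_act (M.ρ γ) (P j) (hreg _ (hP.out j))
          rw [hP.mem j γ, hwv x hd] at h3
          rw [h3]
          split_ifs
          · rw [map_one, sub_self]
          · rw [map_zero, sub_self]
        have h3 := value_smul_act (M.ρ γ) P' (hreg _ hB)
        rw [hP' γ, h2] at h3
        exact h3
      · rw [if_neg hd, if_neg hd, map_zero]
  | zero => exact (map_zero _).symm
  | one => exact (map_one _).symm
  | add h h' _ _ ih ih' => rw [Pi.add_apply, Pi.add_apply, ih, ih', map_add]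
  | neg h _ ih => rw [Pi.neg_apply, Pi.neg_apply, ih, map_neg]
  | mul h h' _ _ ih ih' => rw [Pi.mul_apply, Pi.mul_apply, ih, ih', map_mul]

/-- dual bases exist -/
theorem exists_gens [Finite X] (x₀ : X) : ∃ (n : ℕ) (P : Fin n → Place K F) (w : Fin n → X → F)
    (wb : Fin n → Fb), finrank κ (t.Wb (t.Eb x₀)) = n ∧
    C.Pivots M.fixPl t.B (t.Wb (t.Eb x₀)) P ∧ (∀ i, wb i ∈ t.Wb (t.Eb x₀)) ∧
    (∀ i j, value (C.rd (P j)) (wb i) = if i = j then 1 else 0) ∧
    (∀ x, t.Eb x = t.Eb x₀ → ∀ i, w i x ∈ t.W x) ∧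
    (∀ x, t.Eb x = t.Eb x₀ → ∀ i j, value (P j) (w i x) = if i = j then 1 else 0) ∧
    (∀ x, t.Eb x = t.Eb x₀ → ∀ i, G.R (w i x) (wb i)) := by
  classical
  haveI : FiniteDimensional κ (t.Wb (t.Eb x₀)) :=
    finiteDimensional_riemannRochSpace _
  obtain ⟨P, hP⟩ := C.exists_pivots t.hT t.B_finite _ (t.Wb (t.Eb x₀)) rfl (t.regb_W x₀)
  obtain ⟨wb, hwb, hwbv⟩ := C.exists_dualb (t.regb_W x₀) rfl hP
  have key : ∀ x, ∃ w : Fin (finrank κ (t.Wb (t.Eb x₀))) → F, t.Eb x = t.Eb x₀ →
      (∀ i, w i ∈ t.W x) ∧ (∀ i j, value (P j) (w i) = if i = j then 1 else 0) ∧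
        ∀ i, G.R (w i) (wb i) := by
    intro x
    by_cases hx : t.Eb x = t.Eb x₀
    · haveI : FiniteDimensional K (t.W x) := finiteDimensional_riemannRochSpace _
      have hred := t.redIn_W x
      rw [hx] at hred
      have hdim : finrank K (t.W x) = finrank κ (t.Wb (t.Eb x₀)) := by
        have := t.ell_W x
        rw [hx] at this
        exact this
      obtain ⟨w, h1, h2, h3⟩ := C.exists_dual hred hdim hP hwb hwbv (t.regb_W x₀)
      exact ⟨w, fun _ => ⟨h1, h2, h3⟩⟩
    · exact ⟨fun _ => 0, fun h => absurd h hx⟩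
  choose w hw using key
  exact ⟨_, P, fun i x => w x i, wb, rfl, hP, hwb, hwbv, fun x hx i => (hw x hx).1 i,
    fun x hx i j => (hw x hx).2.1 i j, fun x hx i => (hw x hx).2.2 i⟩

/-- separation of points -/
theorem sep [Finite X] {x y : X} (hxy : ∀ h ∈ t.H, h x = h y) : x = y := by
  classical
  have hEb : t.Eb x = t.Eb y := by
    have h1 := hxy _ (t.idem_mem (t.Eb y))
    rw [idem, idem, if_pos rfl] at h1
    by_contra hne
    rw [if_neg hne] at h1
    exact zero_ne_one h1
  obtain ⟨n, P, w, wb, hn, hP, hwb, hwbv, hw, hwv, hwR⟩ := t.exists_gens y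
  have hred := t.redIn_W x
  rw [hEb] at hred
  have hredy := t.redIn_W y
  -- the dual bases agree
  have hval : ∀ i, ∀ P' ∈ M.fixPl, C.rd P' ∉ t.B → value P' (w i x) = value P' (w i y) := by
    intro i P' hP' hB
    have h1 := hxy _ (t.gen_mem ⟨t.Eb y, n, P, w, wb, i, P', hP, hw, hwv, hwR, hP', hB, rfl⟩)
    simp only [if_pos hEb, if_true] at h1
    exact h1
  have hweq : ∀ i, w i x = w i y := by
    intro i
    by_contra hne
    have hne' : w i x - w i y ≠ 0 := sub_ne_zero.2 hne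
    obtain ⟨P', hP'T, hP'⟩ := t.hT (t.B ∪ C.rd '' (Function.support fun v : Place K F =>
      v.ord (w i x - w i y))) (t.B_finite.union ((finite_support _).image _))
    rw [Set.mem_union, not_or] at hP'
    have h1 : P'.ord (w i x - w i y) = 0 := by
      by_contra h0
      exact hP'.2 ⟨P', h0, rfl⟩
    apply value_ne_zero_of_ord hne' h1
    rw [value_sub _ (hred.reg _ (hw x hEb i) _ hP'.1) (hredy.reg _ (hw y rfl i) _ hP'.1),
      hval i P' hP'T hP'.1, sub_self]
  -- equality of the spaces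
  have hsub : ∀ {x y : X}, t.Eb x = t.Eb y → (∀ i, w i x ∈ t.W x) → C.RedIn t.B (t.W x) (t.Wb (t.Eb y)) →
      (∀ i j, value (P j) (w i x) = if i = j then 1 else 0) → C.Pivots M.fixPl t.B (t.Wb (t.Eb y)) P →
      t.W x = Submodule.span K (Set.range fun i => w i x) := by
    intro x y _ hwx hredx hwvx hP
    apply le_antisymm
    · intro f hf
      have : f = ∑ i, value (P i) f • w i x := by
        rw [← sub_eq_zero]
        refine C.eq_zero_of_pivots hredx hP (Submodule.sub_mem _ hf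
          (Submodule.sum_mem _ fun i _ => Submodule.smul_mem _ _ (hwx i))) fun j => ?_
        have hj := hP.out j
        rw [value_sub _ (hredx.reg _ hf _ hj)
          (sum_mem fun i _ => smul_mem_place _ _ (hredx.reg _ (hwx i) _ hj)),
          value_sum_smul _ _ _ fun i _ => hredx.reg _ (hwx i) _ hj]
        simp only [hwvx, mul_ite, mul_one, mul_zero, Finset.sum_ite_eq', Finset.mem_univ, if_true,
          sub_self]
      rw [this]
      exact Submodule.sum_mem _ fun i _ => Submodule.smul_mem _ _ (Submodule.subset_span ⟨i, rfl⟩)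
    · rw [Submodule.span_le]
      rintro _ ⟨i, rfl⟩
      exact hwx i
  have hWeq : t.W x = t.W y := by
    rw [hsub hEb (hw x hEb) hred (hwv x hEb) hP, hsub rfl (hw y rfl) hredy (hwv y rfl) hP]
    congr 1
    congr 1
    funext i
    exact hweq i
  -- recover the divisor by base point freeness
  apply t.E_inj
  have hle : ∀ {x y : X}, t.W x = t.W y → t.E x ≤ t.E y := by
    intro x y hW P
    obtain ⟨f, hf, hf0, hfP⟩ := t.hK.bpf (D := t.m + -t.E y) (by
      rw [map_add, map_neg, t.degree_E]; have := t.m_deg'; omega) P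
    have h1 : f ∈ t.W x := by rw [hW]; exact hf
    have h2 := (mem_iff_of_ne hf0).1 h1 P
    rw [hfP] at h2
    simp only [Finsupp.add_apply, Finsupp.neg_apply] at h2
    omega
  exact le_antisymm (hle hWeq) (hle hWeq.symm)

end TorData

end Fermat.Agent.PicFlat
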